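import Fermat.Agent.ExtVan.Thaine

set_option autoImplicit false

/-!
# Approximation at primes with trivial decomposition group
-/

namespace Fermat.Agent.ExtVan

open NumberField Finset Module IsDedekindDomain
open scoped Pointwise

variable {K M : Type*} [Field K] [NumberField K] [Field M] [NumberField M] [Algebra K M]
  [IsGalois K M]

lemma exists_algebraMap_eq_sum (x : 𝓞 M) : ∃ y : 𝓞 K, algebraMap (𝓞 K) (𝓞 M) y =
    ∑ g : M ≃ₐ[K] M, g • x := by
  have hint : IsIntegral ℤ (Algebra.trace K M (x : M)) :=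
    Algebra.isIntegral_trace (RingOfIntegers.isIntegral_coe x)
  set y : 𝓞 K := ⟨Algebra.trace K M (x : M), hint⟩ with hy
  refine ⟨y, ?_⟩
  apply RingOfIntegers.coe_injective
  rw [map_sum]
  have h1 : algebraMap (𝓞 M) M (algebraMap (𝓞 K) (𝓞 M) y) =
      algebraMap K M (Algebra.trace K M (x : M)) := rfl
  rw [h1, trace_eq_sum_automorphisms]
  rfl

theorem exists_approx (P : HeightOneSpectrum (𝓞 M))
    (hP : ∀ g : M ≃ₐ[K] M, g • P.asIdeal = P.asIdeal → g = 1) (β : 𝓞 M) (N : ℕ) :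
    ∃ y : 𝓞 K, β - algebraMap (𝓞 K) (𝓞 M) y ∈ P.asIdeal ^ N := by
  classical
  have hprime : Prime P.asIdeal := P.prime
  obtain ⟨e, he⟩ := IsDedekindDomain.exists_forall_sub_mem_ideal (R := 𝓞 M)
    (s := (univ : Finset (M ≃ₐ[K] M))) (fun g => g⁻¹ • P.asIdeal) (fun _ => N)
    (fun g _ => by
      have h1 : (g⁻¹ • P.asIdeal).IsPrime := by
        have := P.isPrime
        infer_instance
      have h2 : g⁻¹ • P.asIdeal ≠ ⊥ := by
        intro h
        apply P.ne_bot
        have h3 := congrArg (fun I => g • I) h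
        simp only [smul_inv_smul] at h3
        rw [h3]
        ext x
        rw [Ideal.mem_pointwise_smul_iff_inv_smul_mem, Ideal.mem_bot, Ideal.mem_bot,
          smul_eq_zero_iff_eq]
      exact Ideal.prime_of_isPrime h2 h1)
    (fun g _ h _ hgh heq => hgh (by
      have h3 := congrArg (fun I => h • I) heq
      simp only [smul_smul] at h3
      rw [mul_inv_cancel, one_smul] at h3
      have h4 := hP _ h3
      exact (mul_inv_eq_one.1 h4).symm)) (fun g => if (g : M ≃ₐ[K] M) = 1 then 1 else 0)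
  obtain ⟨y, hy⟩ := exists_algebraMap_eq_sum (K := K) (e * β)
  refine ⟨y, ?_⟩
  rw [hy, ← Finset.add_sum_erase univ _ (mem_univ (1 : M ≃ₐ[K] M))]
  have h1 : e - 1 ∈ P.asIdeal ^ N := by
    have := he 1 (mem_univ _)
    simpa using this
  have h2 : ∀ g ∈ univ.erase (1 : M ≃ₐ[K] M), g • (e * β) ∈ P.asIdeal ^ N := by
    intro g hg
    have h3 := he g (mem_univ _)
    rw [if_neg (Finset.ne_of_mem_erase hg), sub_zero] at h3
    rw [smul_mul']
    apply Ideal.mul_mem_right
    have h4 : g • e ∈ g • ((g⁻¹ • P.asIdeal) ^ N) := Ideal.smul_mem_pointwise_smul _ _ _ h3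
    rwa [smul_pow', smul_inv_smul] at h4
  have h3 : β - ((1 : M ≃ₐ[K] M) • (e * β) + ∑ g ∈ univ.erase (1 : M ≃ₐ[K] M), g • (e * β)) =
      -((e - 1) * β) - ∑ g ∈ univ.erase (1 : M ≃ₐ[K] M), g • (e * β) := by
    rw [one_smul]
    ring
  rw [h3]
  exact Ideal.sub_mem _ (neg_mem (Ideal.mul_mem_right _ _ h1)) (Ideal.sum_mem _ h2)

end Fermat.Agent.ExtVan
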