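import Fermat.Agent.ExtVan.LBound
import Fermat.Agent.FrobDens.Zeta

set_option autoImplicit false

/-!
# Partial zeta functions of ideal classes agree up to `O(1)`; `L(s, χ) = O(1)`
-/

namespace Fermat.Agent.ExtVan

open NumberField NumberField.Units NumberField.InfinitePlace Finset Module Fermat.Agent.FrobDens
open scoped nonZeroDivisors

variable {K : Type*} [Field K] [NumberField K]

/-- `N(I)^{-s}` -/
noncomputable def nz (s : ℝ) (I : (Ideal (𝓞 K))⁰) : ℝ :=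
  (Ideal.absNorm (I : Ideal (𝓞 K)) : ℝ) ^ (-s)

lemma nz_nonneg (s : ℝ) (I : (Ideal (𝓞 K))⁰) : 0 ≤ nz s I := Real.rpow_nonneg (Nat.cast_nonneg _) _

lemma absNorm_pos (I : (Ideal (𝓞 K))⁰) : 0 < Ideal.absNorm (I : Ideal (𝓞 K)) :=
  Ideal.absNorm_pos_of_nonZeroDivisors I

lemma nz_mul (s : ℝ) (I J : (Ideal (𝓞 K))⁰) : nz s (I * J) = nz s I * nz s J := by
  unfold nz
  rw [Submonoid.coe_mul, map_mul, Nat.cast_mul,
    Real.mul_rpow (Nat.cast_nonneg _) (Nat.cast_nonneg _)]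

theorem hasSum_nz {s : ℝ} (hs : 1 < s) : HasSum (nz (K := K) s) (zval K s) := by
  classical
  set e := Equiv.sigmaFiberEquiv (fun I : (Ideal (𝓞 K))⁰ => Ideal.absNorm (I : Ideal (𝓞 K)))
    with he
  rw [← e.hasSum_iff]
  have hfin : ∀ n : ℕ, Finite {I : (Ideal (𝓞 K))⁰ // Ideal.absNorm (I : Ideal (𝓞 K)) = n} := by
    intro n
    have h1 := Ideal.finite_setOfPred_absNorm_eq (S := 𝓞 K) n
    have h2 : Finite {I : Ideal (𝓞 K) // Ideal.absNorm I = n} := h1.to_subtype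
    exact Finite.of_injective (fun I => (⟨I.1.1, I.2⟩ : {I : Ideal (𝓞 K) // Ideal.absNorm I = n}))
      (fun I J h => Subtype.ext (Subtype.ext (by
        have h3 := congrArg (fun z => z.1) h
        exact h3)))
  have hcard : ∀ n : ℕ, Nat.card {I : (Ideal (𝓞 K))⁰ // Ideal.absNorm (I : Ideal (𝓞 K)) = n} =
      cnt K n := by
    intro n
    rcases eq_or_ne n 0 with rfl | hn
    · rw [cnt_zero, Nat.card_eq_zero]
      left
      exact ⟨fun I => (absNorm_pos I.1).ne' I.2⟩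
    · rw [cnt_of_ne_zero hn]
      refine Nat.card_congr ⟨fun I => ⟨I.1.1, I.2⟩, fun I => ⟨⟨I.1, ?_⟩, I.2⟩, fun _ => rfl,
        fun _ => rfl⟩
      refine mem_nonZeroDivisors_iff_ne_zero.2 fun h0 => hn ?_
      rw [← I.2, h0, Ideal.zero_eq_bot, Ideal.absNorm_bot]
  have hfib : ∀ n : ℕ, HasSum (fun I : {I : (Ideal (𝓞 K))⁰ //
      Ideal.absNorm (I : Ideal (𝓞 K)) = n} => (nz s ∘ e) ⟨n, I⟩) (zterm K s n) := by
    intro n
    have hf : Fintype {I : (Ideal (𝓞 K))⁰ // Ideal.absNorm (I : Ideal (𝓞 K)) = n} :=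
      Fintype.ofFinite _
    have h1 : ∀ I : {I : (Ideal (𝓞 K))⁰ // Ideal.absNorm (I : Ideal (𝓞 K)) = n},
        (nz s ∘ e) ⟨n, I⟩ = (n : ℝ) ^ (-s) := by
      intro I
      show nz s I.1 = _
      rw [nz, I.2]
    have h2 := hasSum_fintype (fun I : {I : (Ideal (𝓞 K))⁰ //
      Ideal.absNorm (I : Ideal (𝓞 K)) = n} => (nz s ∘ e) ⟨n, I⟩)
    rw [Finset.sum_congr rfl fun I _ => h1 I, Finset.sum_const, Finset.card_univ,
      ← Nat.card_eq_fintype_card, hcard, nsmul_eq_mul] at h2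
    exact h2
  have hsum : Summable (nz s ∘ e) := by
    refine (summable_sigma_of_nonneg fun x => nz_nonneg _ _).2 ⟨fun n => (hfib n).summable, ?_⟩
    exact (summable_zterm K hs).congr fun n => ((hfib n).tsum_eq).symm
  exact HasSum.sigma_of_hasSum (summable_zterm K hs).hasSum hfib hsum

lemma summable_nz {s : ℝ} (hs : 1 < s) : Summable (nz (K := K) s) := (hasSum_nz hs).summable

/-- partial zeta function of a class -/
noncomputable def Zc (s : ℝ) (C : ClassGroup (𝓞 K)) : ℝ :=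
  ∑' I : {I : (Ideal (𝓞 K))⁰ // ClassGroup.mk0 I = C}, nz s I.1

lemma hasSum_Zc {s : ℝ} (hs : 1 < s) (C : ClassGroup (𝓞 K)) :
    HasSum (fun I : {I : (Ideal (𝓞 K))⁰ // ClassGroup.mk0 I = C} => nz s I.1) (Zc s C) :=
  ((summable_nz hs).subtype _).hasSum

lemma Zc_nonneg (s : ℝ) (C : ClassGroup (𝓞 K)) : 0 ≤ Zc s C := tsum_nonneg fun _ => nz_nonneg _ _

lemma Zc_le {s : ℝ} (hs : 1 < s) (C : ClassGroup (𝓞 K)) : Zc s C ≤ zval K s := by
  rw [← (hasSum_nz hs).tsum_eq]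
  exact (summable_nz hs).tsum_subtype_le (fun I => nz s I) {I | ClassGroup.mk0 I = C}
    (fun I => nz_nonneg _ _)

section IdealSum

variable (I : (Ideal (𝓞 K))⁰)

lemma exists_gen (J : {J : (Ideal (𝓞 K))⁰ // ClassGroup.mk0 J = (ClassGroup.mk0 I)⁻¹}) :
    ∃ g : 𝓞 K, g ≠ 0 ∧ ((J.1 * I : (Ideal (𝓞 K))⁰) : Ideal (𝓞 K)) = Ideal.span {g} := by
  have h1 : ClassGroup.mk0 (J.1 * I) = 1 := by rw [map_mul, J.2, inv_mul_cancel]
  rw [ClassGroup.mk0_eq_one_iff] at h1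
  obtain ⟨g, hg⟩ := h1.principal
  refine ⟨g, ?_, hg⟩
  rintro rfl
  have h2 : ((J.1 * I : (Ideal (𝓞 K))⁰) : Ideal (𝓞 K)) ≠ 0 :=
    mem_nonZeroDivisors_iff_ne_zero.1 (J.1 * I).2
  apply h2
  rw [hg]
  simp

/-- a generator -/
noncomputable def gen (J : {J : (Ideal (𝓞 K))⁰ // ClassGroup.mk0 J = (ClassGroup.mk0 I)⁻¹}) :
    𝓞 K := (exists_gen I J).choose

lemma gen_ne_zero (J : {J : (Ideal (𝓞 K))⁰ // ClassGroup.mk0 J = (ClassGroup.mk0 I)⁻¹}) :
    gen I J ≠ 0 := (exists_gen I J).choose_spec.1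

lemma span_gen (J : {J : (Ideal (𝓞 K))⁰ // ClassGroup.mk0 J = (ClassGroup.mk0 I)⁻¹}) :
    ((J.1 * I : (Ideal (𝓞 K))⁰) : Ideal (𝓞 K)) = Ideal.span {gen I J} :=
  (exists_gen I J).choose_spec.2

lemma gen_mem (J : {J : (Ideal (𝓞 K))⁰ // ClassGroup.mk0 J = (ClassGroup.mk0 I)⁻¹}) :
    gen I J ∈ (I : Ideal (𝓞 K)) := by
  have h1 : gen I J ∈ ((J.1 * I : (Ideal (𝓞 K))⁰) : Ideal (𝓞 K)) := by
    rw [span_gen]; exact Ideal.mem_span_singleton_self _
  rw [Submonoid.coe_mul] at h1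
  have h2 : (J.1 : Ideal (𝓞 K)) * (I : Ideal (𝓞 K)) ≤ (I : Ideal (𝓞 K)) := Ideal.mul_le_right
  exact h2 h1

/-- the parametrisation of the nonzero elements of an ideal -/
noncomputable def par :
    {J : (Ideal (𝓞 K))⁰ // ClassGroup.mk0 J = (ClassGroup.mk0 I)⁻¹} × (𝓞 K)ˣ →
      {x : (I : Ideal (𝓞 K)) // (x : 𝓞 K) ≠ 0} := fun y =>
  ⟨⟨(y.2 : 𝓞 K) * gen I y.1, Ideal.mul_mem_left _ _ (gen_mem I y.1)⟩,
    mul_ne_zero y.2.ne_zero (gen_ne_zero I y.1)⟩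

lemma par_bijective : Function.Bijective (par I) := by
  constructor
  · rintro ⟨J, u⟩ ⟨J', u'⟩ h
    have h1 : (u : 𝓞 K) * gen I J = (u' : 𝓞 K) * gen I J' :=
      congrArg (fun z => ((z.1 : (I : Ideal (𝓞 K))) : 𝓞 K)) h
    have h2 : Ideal.span {gen I J} = Ideal.span {gen I J'} := by
      rw [Ideal.span_singleton_eq_span_singleton]
      refine ⟨u * u'⁻¹, ?_⟩
      rw [Units.val_mul]
      have h3 : gen I J * ((u : 𝓞 K) * ((u'⁻¹ : (𝓞 K)ˣ) : 𝓞 K)) =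
        ((u : 𝓞 K) * gen I J) * ((u'⁻¹ : (𝓞 K)ˣ) : 𝓞 K) := by ring
      rw [h3, h1, mul_comm ((u' : 𝓞 K)), mul_assoc, Units.mul_inv, mul_one]
    rw [← span_gen, ← span_gen] at h2
    have h4 : J = J' := by
      apply Subtype.ext
      exact mul_right_cancel (Subtype.ext h2)
    subst h4
    have h5 : u = u' := Units.ext (mul_right_cancel₀ (gen_ne_zero I J) h1)
    rw [h5]
  · rintro ⟨⟨x, hx⟩, hx0⟩
    have hx0' : x ≠ 0 := hx0
    have h1 : (I : Ideal (𝓞 K)) ∣ Ideal.span {x} := Ideal.dvd_span_singleton.2 hx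
    obtain ⟨J, hJ⟩ := h1
    have hspan : Ideal.span {x} ≠ 0 := by
      rw [Ne, Ideal.zero_eq_bot, Ideal.span_singleton_eq_bot]; exact hx0'
    have hJ0 : J ≠ 0 := by
      rintro rfl
      exact hspan (by rw [hJ, mul_zero])
    set J' : (Ideal (𝓞 K))⁰ := ⟨J, mem_nonZeroDivisors_iff_ne_zero.2 hJ0⟩ with hJ'
    have h2 : ((J' * I : (Ideal (𝓞 K))⁰) : Ideal (𝓞 K)) = Ideal.span {x} := by
      rw [hJ, mul_comm]; rfl
    have h3 : ClassGroup.mk0 J' = (ClassGroup.mk0 I)⁻¹ := by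
      rw [eq_inv_iff_mul_eq_one, ← map_mul, ClassGroup.mk0_eq_one_iff, h2]
      exact ⟨⟨x, rfl⟩⟩
    have h4 : Ideal.span {gen I ⟨J', h3⟩} = Ideal.span {x} := by rw [← span_gen, h2]
    rw [Ideal.span_singleton_eq_span_singleton] at h4
    obtain ⟨u, hu⟩ := h4
    refine ⟨(⟨J', h3⟩, u), ?_⟩
    apply Subtype.ext
    apply Subtype.ext
    show (u : 𝓞 K) * gen I ⟨J', h3⟩ = x
    rw [mul_comm, hu]

lemma sum_lg_unit (u : (𝓞 K)ˣ) :
    ∑ v : InfinitePlace K, (mult v : ℝ) * lg K ((u : 𝓞 K) : K) v = 0 := by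
  rw [sum_lg (by simp)]
  have h1 : |((Algebra.norm ℚ ((u : 𝓞 K) : K) : ℚ) : ℝ)| = 1 := by
    have := NumberField.Units.norm K u
    exact_mod_cast this
  rw [h1, Real.log_one]

lemma fs_unit_mul (s : ℝ) (u : (𝓞 K)ˣ) {x : 𝓞 K} (hx : x ≠ 0) :
    fs s ((u : 𝓞 K) * x) = wprod (fun i => lam K i (lg K ((u : 𝓞 K) : K) + lg K (x : K))) *
      (Ideal.absNorm (Ideal.span {x}) : ℝ) ^ (-s) := by
  have hx' : (x : K) ≠ 0 := by simpa using hx
  rw [fs_of_ne (mul_ne_zero u.ne_zero hx), Fw]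
  have h1 : lg K (((u : 𝓞 K) * x : 𝓞 K) : K) = lg K ((u : 𝓞 K) : K) + lg K (x : K) := by
    rw [← lg_mul (by simp) hx']
    simp
  rw [h1]
  congr 1
  have h2 : ∑ v : InfinitePlace K, (mult v : ℝ) * (lg K ((u : 𝓞 K) : K) + lg K (x : K)) v =
      Real.log |((Algebra.norm ℚ (x : K) : ℚ) : ℝ)| := by
    simp only [Pi.add_apply, mul_add, Finset.sum_add_distrib]
    rw [sum_lg_unit, zero_add, sum_lg hx']
  rw [h2]
  have h3 : |((Algebra.norm ℚ (x : K) : ℚ) : ℝ)| = (Ideal.absNorm (Ideal.span {x}) : ℝ) := by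
    rw [Ideal.absNorm_span_singleton, ← Algebra.coe_norm_int]
    push_cast
    rw [Nat.cast_natAbs]
    push_cast
    rfl
  rw [h3]
  have h4 : (0 : ℝ) < (Ideal.absNorm (Ideal.span {x}) : ℝ) := by
    have : Ideal.absNorm (Ideal.span {x}) ≠ 0 := by
      rw [Ne, Ideal.absNorm_eq_zero_iff, Ideal.span_singleton_eq_bot]; exact hx
    exact_mod_cast Nat.pos_of_ne_zero this
  rw [Real.rpow_def_of_pos h4]
  congr 1
  ring

theorem hasSum_ideal {s : ℝ} (hs : 1 < s) :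
    HasSum (fun x : (I : Ideal (𝓞 K)) => fs s (x : 𝓞 K))
      (Nat.card (torsion K) * (nz s I * Zc s (ClassGroup.mk0 I)⁻¹)) := by
  have h1 : HasSum (fun y : {J : (Ideal (𝓞 K))⁰ // ClassGroup.mk0 J = (ClassGroup.mk0 I)⁻¹} ×
      (𝓞 K)ˣ => fs s (((par I y).1 : (I : Ideal (𝓞 K))) : 𝓞 K))
      (Nat.card (torsion K) * (nz s I * Zc s (ClassGroup.mk0 I)⁻¹)) := by
    have hval : ∀ y : {J : (Ideal (𝓞 K))⁰ // ClassGroup.mk0 J = (ClassGroup.mk0 I)⁻¹} ×
        (𝓞 K)ˣ, fs s (((par I y).1 : (I : Ideal (𝓞 K))) : 𝓞 K) =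
        wprod (fun i => lam K i (lg K ((y.2 : 𝓞 K) : K) + lg K ((gen I y.1 : 𝓞 K) : K))) *
          (nz s I * nz s y.1.1) := by
      intro y
      show fs s ((y.2 : 𝓞 K) * gen I y.1) = _
      rw [fs_unit_mul s y.2 (gen_ne_zero I y.1), ← span_gen]
      congr 1
      rw [mul_comm (nz s I), ← nz_mul]
      rfl
    have hfib : ∀ J : {J : (Ideal (𝓞 K))⁰ // ClassGroup.mk0 J = (ClassGroup.mk0 I)⁻¹},
        HasSum (fun u : (𝓞 K)ˣ => fs s (((par I (J, u)).1 : (I : Ideal (𝓞 K))) : 𝓞 K))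
          (Nat.card (torsion K) * (nz s I * nz s J.1)) := by
      intro J
      simp only [hval]
      exact (hasSum_units _).mul_right _
    have htot : HasSum (fun J : {J : (Ideal (𝓞 K))⁰ //
        ClassGroup.mk0 J = (ClassGroup.mk0 I)⁻¹} =>
        (Nat.card (torsion K) : ℝ) * (nz s I * nz s J.1))
        (Nat.card (torsion K) * (nz s I * Zc s (ClassGroup.mk0 I)⁻¹)) :=
      ((hasSum_Zc hs _).mul_left _).mul_left _
    have hsum : Summable (fun y : {J : (Ideal (𝓞 K))⁰ //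
        ClassGroup.mk0 J = (ClassGroup.mk0 I)⁻¹} × (𝓞 K)ˣ =>
        fs s (((par I y).1 : (I : Ideal (𝓞 K))) : 𝓞 K)) := by
      refine (summable_prod_of_nonneg fun y => fs_nonneg _ _).2
        ⟨fun J => (hfib J).summable, ?_⟩
      exact htot.summable.congr fun J => ((hfib J).tsum_eq).symm
    have h2 := hsum.hasSum.prod_fiberwise hfib
    rw [← h2.unique htot]
    exact hsum.hasSum
  have h2 : HasSum (fun x : {x : (I : Ideal (𝓞 K)) // (x : 𝓞 K) ≠ 0} =>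
      fs s ((x.1 : (I : Ideal (𝓞 K))) : 𝓞 K))
      (Nat.card (torsion K) * (nz s I * Zc s (ClassGroup.mk0 I)⁻¹)) :=
    ((Equiv.ofBijective _ (par_bijective I)).hasSum_iff).1 h1
  refine (hasSum_subtype_iff_of_support_subset ?_).1 h2
  intro x hx hx0
  apply hx
  show fs s (x : 𝓞 K) = 0
  rw [hx0, fs_zero]

lemma hasSum_top {s : ℝ} (hs : 1 < s) :
    HasSum (fun x : 𝓞 K => fs s x) (Nat.card (torsion K) * Zc s (1 : ClassGroup (𝓞 K))) := by
  have h1 := hasSum_ideal (1 : (Ideal (𝓞 K))⁰) hs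
  have h2 : nz s (1 : (Ideal (𝓞 K))⁰) = 1 := by
    unfold nz
    rw [Submonoid.coe_one, Ideal.one_eq_top, Ideal.absNorm_top, Nat.cast_one, Real.one_rpow]
  rw [h2, map_one, inv_one, one_mul] at h1
  have h3 : Function.Bijective (fun x : (((1 : (Ideal (𝓞 K))⁰) : Ideal (𝓞 K))) => (x : 𝓞 K)) := by
    refine ⟨Subtype.val_injective, fun x => ⟨⟨x, ?_⟩, rfl⟩⟩
    rw [Submonoid.coe_one, Ideal.one_eq_top]
    trivial
  exact ((Equiv.ofBijective _ h3).hasSum_iff (f := fun x : 𝓞 K => fs s x)).1 h1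

/-- coset decomposition -/
noncomputable def cosetEquiv : (𝓞 K ⧸ (I : Ideal (𝓞 K))) × (I : Ideal (𝓞 K)) ≃ 𝓞 K :=
  Equiv.ofBijective (fun y => (y.2 : 𝓞 K) + y.1.out) (by
    constructor
    · rintro ⟨q, x⟩ ⟨q', x'⟩ h
      have h1 : (x : 𝓞 K) + q.out = (x' : 𝓞 K) + q'.out := h
      have h2 := congrArg (Ideal.Quotient.mk (I : Ideal (𝓞 K))) h1
      rw [map_add, map_add, Ideal.Quotient.eq_zero_iff_mem.2 x.2,
        Ideal.Quotient.eq_zero_iff_mem.2 x'.2, zero_add, zero_add, Ideal.Quotient.mk_out,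
        Ideal.Quotient.mk_out] at h2
      subst h2
      have h3 : x = x' := Subtype.ext (add_right_cancel h1)
      rw [h3]
    · intro z
      refine ⟨(Ideal.Quotient.mk (I : Ideal (𝓞 K)) z,
        ⟨z - (Ideal.Quotient.mk (I : Ideal (𝓞 K)) z).out, ?_⟩), ?_⟩
      · rw [← Ideal.Quotient.eq_zero_iff_mem, map_sub, Ideal.Quotient.mk_out, sub_self]
      · show z - (Ideal.Quotient.mk (I : Ideal (𝓞 K)) z).out +
          (Ideal.Quotient.mk (I : Ideal (𝓞 K)) z).out = z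
        ring)

theorem exists_coset_bound : ∃ B : ℝ, ∀ s : ℝ, 1 < s → s ≤ 2 →
    |Zc s (1 : ClassGroup (𝓞 K)) -
      Ideal.absNorm (I : Ideal (𝓞 K)) * (nz s I * Zc s (ClassGroup.mk0 I)⁻¹)| ≤ B := by
  classical
  have hI0 : (I : Ideal (𝓞 K)) ≠ ⊥ := mem_nonZeroDivisors_iff_ne_zero.1 I.2
  have hfin : Finite (𝓞 K ⧸ (I : Ideal (𝓞 K))) := Ideal.finiteQuotientOfFreeOfNeBot _ hI0
  have hft : Fintype (𝓞 K ⧸ (I : Ideal (𝓞 K))) := Fintype.ofFinite _
  have hw : (0 : ℝ) < Nat.card (torsion K) := by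
    have : 0 < Nat.card (torsion K) := Nat.card_pos
    exact_mod_cast this
  have h1w : (1 : ℝ) ≤ Nat.card (torsion K) := by
    have : 0 < Nat.card (torsion K) := Nat.card_pos
    exact_mod_cast this
  choose g hg hgb using fun q : 𝓞 K ⧸ (I : Ideal (𝓞 K)) => exists_shift_bound (K := K) q.out
  refine ⟨∑ q, ∑' x : (I : Ideal (𝓞 K)), g q x, fun s hs hs2 => ?_⟩
  have hI := hasSum_ideal I hs
  have htop := hasSum_top (K := K) hs
  rw [← (cosetEquiv I).hasSum_iff] at htop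
  have hfib : ∀ q : 𝓞 K ⧸ (I : Ideal (𝓞 K)),
      HasSum (fun x : (I : Ideal (𝓞 K)) => fs s ((x : 𝓞 K) + q.out))
        (∑' x : (I : Ideal (𝓞 K)), fs s ((x : 𝓞 K) + q.out)) := fun q =>
    (htop.summable.comp_injective (i := fun x => (q, x))
      (fun x y h => (Prod.mk.inj h).2)).hasSum
  have h1 := htop.prod_fiberwise hfib
  have h2 := h1.unique (hasSum_fintype _)
  have h3 : Nat.card (torsion K) * Zc s (1 : ClassGroup (𝓞 K)) -
      Ideal.absNorm (I : Ideal (𝓞 K)) * (Nat.card (torsion K) *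
        (nz s I * Zc s (ClassGroup.mk0 I)⁻¹)) =
      ∑ q : 𝓞 K ⧸ (I : Ideal (𝓞 K)), ∑' x : (I : Ideal (𝓞 K)),
        (fs s ((x : 𝓞 K) + q.out) - fs s (x : 𝓞 K)) := by
    rw [h2]
    have h4 : ∀ q : 𝓞 K ⧸ (I : Ideal (𝓞 K)), ∑' x : (I : Ideal (𝓞 K)),
        (fs s ((x : 𝓞 K) + q.out) - fs s (x : 𝓞 K)) =
        (∑' x : (I : Ideal (𝓞 K)), fs s ((x : 𝓞 K) + q.out)) -
          Nat.card (torsion K) * (nz s I * Zc s (ClassGroup.mk0 I)⁻¹) := by
      intro q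
      rw [(hfib q).summable.tsum_sub hI.summable, hI.tsum_eq]
    rw [Finset.sum_congr rfl fun q _ => h4 q, Finset.sum_sub_distrib, Finset.sum_const,
      Finset.card_univ, ← Nat.card_eq_fintype_card, nsmul_eq_mul]
    rfl
  have h5 : |Nat.card (torsion K) * Zc s (1 : ClassGroup (𝓞 K)) -
      Ideal.absNorm (I : Ideal (𝓞 K)) * (Nat.card (torsion K) *
        (nz s I * Zc s (ClassGroup.mk0 I)⁻¹))| ≤ ∑ q, ∑' x : (I : Ideal (𝓞 K)), g q x := by
    rw [h3]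
    refine (abs_sum_le_sum_abs _ _).trans (Finset.sum_le_sum fun q _ => ?_)
    have h6 : Summable (fun x : (I : Ideal (𝓞 K)) => g q x) :=
      (hg q).comp_injective Subtype.val_injective
    exact tsum_of_norm_bounded (f := fun x : (I : Ideal (𝓞 K)) =>
      fs s ((x : 𝓞 K) + q.out) - fs s (x : 𝓞 K)) h6.hasSum (fun x => hgb q s hs.le hs2 _)
  have h6 : Nat.card (torsion K) * Zc s (1 : ClassGroup (𝓞 K)) -
      Ideal.absNorm (I : Ideal (𝓞 K)) * (Nat.card (torsion K) *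
        (nz s I * Zc s (ClassGroup.mk0 I)⁻¹)) = Nat.card (torsion K) *
      (Zc s (1 : ClassGroup (𝓞 K)) -
      Ideal.absNorm (I : Ideal (𝓞 K)) * (nz s I * Zc s (ClassGroup.mk0 I)⁻¹)) := by ring
  rw [h6, abs_mul, abs_of_pos hw] at h5
  refine le_trans ?_ h5
  exact le_mul_of_one_le_left (abs_nonneg _) h1w

end IdealSum

/-- `(s-1) ζ_K(s)` is bounded. -/
lemma exists_zval_bound : ∃ B : ℝ, 0 ≤ B ∧ ∀ᶠ s in nhdsWithin (1 : ℝ) (Set.Ioi 1),
    (s - 1) * zval K s ≤ B := by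
  refine ⟨dedekindZeta_residue K + 1, ?_, ?_⟩
  · have := dedekindZeta_residue_pos K
    linarith
  · exact (tendsto_zval K).eventually (eventually_le_nhds (lt_add_one _))

/-- partial zeta functions agree up to bounded functions -/
theorem exists_class_bound (C : ClassGroup (𝓞 K)) : ∃ B : ℝ,
    ∀ᶠ s in nhdsWithin (1 : ℝ) (Set.Ioi 1), |Zc s (1 : ClassGroup (𝓞 K)) - Zc s C| ≤ B := by
  obtain ⟨I, hI⟩ := ClassGroup.mk0_surjective (C⁻¹)
  obtain ⟨B, hB⟩ := exists_coset_bound I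
  obtain ⟨B', hB'0, hB'⟩ := exists_zval_bound (K := K)
  set N : ℝ := ((Ideal.absNorm (I : Ideal (𝓞 K)) : ℕ) : ℝ) with hN
  have hN1 : 1 ≤ N := by
    rw [hN]
    exact_mod_cast Nat.succ_le_of_lt (absNorm_pos I)
  refine ⟨B + Real.log N * B', ?_⟩
  filter_upwards [hB', self_mem_nhdsWithin, Ioo_mem_nhdsGT (show (1 : ℝ) < 2 by norm_num)]
    with s hs hs1 hs2
  have hs1' : 1 < s := hs1
  have h1 := hB s hs1 hs2.2.le
  rw [hI, inv_inv] at h1
  have h2 : |N * (nz s I * Zc s C) - Zc s C| ≤ Real.log N * B' := by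
    have h3 : N * (nz s I * Zc s C) - Zc s C = -((1 - N * nz s I) * Zc s C) := by ring
    have h4 : N * nz s I = Real.exp (-((s - 1) * Real.log N)) := by
      unfold nz
      rw [← hN, Real.rpow_def_of_pos (by linarith)]
      conv_lhs => rw [← Real.exp_log (show 0 < N by linarith)]
      rw [Real.log_exp, ← Real.exp_add]
      congr 1
      ring
    have hlog : 0 ≤ Real.log N := Real.log_nonneg hN1
    have h5 : 0 ≤ 1 - N * nz s I := by
      rw [h4]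
      have : Real.exp (-((s - 1) * Real.log N)) ≤ 1 := by
        apply Real.exp_le_one_iff.2
        have : 0 ≤ (s - 1) * Real.log N := mul_nonneg (by linarith) hlog
        linarith
      linarith
    have h6 : 1 - N * nz s I ≤ (s - 1) * Real.log N := by
      rw [h4]
      have := Real.add_one_le_exp (-((s - 1) * Real.log N))
      linarith
    rw [h3, abs_neg, abs_mul, abs_of_nonneg h5, abs_of_nonneg (Zc_nonneg s C)]
    calc (1 - N * nz s I) * Zc s C ≤ ((s - 1) * Real.log N) * zval K s :=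
          mul_le_mul h6 (Zc_le hs1 C) (Zc_nonneg s C) (mul_nonneg (by linarith) hlog)
      _ = Real.log N * ((s - 1) * zval K s) := by ring
      _ ≤ Real.log N * B' := mul_le_mul_of_nonneg_left hs hlog
  calc |Zc s (1 : ClassGroup (𝓞 K)) - Zc s C| = |(Zc s (1 : ClassGroup (𝓞 K)) -
        N * (nz s I * Zc s C)) + (N * (nz s I * Zc s C) - Zc s C)| := by congr 1; ring
    _ ≤ _ := (abs_add_le _ _).trans (add_le_add h1 h2)

/-- the `L`-series of a class group character at a real point -/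
noncomputable def Lc (χ : ClassGroup (𝓞 K) →* ℂ) (s : ℝ) : ℂ :=
  ∑' I : (Ideal (𝓞 K))⁰, χ (ClassGroup.mk0 I) * (nz s I : ℂ)

lemma norm_chi (χ : ClassGroup (𝓞 K) →* ℂ) (C : ClassGroup (𝓞 K)) : ‖χ C‖ = 1 := by
  have h1 : (χ C) ^ Fintype.card (ClassGroup (𝓞 K)) = 1 := by
    rw [← map_pow, pow_card_eq_one, map_one]
  exact Complex.norm_eq_one_of_pow_eq_one h1 Fintype.card_ne_zero

lemma summable_Lc (χ : ClassGroup (𝓞 K) →* ℂ) {s : ℝ} (hs : 1 < s) :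
    Summable (fun I : (Ideal (𝓞 K))⁰ => χ (ClassGroup.mk0 I) * (nz s I : ℂ)) := by
  refine Summable.of_norm_bounded (summable_nz hs) fun I => ?_
  rw [norm_mul, norm_chi, one_mul, Complex.norm_real, Real.norm_of_nonneg (nz_nonneg s I)]

lemma Lc_eq (χ : ClassGroup (𝓞 K) →* ℂ) {s : ℝ} (hs : 1 < s) :
    Lc χ s = ∑ C : ClassGroup (𝓞 K), χ C * (Zc s C : ℂ) := by
  have h1 := (summable_Lc χ hs).hasSum
  rw [← (Equiv.sigmaFiberEquiv (fun I : (Ideal (𝓞 K))⁰ => ClassGroup.mk0 I)).hasSum_iff] at h1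
  have h2 : ∀ C : ClassGroup (𝓞 K), HasSum (fun I : {I : (Ideal (𝓞 K))⁰ // ClassGroup.mk0 I = C} =>
      χ (ClassGroup.mk0 I.1) * (nz s I.1 : ℂ)) (χ C * (Zc s C : ℂ)) := by
    intro C
    have h3 := (Complex.hasSum_ofReal.2 (hasSum_Zc hs C)).mul_left (χ C)
    have h4 : (fun I : {I : (Ideal (𝓞 K))⁰ // ClassGroup.mk0 I = C} =>
        χ (ClassGroup.mk0 I.1) * (nz s I.1 : ℂ)) = fun I => χ C * (nz s I.1 : ℂ) := by
      funext I
      rw [I.2]
    rw [h4]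
    exact h3
  have h3 := h1.sigma h2
  exact h3.unique (hasSum_fintype _)

theorem exists_Lc_bound (χ : ClassGroup (𝓞 K) →* ℂ) (hχ : χ ≠ 1) : ∃ B : ℝ,
    ∀ᶠ s in nhdsWithin (1 : ℝ) (Set.Ioi 1), ‖Lc χ s‖ ≤ B := by
  choose B hB using fun C : ClassGroup (𝓞 K) => exists_class_bound C
  refine ⟨∑ C, B C, ?_⟩
  have hall : ∀ᶠ s in nhdsWithin (1 : ℝ) (Set.Ioi 1), ∀ C : ClassGroup (𝓞 K),
      |Zc s (1 : ClassGroup (𝓞 K)) - Zc s C| ≤ B C := Filter.eventually_all.2 hB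
  have hsum0 : ∑ C : ClassGroup (𝓞 K), χ C = 0 := by
    obtain ⟨C₀, hC₀⟩ : ∃ C₀, χ C₀ ≠ 1 := by
      by_contra hcon
      push Not at hcon
      exact hχ (MonoidHom.ext hcon)
    have h1 : χ C₀ * ∑ C : ClassGroup (𝓞 K), χ C = ∑ C : ClassGroup (𝓞 K), χ C := by
      rw [Finset.mul_sum]
      simp only [← map_mul]
      exact Fintype.sum_bijective (fun C => C₀ * C) (Group.mulLeft_bijective C₀) _ _
        (fun _ => rfl)
    have h2 : (χ C₀ - 1) * ∑ C : ClassGroup (𝓞 K), χ C = 0 := by rw [sub_mul, h1]; ring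
    exact (mul_eq_zero.1 h2).resolve_left (sub_ne_zero.2 hC₀)
  filter_upwards [hall, self_mem_nhdsWithin] with s hs hs1
  have h1 : Lc χ s = ∑ C : ClassGroup (𝓞 K), χ C *
      ((-(Zc s (1 : ClassGroup (𝓞 K)) - Zc s C) : ℝ) : ℂ) := by
    rw [Lc_eq χ hs1]
    have h2 : ∀ C : ClassGroup (𝓞 K), χ C * ((-(Zc s (1 : ClassGroup (𝓞 K)) - Zc s C) : ℝ) : ℂ) =
        χ C * (Zc s C : ℂ) - χ C * (Zc s (1 : ClassGroup (𝓞 K)) : ℂ) := by
      intro C
      push_cast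
      ring
    rw [Finset.sum_congr rfl fun C _ => h2 C, Finset.sum_sub_distrib, ← Finset.sum_mul, hsum0,
      zero_mul, sub_zero]
  rw [h1]
  refine (norm_sum_le _ _).trans (Finset.sum_le_sum fun C _ => ?_)
  rw [norm_mul, norm_chi, one_mul, Complex.norm_real, norm_neg]
  exact hs C

end Fermat.Agent.ExtVan
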