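import Mathlib

set_option autoImplicit false

/-!
# From equivariant elements of order `p` to equivariant characters of order `p`
-/

namespace Fermat.Agent.ExtVan

open Finset

lemma pow_eq_of_modEq {M : Type*} [Monoid M] {x : M} {N a b : ℕ} (hx : x ^ N = 1)
    (h : a ≡ b [MOD N]) : x ^ a = x ^ b := by
  rw [← Nat.mod_add_div a N, ← Nat.mod_add_div b N, pow_add, pow_add, pow_mul, pow_mul, hx, one_pow,
    one_pow, h]

variable {p : ℕ} [hp : Fact p.Prime]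

/-- a multiplicative lift modulo `p^(e+1)` -/
def tei (e : ℕ) (u : (ZMod p)ˣ) : ℕ := (u : ZMod p).val ^ p ^ e

lemma tei_mul (e : ℕ) (u v : (ZMod p)ˣ) :
    tei e (u * v) ≡ tei e u * tei e v [MOD p ^ (e + 1)] := by
  rw [← Int.natCast_modEq_iff]
  have h1 : (p : ℤ) ∣ (((u : ZMod p).val * (v : ZMod p).val : ℕ) : ℤ) -
      (((u * v : (ZMod p)ˣ) : ZMod p).val : ℤ) := by
    rw [← Int.modEq_iff_dvd, Int.natCast_modEq_iff, ← ZMod.natCast_eq_natCast_iff]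
    push_cast
    simp only [ZMod.natCast_val, ZMod.cast_id]
  have h2 := dvd_sub_pow_of_dvd_sub h1 e
  rw [Int.modEq_iff_dvd]
  unfold tei
  push_cast at h2 ⊢
  rw [← mul_pow]
  exact h2

lemma tei_one (e : ℕ) : tei e (1 : (ZMod p)ˣ) = 1 := by
  have : Fact (1 < p) := ⟨hp.out.one_lt⟩
  simp [tei, ZMod.val_one]

lemma tei_modEq (e : ℕ) (u : (ZMod p)ˣ) : tei e u ≡ (u : ZMod p).val [MOD p] := by
  rw [← ZMod.natCast_eq_natCast_iff]
  unfold tei
  push_cast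
  have h : ∀ k : ℕ, (((u : ZMod p).val : ℕ) : ZMod p) ^ p ^ k = (((u : ZMod p).val : ℕ) : ZMod p) := by
    intro k
    induction k with
    | zero => rw [pow_zero, pow_one]
    | succ k ih => rw [pow_succ, pow_mul, ih, ZMod.pow_card]
  exact h e

theorem exists_equivariant_char {G : Type*} [CommGroup G] [Finite G]
    (σ : (ZMod p)ˣ → (G ≃* G)) (hσ : ∀ a b g, σ (a * b) g = σ a (σ b g))
    (w : (ZMod p)ˣ →* (ZMod p)ˣ) (c : G) (hc : c ^ p = 1) (hc1 : c ≠ 1)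
    (hσc : ∀ a, σ a c = c ^ (w a : ZMod p).val) :
    ∃ χ : G →* ℂ, (∀ g, χ g ^ p = 1) ∧ χ ≠ 1 ∧ ∀ a g, χ (σ a g) = χ g ^ (w a : ZMod p).val := by
  classical
  have : NeZero p := ⟨hp.out.ne_zero⟩
  obtain ⟨e, m, hpm, hcard⟩ := Nat.exists_eq_pow_mul_and_not_dvd (n := Nat.card G)
    (Nat.card_pos.ne') p hp.out.ne_one
  obtain ⟨χ₀, hχ₀⟩ := CommGroup.exists_apply_ne_one_of_hasEnoughRootsOfUnity G ℂ hc1
  set χ₁ : G →* ℂˣ := χ₀ ^ m with hχ₁
  have hχ₁p : ∀ g, χ₁ g ^ p ^ e = 1 := by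
    intro g
    rw [hχ₁, MonoidHom.pow_apply, ← pow_mul, mul_comm m, ← hcard, ← map_pow, pow_card_eq_one',
      map_one]
  have hχ₁p' : ∀ g, χ₁ g ^ p ^ (e + 1) = 1 := by
    intro g
    rw [pow_succ, pow_mul, hχ₁p, one_pow]
  have hχ₁c : χ₁ c ≠ 1 := by
    intro h
    rw [hχ₁, MonoidHom.pow_apply] at h
    have h2 : orderOf (χ₀ c) = p := by
      apply orderOf_eq_prime _ hχ₀
      rw [← map_pow, hc, map_one]
    have h3 := orderOf_dvd_of_pow_eq_one h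
    rw [h2] at h3
    exact hpm h3
  set χ₂ : G →* ℂˣ := ∏ a : (ZMod p)ˣ, (χ₁.comp (σ a : G →* G)) ^ (tei e (w a⁻¹)) with hχ₂
  have hχ₂g : ∀ g, χ₂ g = ∏ a : (ZMod p)ˣ, χ₁ (σ a g) ^ (tei e (w a⁻¹)) := by
    intro g
    rw [hχ₂, MonoidHom.finsetProd_apply]
    rfl
  have hχ₂p : ∀ g, χ₂ g ^ p ^ e = 1 := by
    intro g
    rw [hχ₂g, ← Finset.prod_pow]
    refine Finset.prod_eq_one fun a _ => ?_
    rw [← pow_mul, mul_comm, pow_mul, hχ₁p, one_pow]
  have hχ₂σ : ∀ b g, χ₂ (σ b g) = χ₂ g ^ (tei e (w b)) := by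
    intro b g
    rw [hχ₂g, hχ₂g, ← Finset.prod_pow]
    refine Fintype.prod_equiv (Equiv.mulRight b) _ _ fun a => ?_
    rw [← hσ, Equiv.coe_mulRight, ← pow_mul]
    apply pow_eq_of_modEq (hχ₁p' _)
    have h1 : w a⁻¹ = w (a * b)⁻¹ * w b := by
      rw [← map_mul]
      congr 1
      rw [mul_inv_rev]
      rw [mul_comm b⁻¹, mul_assoc, inv_mul_cancel, mul_one]
    rw [h1]
    exact tei_mul e _ _
  have hχ₂c : χ₂ c = χ₁ c ^ (p - 1) := by
    rw [hχ₂g]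
    have h1 : ∀ a : (ZMod p)ˣ, χ₁ (σ a c) ^ (tei e (w a⁻¹)) = χ₁ c := by
      intro a
      rw [hσc, map_pow, ← pow_mul]
      have h2 : χ₁ c ^ p = 1 := by rw [← map_pow, hc, map_one]
      have h3 : (w a : ZMod p).val * tei e (w a⁻¹) ≡ 1 [MOD p] := by
        have h4 := (tei_modEq e (w a⁻¹)).mul_left ((w a : ZMod p).val)
        refine h4.trans ?_
        rw [← ZMod.natCast_eq_natCast_iff]
        push_cast
        rw [ZMod.natCast_zmod_val, ZMod.natCast_zmod_val, ← Units.val_mul, ← map_mul,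
          mul_inv_cancel, map_one, Units.val_one]
      rw [pow_eq_of_modEq h2 h3, pow_one]
    rw [Finset.prod_congr rfl fun a _ => h1 a, Finset.prod_const, Finset.card_univ,
      ZMod.card_units_eq_totient, Nat.totient_prime hp.out]
  have hχ₂ne : χ₂ ≠ 1 := by
    intro h
    rw [h, MonoidHom.one_apply] at hχ₂c
    apply hχ₁c
    have h2 : χ₁ c ^ p = 1 := by rw [← map_pow, hc, map_one]
    have h3 : p = (p - 1) + 1 := (Nat.sub_add_cancel hp.out.one_le).symm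
    rw [h3, pow_succ, ← hχ₂c, one_mul] at h2
    exact h2
  have hex : ∃ j, ∀ g, χ₂ g ^ p ^ j = 1 := ⟨e, hχ₂p⟩
  set j := Nat.find hex with hj
  have hj1 : ∀ g, χ₂ g ^ p ^ j = 1 := Nat.find_spec hex
  have hj0 : j ≠ 0 := by
    intro h0
    rw [h0, pow_zero] at hj1
    apply hχ₂ne
    ext g
    have := hj1 g
    rw [pow_one] at this
    rw [this]
    rfl
  obtain ⟨i, hi⟩ := Nat.exists_eq_succ_of_ne_zero hj0
  have hne : ¬ ∀ g, χ₂ g ^ p ^ i = 1 := Nat.find_min hex (by omega)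
  have hp1 : ∀ g, (χ₂ g ^ p ^ i) ^ p = 1 := by
    intro g
    rw [← pow_mul, ← pow_succ, ← Nat.succ_eq_add_one, ← hi]
    exact hj1 g
  refine ⟨(Units.coeHom ℂ).comp (χ₂ ^ p ^ i), ?_, ?_, ?_⟩
  · intro g
    have := congrArg Units.val (hp1 g)
    simpa using this
  · intro h
    apply hne
    intro g
    have := DFunLike.congr_fun h g
    apply Units.ext
    simpa using this
  · intro a g
    have h1 : (χ₂ ^ p ^ i) (σ a g) = ((χ₂ ^ p ^ i) g) ^ (w a : ZMod p).val := by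
      rw [MonoidHom.pow_apply, MonoidHom.pow_apply, hχ₂σ, ← pow_mul, mul_comm, pow_mul]
      exact pow_eq_of_modEq (hp1 g) (tei_modEq e _)
    rw [MonoidHom.comp_apply, h1, map_pow]
    rfl

end Fermat.Agent.ExtVan
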