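import Fermat.Agent.ExtVan.NoChar
import Fermat.Agent.ExtVan.Duality

set_option autoImplicit false

/-!
# The `ω²`-part of the `p`-torsion of the class group of `ℚ(μ_p)` is trivial
-/

namespace Fermat.Agent.ExtVan

open NumberField Finset Module

variable {p : ℕ} [hp : Fact p.Prime] {K : Type} [Field K] [NumberField K]
  [hK : IsCyclotomicExtension {p} ℚ K] {ζ : K} (hζ : IsPrimitiveRoot ζ p)

include hζ in
theorem class_trivial (hp5 : 5 ≤ p) (c : ClassGroup (𝓞 K)) (hc : c ^ p = 1)
    (hσc : ∀ a : (ZMod p)ˣ, cg K a c = c ^ ((a ^ 2 : (ZMod p)ˣ) : ZMod p).val) : c = 1 := by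
  have : NeZero p := ⟨hp.out.ne_zero⟩
  by_contra hc1
  obtain ⟨χ, h1, h2, h3⟩ := exists_equivariant_char (p := p) (fun a => cg K a)
    (fun a b g => by
      show ClassGroup.mulEquiv _ g = ClassGroup.mulEquiv _ (ClassGroup.mulEquiv _ g)
      rw [← ClassGroup.mulEquiv_trans_apply]
      congr 2
      ext x
      exact congrArg _ (sg_mul a b x)) (powMonoidHom 2) c hc hc1 hσc
  exact h2 (no_char hζ hp5 χ h1 h3)

end Fermat.Agent.ExtVan
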