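import Fermat.Agent.ExtVan.Removal

set_option autoImplicit false

/-!
# Primes where a class group character is nontrivial have density at least `1/2`
-/

namespace Fermat.Agent.ExtVan

open NumberField Finset Module Fermat.Agent.FrobDens IsDedekindDomain Filter Topology
open scoped nonZeroDivisors

variable {K : Type*} [Field K] [NumberField K]

/-- number of primes in `Z` of norm `m` -/
noncomputable def bZ (Z : Set (HeightOneSpectrum (𝓞 K))) (m : ℕ) : ℕ :=
  Nat.card {q : Z // Ideal.absNorm q.1.asIdeal = m}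

lemma finite_fib (m : ℕ) : Finite {I : (Ideal (𝓞 K))⁰ // Ideal.absNorm (I : Ideal (𝓞 K)) = m} := by
  have h1 := Ideal.finite_setOfPred_absNorm_eq (S := 𝓞 K) m
  have h2 : Finite {I : Ideal (𝓞 K) // Ideal.absNorm I = m} := h1.to_subtype
  exact Finite.of_injective (fun I => (⟨I.1.1, I.2⟩ : {I : Ideal (𝓞 K) // Ideal.absNorm I = m}))
    (fun I J h => Subtype.ext (Subtype.ext (by
      have h3 := congrArg (fun z => z.1) h
      exact h3)))

lemma finite_fibZ (Z : Set (HeightOneSpectrum (𝓞 K))) (m : ℕ) :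
    Finite {q : Z // Ideal.absNorm q.1.asIdeal = m} := by
  have := finite_fib (K := K) m
  exact Finite.of_injective (fun q => (⟨pI q.1.1, q.2⟩ :
      {I : (Ideal (𝓞 K))⁰ // Ideal.absNorm (I : Ideal (𝓞 K)) = m}))
    (fun q q' h => Subtype.ext (Subtype.ext (pI_injective (by
      have h3 := congrArg (fun z => z.1) h
      exact h3))))

lemma bZ_le (Z : Set (HeightOneSpectrum (𝓞 K))) {m : ℕ} (hm : m ≠ 0) : bZ Z m ≤ cnt K m := by
  rw [cnt_of_ne_zero hm]
  have h1 := Ideal.finite_setOfPred_absNorm_eq (S := 𝓞 K) m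
  have h2 : Finite {I : Ideal (𝓞 K) // Ideal.absNorm I = m} := h1.to_subtype
  exact Nat.card_le_card_of_injective
    (fun q : {q : Z // Ideal.absNorm q.1.asIdeal = m} =>
      (⟨q.1.1.asIdeal, q.2⟩ : {I : Ideal (𝓞 K) // Ideal.absNorm I = m}))
    (fun q q' h => Subtype.ext (Subtype.ext (HeightOneSpectrum.ext (by
      have h3 := congrArg (fun z => z.1) h
      exact h3))))

lemma bZ_eq_zero (Z : Set (HeightOneSpectrum (𝓞 K))) {m : ℕ} (hm : ¬ IsPrimePow m) :
    bZ Z m = 0 := by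
  rw [bZ, Nat.card_eq_zero]
  left
  refine ⟨fun q => hm ?_⟩
  rw [← q.2]
  have hmax := q.1.1.isMaximal
  have hfin : Finite (𝓞 K ⧸ q.1.1.asIdeal) := Ideal.finiteQuotientOfFreeOfNeBot _ q.1.1.ne_bot
  letI := Ideal.Quotient.field q.1.1.asIdeal
  have hft : Fintype (𝓞 K ⧸ q.1.1.asIdeal) := Fintype.ofFinite _
  rw [Ideal.absNorm_apply, Submodule.cardQuot_apply, Nat.card_eq_fintype_card]
  exact Fintype.isPrimePow_card_of_field

/-- the series grouped by norms -/
lemma tsum_Z_eq (Z : Set (HeightOneSpectrum (𝓞 K))) {s : ℝ} (hs : 1 < s) :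
    HasSum (fun m : ℕ => (bZ Z m : ℝ) * (m : ℝ) ^ (-s)) (∑' q : Z, nz s (pI q.1)) := by
  have h1 := (summable_primes hs Z).hasSum
  rw [← (Equiv.sigmaFiberEquiv (fun q : Z => Ideal.absNorm q.1.asIdeal)).hasSum_iff] at h1
  refine h1.sigma fun m => ?_
  have hf := finite_fibZ Z m
  have hft : Fintype {q : Z // Ideal.absNorm q.1.asIdeal = m} := Fintype.ofFinite _
  have h2 := hasSum_fintype (fun q : {q : Z // Ideal.absNorm q.1.asIdeal = m} =>
    (m : ℝ) ^ (-s))
  rw [Finset.sum_const, Finset.card_univ, ← Nat.card_eq_fintype_card, nsmul_eq_mul] at h2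
  have h3 : (fun c : {q : Z // Ideal.absNorm q.1.asIdeal = m} =>
      ((fun q : Z => nz s (pI q.1)) ∘
        (Equiv.sigmaFiberEquiv (fun q : Z => Ideal.absNorm q.1.asIdeal))) ⟨m, c⟩) =
      fun _ => (m : ℝ) ^ (-s) := by
    funext q
    show nz s (pI q.1.1) = _
    unfold nz
    have h4 : Ideal.absNorm ((pI q.1.1 : (Ideal (𝓞 K))⁰) : Ideal (𝓞 K)) = m := q.2
    rw [h4]
  rw [h3]
  exact h2

theorem density_false {χ : ClassGroup (𝓞 K) →* ℂ} (hχ : χ ≠ 1)
    (Z : Set (HeightOneSpectrum (𝓞 K))) (hZ : ∀ q, q ∉ Z → χ (ClassGroup.mk0 (pI q)) = 1)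
    (L : Type*) [Field L] [NumberField L] (c : ℝ) (hc0 : 0 ≤ c) (hc : c < 1 / 2)
    (S : Finset ℕ)
    (h : ∀ ℓ : ℕ, ℓ.Prime → ℓ ∉ S → (bZ Z ℓ : ℝ) ≤ c * cnt L ℓ) : False := by
  classical
  obtain ⟨B, hB⟩ := log_le_sum hχ hZ
  obtain ⟨B₁, hB₁⟩ := exists_bound_psum L
  -- the tail
  set A₁ : ℝ := ∑' ℓ : Nat.Primes, locC (Module.finrank ℚ K) * (((ℓ : ℕ) : ℝ) ^ 2)⁻¹ with hA₁
  set A₂ : ℝ := ∑ m ∈ S, (cnt K m : ℝ) with hA₂
  have hbound : ∀ s : ℝ, 1 < s → (∑' q : Z, nz s (pI q.1)) ≤ c * psum L s + A₂ + A₁ := by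
    intro s hs
    set f : ℕ → ℝ := fun m => (bZ Z m : ℝ) * (m : ℝ) ^ (-s) with hf
    have hfs := tsum_Z_eq Z hs
    have hf0 : ∀ m, 0 ≤ f m := fun m => by positivity
    have hfz : ∀ m, f m ≤ zterm K s m := by
      intro m
      rcases eq_or_ne m 0 with rfl | hm
      · rw [zterm_zero, hf]
        simp only [Nat.cast_zero]
        rw [Real.zero_rpow (by linarith), mul_zero]
      · exact mul_le_mul_of_nonneg_right (by exact_mod_cast bZ_le Z hm)
          (Real.rpow_nonneg (Nat.cast_nonneg _) _)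
    have hsupp : Function.support f ⊆ {n | IsPrimePow n} := by
      intro m hm
      by_contra hc
      apply hm
      show (bZ Z m : ℝ) * (m : ℝ) ^ (-s) = 0
      rw [bZ_eq_zero Z hc, Nat.cast_zero, zero_mul]
    have h1 := tsum_eq_tsum_primes_add_tsum_primes_of_support_subset_prime_powers hfs.summable hsupp
    rw [← hfs.tsum_eq, h1]
    have h2 : ∑' ℓ : Nat.Primes, f ℓ ≤ c * psum L s + A₂ := by
      have h3 : ∀ ℓ : Nat.Primes, f ℓ ≤ c * zterm L s ℓ +
          (if (ℓ : ℕ) ∈ S then (cnt K ℓ : ℝ) else 0) := by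
        intro ℓ
        have hz0 := zterm_nonneg L s ℓ
        split_ifs with hS
        · have h4 : f ℓ ≤ cnt K ℓ := by
            refine (hfz ℓ).trans ?_
            refine mul_le_of_le_one_right (Nat.cast_nonneg _) ?_
            exact Real.rpow_le_one_of_one_le_of_nonpos (by exact_mod_cast ℓ.2.one_le)
              (by linarith)
          have := mul_nonneg hc0 hz0
          linarith
        · rw [add_zero]
          have h5 := h ℓ ℓ.2 hS
          calc f ℓ ≤ (c * cnt L ℓ) * ((ℓ : ℕ) : ℝ) ^ (-s) :=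
                mul_le_mul_of_nonneg_right h5 (Real.rpow_nonneg (Nat.cast_nonneg _) _)
            _ = c * zterm L s ℓ := by unfold zterm; ring
      have h6 : HasSum (fun ℓ : Nat.Primes => if (ℓ : ℕ) ∈ S then (cnt K ℓ : ℝ) else 0)
          (∑' ℓ : Nat.Primes, if (ℓ : ℕ) ∈ S then (cnt K ℓ : ℝ) else 0) := by
        refine Summable.hasSum ?_
        refine summable_of_hasFiniteSupport ?_
        have : (Function.support fun ℓ : Nat.Primes =>
            if (ℓ : ℕ) ∈ S then (cnt K ℓ : ℝ) else 0) ⊆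
            (Subtype.val : Nat.Primes → ℕ) ⁻¹' (S : Set ℕ) := by
          intro ℓ hℓ
          by_contra hc'
          exact hℓ (if_neg hc')
        exact (S.finite_toSet.preimage Subtype.val_injective.injOn).subset this
      have h7 : (∑' ℓ : Nat.Primes, if (ℓ : ℕ) ∈ S then (cnt K ℓ : ℝ) else 0) ≤ A₂ := by
        refine Real.tsum_le_of_sum_le ?_ ?_
        · intro ℓ
          show (0 : ℝ) ≤ if (ℓ : ℕ) ∈ S then (cnt K ℓ : ℝ) else 0
          split_ifs
          · exact Nat.cast_nonneg _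
          · exact le_rfl
        · intro T
          rw [← Finset.sum_filter, hA₂]
          have h8 : ∑ a ∈ T.filter (fun ℓ : Nat.Primes => (ℓ : ℕ) ∈ S), (cnt K a : ℝ) =
              ∑ m ∈ (T.filter (fun ℓ : Nat.Primes => (ℓ : ℕ) ∈ S)).image
                (fun ℓ : Nat.Primes => (ℓ : ℕ)), (cnt K m : ℝ) := by
            exact (Finset.sum_image (f := fun m : ℕ => (cnt K m : ℝ))
              (g := fun ℓ : Nat.Primes => (ℓ : ℕ))
              (fun a _ b _ h => Nat.Primes.coe_nat_injective h)).symm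
          rw [h8]
          refine Finset.sum_le_sum_of_subset_of_nonneg ?_ fun _ _ _ => Nat.cast_nonneg _
          intro m hm
          rw [Finset.mem_image] at hm
          obtain ⟨ℓ, hℓ, rfl⟩ := hm
          exact (Finset.mem_filter.1 hℓ).2
      have h9 : Summable (fun ℓ : Nat.Primes => f ℓ) :=
        hfs.summable.comp_injective Subtype.val_injective
      have h10 := h9.tsum_le_tsum h3 (((summable_zterm_primes L hs).mul_left c).add h6.summable)
      rw [((summable_zterm_primes L hs).mul_left c).tsum_add h6.summable, tsum_mul_left] at h10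
      refine h10.trans ?_
      rw [psum]
      linarith
    have h3 : ∑' (ℓ : Nat.Primes) (k : ℕ), f ((ℓ : ℕ) ^ (k + 2)) ≤ A₁ := by
      have h4 : ∀ ℓ : Nat.Primes, ∑' k : ℕ, f ((ℓ : ℕ) ^ (k + 2)) ≤
          locC (Module.finrank ℚ K) * (((ℓ : ℕ) : ℝ) ^ 2)⁻¹ := by
        intro ℓ
        have hinj : Function.Injective (fun k : ℕ => (ℓ : ℕ) ^ (k + 2)) :=
          (Nat.pow_right_injective ℓ.2.two_le).comp (add_left_injective 2)
        refine le_trans ?_ (tsum_tail_le K hs ℓ.2)
        exact (hfs.summable.comp_injective hinj).tsum_le_tsum (fun k => hfz _)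
          ((summable_zterm K hs).comp_injective hinj)
      refine Summable.tsum_le_tsum h4 ?_ (summable_inv_sq_primes.mul_left _)
      refine Summable.of_nonneg_of_le (fun ℓ => tsum_nonneg fun k => hf0 _) h4
        (summable_inv_sq_primes.mul_left _)
    linarith
  -- conclusion
  have hlog : Tendsto (fun s : ℝ => -Real.log (s - 1)) (𝓝[>] 1) atTop := by
    have h1 : Tendsto (fun s : ℝ => s - 1) (𝓝[>] 1) (𝓝[>] 0) := by
      have h2 : Tendsto (fun s : ℝ => s - 1) (𝓝 1) (𝓝 0) := by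
        have := (continuous_id.sub continuous_const).tendsto (1 : ℝ) (f := fun s : ℝ => s - 1)
        simpa using this
      refine tendsto_nhdsWithin_iff.2 ⟨h2.mono_left nhdsWithin_le_nhds, ?_⟩
      filter_upwards [self_mem_nhdsWithin] with s hs
      have hs' : (1 : ℝ) < s := hs
      show (0 : ℝ) < s - 1
      linarith
    exact tendsto_neg_atBot_atTop.comp (Real.tendsto_log_nhdsGT_zero.comp h1)
  have h2 : ∀ᶠ s in 𝓝[>] (1 : ℝ), -Real.log (s - 1) ≤
      (2 * (c * B₁ + A₂ + A₁) + B) / (1 - 2 * c) := by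
    filter_upwards [hB, hB₁, self_mem_nhdsWithin] with s h3 h4 hs
    have h5 := hbound s hs
    have h6 := (abs_le.1 h4).2
    rw [le_div_iff₀ (by linarith)]
    have h7 : c * psum L s ≤ c * (B₁ + -Real.log (s - 1)) :=
      mul_le_mul_of_nonneg_left (by linarith) hc0
    nlinarith
  have h3 := (hlog.eventually (eventually_gt_atTop
    ((2 * (c * B₁ + A₂ + A₁) + B) / (1 - 2 * c)))).and h2
  obtain ⟨s, hs1, hs2⟩ := h3.exists
  linarith

end Fermat.Agent.ExtVan
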