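import Fermat.Agent.ExtVan.ThaineConcl
import Fermat.Agent.Kummer.DLog

set_option autoImplicit false

/-!
# The second logarithmic derivative functional
-/

namespace Fermat.Agent.ExtVan

open NumberField Finset Module Polynomial Kummer

section alg

variable {p : ℕ} [hp : Fact p.Prime]

/-- coordinates as an element of the truncated polynomial ring -/
noncomputable def mk3 (a b c : ZMod p) : TA p 3 :=
  algebraMap (ZMod p) (TA p 3) a + algebraMap (ZMod p) (TA p 3) b * tt p 3 +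
    algebraMap (ZMod p) (TA p 3) c * tt p 3 ^ 2

lemma coord_mk3 (a b c : ZMod p) : coord p 3 0 (mk3 a b c) = a ∧ coord p 3 1 (mk3 a b c) = b ∧
    coord p 3 2 (mk3 a b c) = c := by
  have h : mk3 a b c = a • tt p 3 ^ 0 + b • tt p 3 ^ 1 + c • tt p 3 ^ 2 := by
    simp [mk3, Algebra.smul_def]
  rw [h]
  simp only [map_add, map_smul]
  rw [coord_pow p (by norm_num), coord_pow p (by norm_num), coord_pow p (by norm_num),
    coord_pow p (by norm_num), coord_pow p (by norm_num), coord_pow p (by norm_num),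
    coord_pow p (by norm_num), coord_pow p (by norm_num), coord_pow p (by norm_num)]
  simp

lemma exists_mk3 (f : TA p 3) : f = mk3 (coord p 3 0 f) (coord p 3 1 f) (coord p 3 2 f) := by
  suffices h : ∃ a b c, f = mk3 a b c by
    obtain ⟨a, b, c, rfl⟩ := h
    obtain ⟨h0, h1, h2⟩ := coord_mk3 a b c
    rw [h0, h1, h2]
  obtain ⟨g, rfl⟩ := AdjoinRoot.mk_surjective f
  induction g using Polynomial.induction_on' with
  | add g h hg hh =>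
    obtain ⟨a, b, c, h1⟩ := hg
    obtain ⟨a', b', c', h2⟩ := hh
    refine ⟨a + a', b + b', c + c', ?_⟩
    rw [map_add, h1, h2]
    simp only [mk3, map_add]
    ring
  | monomial n a =>
    have h1 : AdjoinRoot.mk (X ^ 3 : (ZMod p)[X]) (monomial n a) =
        algebraMap (ZMod p) (TA p 3) a * tt p 3 ^ n := by
      rw [← C_mul_X_pow_eq_monomial, map_mul, map_pow, AdjoinRoot.mk_X]
      rfl
    rw [h1]
    rcases lt_or_ge n 3 with hn | hn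
    · interval_cases n
      · exact ⟨a, 0, 0, by simp [mk3]⟩
      · exact ⟨0, a, 0, by simp [mk3]⟩
      · exact ⟨0, 0, a, by simp [mk3]⟩
    · refine ⟨0, 0, 0, ?_⟩
      obtain ⟨m, rfl⟩ := Nat.exists_eq_add_of_le hn
      rw [pow_add, tt_pow]
      simp [mk3]

lemma mk3_mul (a b c a' b' c' : ZMod p) :
    mk3 a b c * mk3 a' b' c' = mk3 (a * a') (a * b' + b * a') (a * c' + b * b' + c * a') := by
  have h := tt_pow p 3
  simp only [mk3, map_add, map_mul]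
  linear_combination (algebraMap (ZMod p) (TA p 3) b * algebraMap (ZMod p) (TA p 3) c' +
    algebraMap (ZMod p) (TA p 3) c * algebraMap (ZMod p) (TA p 3) b' +
    algebraMap (ZMod p) (TA p 3) c * algebraMap (ZMod p) (TA p 3) c' * tt p 3) * h

lemma mk3_injective {a b c a' b' c' : ZMod p} (h : mk3 a b c = mk3 a' b' c') :
    a = a' ∧ b = b' ∧ c = c' := by
  obtain ⟨h0, h1, h2⟩ := coord_mk3 a b c
  obtain ⟨h0', h1', h2'⟩ := coord_mk3 a' b' c'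
  rw [h] at h0 h1 h2
  exact ⟨h0.symm.trans h0', h1.symm.trans h1', h2.symm.trans h2'⟩

/-- `exp (a z)` -/
noncomputable def ez (a : ZMod p) : TA p 3 := mk3 1 a (a ^ 2 / 2)

lemma ez_mul (hp2 : p ≠ 2) (a b : ZMod p) : ez a * ez b = ez (a + b) := by
  have h2 : (2 : ZMod p) ≠ 0 := by
    intro h
    have h3 : ((2 : ℕ) : ZMod p) = 0 := by exact_mod_cast h
    rw [ZMod.natCast_eq_zero_iff] at h3
    exact hp2 ((Nat.prime_dvd_prime_iff_eq hp.out Nat.prime_two).1 h3)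
  rw [ez, ez, mk3_mul, ez]
  congr 1
  · ring
  · ring
  · field_simp
    ring

lemma ez_zero : ez (0 : ZMod p) = 1 := by
  simp [ez, mk3]

lemma ez_pow (hp2 : p ≠ 2) (a : ZMod p) (n : ℕ) : ez a ^ n = ez ((n : ZMod p) * a) := by
  induction n with
  | zero => rw [pow_zero, Nat.cast_zero, zero_mul, ez_zero]
  | succ n ih =>
    rw [pow_succ, ih, ez_mul hp2]
    congr 1
    push_cast
    ring

lemma aeval_ez (hp5 : 5 ≤ p) : aeval (ez (1 : ZMod p)) (cyclotomic p ℤ) = 0 := by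
  have h1 : aeval (ez (1 : ZMod p)) (cyclotomic p ℤ) =
      aeval (ez (1 : ZMod p)) ((cyclotomic p ℤ).map (algebraMap ℤ (ZMod p))) := by
    rw [aeval_map_algebraMap]
  rw [h1, map_cyclotomic, cyclotomic_zmod]
  simp only [map_pow, map_sub, aeval_X, map_one]
  have h2 : (ez (1 : ZMod p) - 1) = mk3 0 1 (1 / 2) := by
    rw [sub_eq_iff_eq_add]
    simp only [ez, mk3, map_one, map_zero, one_pow]
    ring
  have h3 : (ez (1 : ZMod p) - 1) ^ 3 = 0 := by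
    rw [h2, pow_succ, pow_two, mk3_mul, mk3_mul]
    simp [mk3]
  have h4 : p - 1 = 3 + (p - 4) := by omega
  rw [h4, pow_add, h3, zero_mul]

/-- scaling `z ↦ a z` -/
noncomputable def scale3 (a : ZMod p) : TA p 3 →+* TA p 3 where
  toFun f := mk3 (coord p 3 0 f) (a * coord p 3 1 f) (a ^ 2 * coord p 3 2 f)
  map_one' := by
    have h : (1 : TA p 3) = mk3 1 0 0 := by simp [mk3]
    obtain ⟨h0, h1, h2⟩ := coord_mk3 (1 : ZMod p) 0 0
    rw [h, h0, h1, h2]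
    simp
  map_mul' f g := by
    have hf := exists_mk3 f
    have hg := exists_mk3 g
    generalize coord p 3 0 f = a0 at *
    generalize coord p 3 1 f = a1 at *
    generalize coord p 3 2 f = a2 at *
    generalize coord p 3 0 g = b0 at *
    generalize coord p 3 1 g = b1 at *
    generalize coord p 3 2 g = b2 at *
    rw [hf, hg, mk3_mul, mk3_mul]
    obtain ⟨h0, h1, h2⟩ := coord_mk3 (a0 * b0) (a0 * b1 + a1 * b0) (a0 * b2 + a1 * b1 + a2 * b0)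
    rw [h0, h1, h2]
    congr 1
    · ring
    · ring
  map_zero' := by
    simp [mk3]
  map_add' f g := by
    simp only [mk3, map_add, map_mul]
    ring

lemma scale3_ez (a b : ZMod p) : scale3 a (ez b) = ez (a * b) := by
  show mk3 (coord p 3 0 (ez b)) (a * coord p 3 1 (ez b)) (a ^ 2 * coord p 3 2 (ez b)) = _
  obtain ⟨h0, h1, h2⟩ := coord_mk3 1 b (b ^ 2 / 2)
  rw [ez, h0, h1, h2, ez]
  congr 1
  ring

end alg

section field

variable {p : ℕ} [hp : Fact p.Prime] {K : Type} [Field K] [NumberField K]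
  [hK : IsCyclotomicExtension {p} ℚ K] {ζ : K} (hζ : IsPrimitiveRoot ζ p) (hp5 : 5 ≤ p)

/-- `ζ ↦ exp z` modulo `z³` -/
noncomputable def Psi3 : 𝓞 K →+* TA p 3 :=
  (hζ.integralPowerBasis.lift (ez (1 : ZMod p)) (by
    have h1 : minpoly ℤ hζ.integralPowerBasis.gen = cyclotomic p ℤ := by
      rw [hζ.integralPowerBasis_gen, minpoly_toInteger]
    rw [h1]
    exact aeval_ez hp5)).toRingHom

lemma Psi3_zeta : Psi3 hζ hp5 hζ.toInteger = ez 1 := by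
  have := hζ.integralPowerBasis.lift_gen (ez (1 : ZMod p)) (by
    have h1 : minpoly ℤ hζ.integralPowerBasis.gen = cyclotomic p ℤ := by
      rw [hζ.integralPowerBasis_gen, minpoly_toInteger]
    rw [h1]
    exact aeval_ez hp5)
  rw [← hζ.integralPowerBasis_gen]
  exact this

/-- the coordinates -/
noncomputable def c3 (k : ℕ) (x : 𝓞 K) : ZMod p := coord p 3 k (Psi3 hζ hp5 x)

lemma Psi3_eq (x : 𝓞 K) : Psi3 hζ hp5 x = mk3 (c3 hζ hp5 0 x) (c3 hζ hp5 1 x) (c3 hζ hp5 2 x) :=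
  exists_mk3 _

lemma Psi3_sg (a : (ZMod p)ˣ) (x : 𝓞 K) :
    Psi3 hζ hp5 (sg K a x) = scale3 (a : ZMod p) (Psi3 hζ hp5 x) := by
  have : NeZero p := ⟨hp.out.ne_zero⟩
  have h : (Psi3 hζ hp5).comp (sg K a : 𝓞 K →+* 𝓞 K) = (scale3 (a : ZMod p)).comp (Psi3 hζ hp5) := by
    apply hom_ext_zeta hζ
    show Psi3 hζ hp5 (sg K a hζ.toInteger) = scale3 (a : ZMod p) (Psi3 hζ hp5 hζ.toInteger)
    rw [sg_zeta, map_pow, Psi3_zeta, scale3_ez, ez_pow (by omega), ZMod.natCast_zmod_val]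
  exact DFunLike.congr_fun h x

lemma c3_sg (a : (ZMod p)ˣ) (x : 𝓞 K) : c3 hζ hp5 0 (sg K a x) = c3 hζ hp5 0 x ∧
    c3 hζ hp5 1 (sg K a x) = a * c3 hζ hp5 1 x ∧
    c3 hζ hp5 2 (sg K a x) = a ^ 2 * c3 hζ hp5 2 x := by
  have h : Psi3 hζ hp5 (sg K a x) = mk3 (c3 hζ hp5 0 x) (a * c3 hζ hp5 1 x)
    (a ^ 2 * c3 hζ hp5 2 x) := Psi3_sg hζ hp5 a x
  have h0 := coord_mk3 (c3 hζ hp5 0 x) (a * c3 hζ hp5 1 x) (a ^ 2 * c3 hζ hp5 2 x)
  rw [← h] at h0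
  exact h0

lemma c3_mul (x y : 𝓞 K) : c3 hζ hp5 0 (x * y) = c3 hζ hp5 0 x * c3 hζ hp5 0 y ∧
    c3 hζ hp5 1 (x * y) = c3 hζ hp5 0 x * c3 hζ hp5 1 y + c3 hζ hp5 1 x * c3 hζ hp5 0 y ∧
    c3 hζ hp5 2 (x * y) = c3 hζ hp5 0 x * c3 hζ hp5 2 y + c3 hζ hp5 1 x * c3 hζ hp5 1 y +
      c3 hζ hp5 2 x * c3 hζ hp5 0 y := by
  have h : Psi3 hζ hp5 (x * y) = mk3 (c3 hζ hp5 0 x * c3 hζ hp5 0 y)
    (c3 hζ hp5 0 x * c3 hζ hp5 1 y + c3 hζ hp5 1 x * c3 hζ hp5 0 y)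
    (c3 hζ hp5 0 x * c3 hζ hp5 2 y + c3 hζ hp5 1 x * c3 hζ hp5 1 y +
      c3 hζ hp5 2 x * c3 hζ hp5 0 y) := by
    rw [map_mul, Psi3_eq hζ hp5 x, Psi3_eq hζ hp5 y, mk3_mul]
  have h0 := coord_mk3 (c3 hζ hp5 0 x * c3 hζ hp5 0 y)
    (c3 hζ hp5 0 x * c3 hζ hp5 1 y + c3 hζ hp5 1 x * c3 hζ hp5 0 y)
    (c3 hζ hp5 0 x * c3 hζ hp5 2 y + c3 hζ hp5 1 x * c3 hζ hp5 1 y +
      c3 hζ hp5 2 x * c3 hζ hp5 0 y)
  rw [← h] at h0
  exact h0

lemma c3_natCast (n : ℕ) : c3 hζ hp5 0 (n : 𝓞 K) = n ∧ c3 hζ hp5 1 (n : 𝓞 K) = 0 ∧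
    c3 hζ hp5 2 (n : 𝓞 K) = 0 := by
  have h : Psi3 hζ hp5 (n : 𝓞 K) = mk3 (n : ZMod p) 0 0 := by
    rw [map_natCast]
    simp [mk3]
  have h0 := coord_mk3 (n : ZMod p) 0 0
  rw [← h] at h0
  exact h0

/-- first logarithmic derivative -/
noncomputable def L1 (x : 𝓞 K) : ZMod p := c3 hζ hp5 1 x / c3 hζ hp5 0 x

/-- second logarithmic derivative -/
noncomputable def L2 (x : 𝓞 K) : ZMod p :=
  2 * (c3 hζ hp5 2 x / c3 hζ hp5 0 x) - (c3 hζ hp5 1 x / c3 hζ hp5 0 x) ^ 2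

lemma L1_mul {x y : 𝓞 K} (hx : c3 hζ hp5 0 x ≠ 0) (hy : c3 hζ hp5 0 y ≠ 0) :
    L1 hζ hp5 (x * y) = L1 hζ hp5 x + L1 hζ hp5 y := by
  obtain ⟨h0, h1, h2⟩ := c3_mul hζ hp5 x y
  rw [L1, L1, L1, h0, h1]
  field_simp
  ring

lemma L2_mul {x y : 𝓞 K} (hx : c3 hζ hp5 0 x ≠ 0) (hy : c3 hζ hp5 0 y ≠ 0) :
    L2 hζ hp5 (x * y) = L2 hζ hp5 x + L2 hζ hp5 y := by
  obtain ⟨h0, h1, h2⟩ := c3_mul hζ hp5 x y
  rw [L2, L2, L2, h0, h1, h2]
  field_simp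
  ring

lemma c3_zero_pow (x : 𝓞 K) (n : ℕ) : c3 hζ hp5 0 (x ^ n) = c3 hζ hp5 0 x ^ n := by
  induction n with
  | zero =>
    have := (c3_natCast hζ hp5 1).1
    rw [pow_zero, pow_zero]
    simpa using this
  | succ n ih => rw [pow_succ, (c3_mul hζ hp5 _ _).1, ih, pow_succ]

lemma L1_one : L1 hζ hp5 1 = 0 := by
  have := c3_natCast hζ hp5 1
  rw [Nat.cast_one] at this
  rw [L1, this.2.1, zero_div]

lemma L2_one : L2 hζ hp5 1 = 0 := by
  have := c3_natCast hζ hp5 1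
  rw [Nat.cast_one] at this
  rw [L2, this.2.1, this.2.2]
  simp

lemma L1_pow {x : 𝓞 K} (hx : c3 hζ hp5 0 x ≠ 0) (n : ℕ) :
    L1 hζ hp5 (x ^ n) = n * L1 hζ hp5 x := by
  induction n with
  | zero => rw [pow_zero, L1_one, Nat.cast_zero, zero_mul]
  | succ n ih =>
    rw [pow_succ, L1_mul hζ hp5 (by rw [c3_zero_pow]; exact pow_ne_zero _ hx) hx, ih]
    push_cast
    ring

lemma L2_pow {x : 𝓞 K} (hx : c3 hζ hp5 0 x ≠ 0) (n : ℕ) :
    L2 hζ hp5 (x ^ n) = n * L2 hζ hp5 x := by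
  induction n with
  | zero => rw [pow_zero, L2_one, Nat.cast_zero, zero_mul]
  | succ n ih =>
    rw [pow_succ, L2_mul hζ hp5 (by rw [c3_zero_pow]; exact pow_ne_zero _ hx) hx, ih]
    push_cast
    ring

lemma L2_sg (a : (ZMod p)ˣ) (x : 𝓞 K) : L2 hζ hp5 (sg K a x) = a ^ 2 * L2 hζ hp5 x := by
  obtain ⟨h0, h1, h2⟩ := c3_sg hζ hp5 a x
  rw [L2, L2, h0, h1, h2]
  ring

lemma c3_prod {ι : Type*} (s : Finset ι) (f : ι → 𝓞 K) (hf : ∀ i ∈ s, c3 hζ hp5 0 (f i) ≠ 0) :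
    c3 hζ hp5 0 (∏ i ∈ s, f i) ≠ 0 ∧ L2 hζ hp5 (∏ i ∈ s, f i) = ∑ i ∈ s, L2 hζ hp5 (f i) := by
  classical
  induction s using Finset.induction_on with
  | empty =>
    have := c3_natCast hζ hp5 1
    rw [Nat.cast_one] at this
    rw [prod_empty, sum_empty, this.1, L2_one, Nat.cast_one]
    exact ⟨one_ne_zero, rfl⟩
  | insert i s hi ih =>
    obtain ⟨h1, h2⟩ := ih fun j hj => hf j (mem_insert_of_mem hj)
    have h3 := hf i (mem_insert_self i s)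
    rw [prod_insert hi, sum_insert hi, L2_mul hζ hp5 h3 h1, h2, (c3_mul hζ hp5 _ _).1]
    exact ⟨mul_ne_zero h3 h1, rfl⟩

lemma two_ne_zero' (hp5 : 5 ≤ p) : (2 : ZMod p) ≠ 0 := by
  intro h
  have h3 : ((2 : ℕ) : ZMod p) = 0 := by exact_mod_cast h
  rw [ZMod.natCast_eq_zero_iff] at h3
  have := Nat.le_of_dvd (by norm_num) h3
  omega

lemma c3_zeta : c3 hζ hp5 0 hζ.toInteger = 1 ∧ c3 hζ hp5 1 hζ.toInteger = 1 ∧
    c3 hζ hp5 2 hζ.toInteger = 1 / 2 := by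
  have h : Psi3 hζ hp5 hζ.toInteger = mk3 1 1 (1 / 2) := by
    rw [Psi3_zeta, ez, one_pow]
  have h0 := coord_mk3 (1 : ZMod p) 1 (1 / 2)
  rw [← h] at h0
  exact h0

lemma L1_zeta : L1 hζ hp5 hζ.toInteger = 1 := by
  obtain ⟨h0, h1, h2⟩ := c3_zeta hζ hp5
  rw [L1, h0, h1, div_one]

lemma L2_zeta : L2 hζ hp5 hζ.toInteger = 0 := by
  obtain ⟨h0, h1, h2⟩ := c3_zeta hζ hp5
  have := two_ne_zero' hp5
  rw [L2, h0, h1, h2]
  field_simp
  ring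

lemma c3_one_add : c3 hζ hp5 0 (1 + hζ.toInteger) = 2 ∧ c3 hζ hp5 1 (1 + hζ.toInteger) = 1 ∧
    c3 hζ hp5 2 (1 + hζ.toInteger) = 1 / 2 := by
  have h : Psi3 hζ hp5 (1 + hζ.toInteger) = mk3 2 1 (1 / 2) := by
    rw [map_add, Psi3_zeta, map_one, ez, one_pow]
    simp only [mk3, map_one]
    rw [show (2 : ZMod p) = 1 + 1 by norm_num, map_add]
    simp only [map_one]
    ring
  have h0 := coord_mk3 (2 : ZMod p) 1 (1 / 2)
  rw [← h] at h0
  exact h0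

lemma L2_one_add : L2 hζ hp5 (1 + hζ.toInteger) = 1 / 4 := by
  obtain ⟨h0, h1, h2⟩ := c3_one_add hζ hp5
  have := two_ne_zero' hp5
  rw [L2, h0, h1, h2]
  have h4 : (4 : ZMod p) = 2 * 2 := by norm_num
  rw [h4]
  field_simp
  ring

lemma EE_eq : EE hζ = ∏ a : (ZMod p)ˣ, (sg K a (1 + hζ.toInteger)) ^
    (((a⁻¹ ^ 2 : (ZMod p)ˣ) : ZMod p)).val := by
  unfold EE
  refine Finset.prod_congr rfl fun a _ => ?_
  rw [map_add, map_one, sg_zeta]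

lemma c3_EE : c3 hζ hp5 0 (EE hζ) ≠ 0 ∧ L2 hζ hp5 (EE hζ) = -(1 / 4) := by
  have : NeZero p := ⟨hp.out.ne_zero⟩
  have h2 := two_ne_zero' hp5
  have h1 : ∀ a : (ZMod p)ˣ, c3 hζ hp5 0 (sg K a (1 + hζ.toInteger)) ≠ 0 := by
    intro a
    rw [(c3_sg hζ hp5 a _).1, (c3_one_add hζ hp5).1]
    exact h2
  have h3 := c3_prod hζ hp5 univ (fun a : (ZMod p)ˣ => (sg K a (1 + hζ.toInteger)) ^
    (((a⁻¹ ^ 2 : (ZMod p)ˣ) : ZMod p)).val) (fun a _ => by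
      rw [c3_zero_pow]; exact pow_ne_zero _ (h1 a))
  rw [EE_eq]
  refine ⟨h3.1, ?_⟩
  rw [h3.2]
  have h4 : ∀ a : (ZMod p)ˣ, L2 hζ hp5 ((sg K a (1 + hζ.toInteger)) ^
      (((a⁻¹ ^ 2 : (ZMod p)ˣ) : ZMod p)).val) = 1 / 4 := by
    intro a
    rw [L2_pow hζ hp5 (h1 a), L2_sg, L2_one_add, ZMod.natCast_val, ZMod.cast_id, ← mul_assoc]
    have h5 : ((a⁻¹ ^ 2 : (ZMod p)ˣ) : ZMod p) * (a : ZMod p) ^ 2 = 1 := by
      rw [← Units.val_pow_eq_pow_val, ← Units.val_mul, ← mul_pow, inv_mul_cancel, one_pow,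
        Units.val_one]
    rw [h5, one_mul]
  rw [Finset.sum_congr rfl fun a _ => h4 a, Finset.sum_const, Finset.card_univ,
    ZMod.card_units_eq_totient, Nat.totient_prime hp.out, nsmul_eq_mul,
    Nat.cast_sub hp.out.one_le]
  simp

include hp5 in
lemma EE_not_pow (x : 𝓞 K) : EE hζ ≠ x ^ p := by
  intro h
  obtain ⟨h1, h2⟩ := c3_EE hζ hp5
  rw [h, c3_zero_pow] at h1
  have h3 : c3 hζ hp5 0 x ≠ 0 := fun h0 => h1 (by rw [h0, zero_pow hp.out.ne_zero])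
  rw [h, L2_pow hζ hp5 h3, CharP.cast_eq_zero, zero_mul] at h2
  have h4 : (4 : ZMod p) = 2 * 2 := by norm_num
  have h5 := two_ne_zero' hp5
  have h6 : (1 / 4 : ZMod p) = 0 := by linear_combination h2
  rw [h4] at h6
  exact one_div_ne_zero (mul_ne_zero h5 h5) h6

end field

end Fermat.Agent.ExtVan
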