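import Fermat.Agent.ExtVan.KummerTriv
import Fermat.Agent.ExtVan.Approx

set_option autoImplicit false
set_option linter.unusedSectionVars false

/-!
# Kummer descent at finite level
-/

namespace Fermat.Agent.ExtVan

open NumberField Finset Module IsDedekindDomain
open scoped Pointwise

variable {p : ℕ} [hp : Fact p.Prime] {M : Type} [Field M] [NumberField M] [hGal : IsGalois ℚ M]
  {z : M} (hz : IsPrimitiveRoot z p)

/-- the cyclotomic subfield -/
abbrev Kz (z : M) : IntermediateField ℚ M := IntermediateField.adjoin ℚ {z}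

/-- the root of unity in the subfield -/
def zK (z : M) : Kz z := ⟨z, IntermediateField.mem_adjoin_simple_self ℚ z⟩

include hz in
lemma zK_primitive : IsPrimitiveRoot (zK z) p :=
  IsPrimitiveRoot.of_map_of_injective (f := algebraMap (Kz z) M) hz (algebraMap (Kz z) M).injective

include hz in
lemma cyc_Kz : IsCyclotomicExtension {p} ℚ (Kz z) := by
  have : NeZero p := ⟨hp.out.ne_zero⟩
  exact hz.intermediateField_adjoin_isCyclotomicExtension ℚ

lemma algebraMap_zK : algebraMap (𝓞 (Kz z)) (𝓞 M) (zK_primitive hz).toInteger = hz.toInteger := by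
  apply RingOfIntegers.coe_injective
  rfl

include hz in
/-- elements of the big Galois group act through `sg` on the cyclotomic field -/
lemma smul_algebraMap (hK : IsCyclotomicExtension {p} ℚ (Kz z)) {g : M ≃ₐ[ℚ] M} {a : (ZMod p)ˣ}
    (hg : g z = z ^ (a : ZMod p).val) (x : 𝓞 (Kz z)) :
    g • (algebraMap (𝓞 (Kz z)) (𝓞 M) x) = algebraMap (𝓞 (Kz z)) (𝓞 M) (sg (Kz z) a x) := by
  have h : (MulSemiringAction.toRingHom (M ≃ₐ[ℚ] M) (𝓞 M) g).comp
      (algebraMap (𝓞 (Kz z)) (𝓞 M)) =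
      (algebraMap (𝓞 (Kz z)) (𝓞 M)).comp (sg (Kz z) a : 𝓞 (Kz z) →+* 𝓞 (Kz z)) := by
    apply hom_ext_zeta (zK_primitive hz)
    show g • (algebraMap (𝓞 (Kz z)) (𝓞 M) (zK_primitive hz).toInteger) =
      algebraMap (𝓞 (Kz z)) (𝓞 M) (sg (Kz z) a (zK_primitive hz).toInteger)
    rw [sg_zeta, map_pow, algebraMap_zK hz]
    apply RingOfIntegers.coe_injective
    rw [map_pow]
    exact hg
  exact DFunLike.congr_fun h x

include hz in
lemma exists_gal (hK : IsCyclotomicExtension {p} ℚ (Kz z)) (a : (ZMod p)ˣ) :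
    ∃ g : M ≃ₐ[ℚ] M, g z = z ^ (a : ZMod p).val := by
  have hNZ : NeZero p := ⟨hp.out.ne_zero⟩
  have : Normal ℚ (Kz z) := (IsCyclotomicExtension.isGalois {p} ℚ (Kz z)).to_normal
  set χ : (Kz z) ≃ₐ[ℚ] (Kz z) := (JacobiSumStickelberger.cycloGalEquiv p (Kz z)).symm a with hχ
  refine ⟨χ.liftNormal M, ?_⟩
  have h1 := AlgEquiv.liftNormal_commutes χ M (zK z)
  have h2 : algebraMap (Kz z) M (zK z) = z := rfl
  rw [h2] at h1
  rw [h1]
  have h3 := IsCyclotomicExtension.Rat.galEquivZMod_apply_of_pow_eq p (Kz z) χ (x := zK z)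
    (zK_primitive hz).pow_eq_one
  have h4 : IsCyclotomicExtension.Rat.galEquivZMod p (Kz z) χ = a :=
    (JacobiSumStickelberger.cycloGalEquiv p (Kz z)).apply_symm_apply a
  rw [h3, h4, map_pow, h2]

lemma pow_val_add (Z : 𝓞 M) (hZ : Z ^ p = 1) (a b : ZMod p) :
    Z ^ (a + b).val = Z ^ a.val * Z ^ b.val := by
  have hNZ : NeZero p := ⟨hp.out.ne_zero⟩
  rw [← pow_add]
  apply pow_eq_of_modEq hZ
  rw [← ZMod.natCast_eq_natCast_iff]
  push_cast
  rw [ZMod.natCast_zmod_val, ZMod.natCast_zmod_val, ZMod.natCast_zmod_val]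

/-- a nonzero Lagrange resolvent -/
lemma exists_resolvent (s : (M ≃ₐ[Kz z] M) → ZMod p) (hs : ∀ g h, s (g * h) = s g + s h) :
    ∃ β : 𝓞 M, β ≠ 0 ∧ ∀ g : M ≃ₐ[Kz z] M, g • β = hz.toInteger ^ (s g).val * β := by
  classical
  have hNZ : NeZero p := ⟨hp.out.ne_zero⟩
  set Z := hz.toInteger with hZ
  have hZp : Z ^ p = 1 := hz.toInteger_isPrimitiveRoot.pow_eq_one
  have hli : LinearIndependent M (fun g : M ≃ₐ[Kz z] M => (g : M → M)) := by
    have h1 := linearIndependent_monoidHom M M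
    have h2 := h1.comp (fun g : M ≃ₐ[Kz z] M => ((g : M →ₐ[Kz z] M) : M →* M)) (by
      intro g h hgh
      ext x
      exact DFunLike.congr_fun hgh x)
    exact h2
  rw [Fintype.linearIndependent_iff] at hli
  have hex : ∃ θ : M, ∑ g : M ≃ₐ[Kz z] M, algebraMap (𝓞 M) M (Z ^ (-s g).val) * (g θ) ≠ 0 := by
    by_contra hcon
    push Not at hcon
    have h1 := hli (fun g => algebraMap (𝓞 M) M (Z ^ (-s g).val)) (by
      funext θ
      rw [Finset.sum_apply]
      exact hcon θ) 1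
    have h2 : Z ^ (-s 1).val = 0 := by
      apply RingOfIntegers.coe_injective
      rw [map_zero]
      exact h1
    exact pow_ne_zero _ (hz.toInteger_isPrimitiveRoot.ne_zero hp.out.ne_zero) h2
  obtain ⟨θ, hθ⟩ := hex
  obtain ⟨m, hm0, θ', hθ'⟩ := exists_int_mul θ
  set β : 𝓞 M := ∑ g : M ≃ₐ[Kz z] M, Z ^ (-s g).val * (g • θ') with hβ
  have hβc : algebraMap (𝓞 M) M β =
      m * ∑ g : M ≃ₐ[Kz z] M, algebraMap (𝓞 M) M (Z ^ (-s g).val) * (g θ) := by
    rw [hβ, map_sum, Finset.mul_sum]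
    refine Finset.sum_congr rfl fun g _ => ?_
    rw [map_mul]
    have h1 : algebraMap (𝓞 M) M (g • θ') = g (algebraMap (𝓞 M) M θ') := rfl
    rw [h1, hθ', map_mul, map_natCast]
    ring
  refine ⟨β, ?_, ?_⟩
  · intro h0
    rw [h0, map_zero] at hβc
    have h1 : (m : M) ≠ 0 := by exact_mod_cast hm0
    exact mul_ne_zero h1 hθ hβc.symm
  · intro τ
    have hZτ : τ • Z = Z := by
      have h1 := (algebraMap_zK (hz := hz))
      apply RingOfIntegers.coe_injective
      show τ z = z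
      exact τ.commutes (zK z)
    rw [hβ, Finset.smul_sum, Finset.mul_sum]
    refine Fintype.sum_equiv (Equiv.mulLeft τ) _ _ fun g => ?_
    rw [smul_mul', smul_pow', hZτ, Equiv.coe_mulLeft, smul_smul, hs, ← mul_assoc]
    congr 1
    rw [← pow_val_add Z hZp]
    congr 2
    ring

lemma exists_of_fixed (x : 𝓞 M) (h : ∀ g : M ≃ₐ[Kz z] M, g • x = x) :
    ∃ y : 𝓞 (Kz z), algebraMap (𝓞 (Kz z)) (𝓞 M) y = x := by
  have h1 : algebraMap (𝓞 M) M x ∈ Set.range (algebraMap (Kz z) M) := by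
    rw [IsGalois.mem_range_algebraMap_iff_fixed]
    intro g
    exact congrArg (algebraMap (𝓞 M) M) (h g)
  obtain ⟨y, hy⟩ := h1
  have h2 : IsIntegral ℤ y := by
    have h3 : IsIntegral ℤ (algebraMap (Kz z) M y) := by
      rw [hy]; exact RingOfIntegers.isIntegral_coe x
    exact (isIntegral_algebraMap_iff (algebraMap (Kz z) M).injective).1 h3
  refine ⟨⟨y, h2⟩, ?_⟩
  apply RingOfIntegers.coe_injective
  exact hy

lemma exists_restrictScalars {t : M ≃ₐ[ℚ] M} (ht : t z = z) :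
    ∃ g : M ≃ₐ[Kz z] M, ∀ x, g x = t x := by
  have h1 : ∀ x ∈ Kz z, t x = x := by
    intro x hx
    induction hx using IntermediateField.adjoin_induction with
    | mem x hx => rw [Set.mem_singleton_iff.1 hx, ht]
    | algebraMap q => exact t.commutes q
    | add x y _ _ hx hy => rw [map_add, hx, hy]
    | mul x y _ _ hx hy => rw [map_mul, hx, hy]
    | inv x _ hx => rw [map_inv₀, hx]
  refine ⟨AlgEquiv.ofRingEquiv (f := (t : M ≃+* M)) (fun x => h1 x x.2), fun x => rfl⟩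

lemma ramification_one (w : HeightOneSpectrum (𝓞 M))
    (h : ∀ g : M ≃ₐ[ℚ] M, (∀ x : 𝓞 M, g • x - x ∈ w.asIdeal) → g = 1) :
    w.asIdeal.ramificationIdx ℤ = 1 := by
  have := w.isPrime
  rw [← Ideal.ramificationIdxIn_eq_ramificationIdx (w.asIdeal.under ℤ) _ (M ≃ₐ[ℚ] M),
    ← Ideal.card_inertia_eq_ramificationIdxIn (G := M ≃ₐ[ℚ] M) (w.asIdeal.under ℤ) w.asIdeal]
  have h2 : Ideal.inertia (M ≃ₐ[ℚ] M) w.asIdeal = ⊥ := by
    rw [eq_bot_iff]
    intro g hg
    exact h g hg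
  rw [h2]
  simp

include hz in
/-- **Kummer descent at finite level** -/
theorem finite_level (hp3 : 3 ≤ p) (s : (M ≃ₐ[ℚ] M) → ZMod p)
    (s1 : ∀ t t' : M ≃ₐ[ℚ] M, t z = z → t' z = z → s (t * t') = s t + s t')
    (s2 : ∀ (g : M ≃ₐ[ℚ] M) (a : (ZMod p)ˣ) (t : M ≃ₐ[ℚ] M), g z = z ^ (a : ZMod p).val →
      t z = z → (a : ZMod p) * s (g * t * g⁻¹) = s t)
    (s3 : ∀ t : M ≃ₐ[ℚ] M, t z = z → s t = 0 → t = 1)
    (r1 : ∀ ℓ : ℕ, ℓ.Prime → ℓ ≠ p → ∀ w : HeightOneSpectrum (𝓞 M), (ℓ : 𝓞 M) ∈ w.asIdeal →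
      ∀ g : M ≃ₐ[ℚ] M, (∀ x : 𝓞 M, g • x - x ∈ w.asIdeal) → g = 1)
    (r2 : ∀ w : HeightOneSpectrum (𝓞 M), (p : 𝓞 M) ∈ w.asIdeal →
      ∀ t : M ≃ₐ[ℚ] M, t z = z → t • w.asIdeal = w.asIdeal → t = 1)
    (t : M ≃ₐ[ℚ] M) (ht : t z = z) : t = 1 := by
  classical
  have hNZ : NeZero p := ⟨hp.out.ne_zero⟩
  have hp0 := hp.out.ne_zero
  have hK := cyc_Kz hz
  set K := Kz z with hKdef
  set ζ := zK z with hζdef
  have hζ : IsPrimitiveRoot ζ p := zK_primitive hz
  set Z := hz.toInteger with hZ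
  have hZp : Z ^ p = 1 := hz.toInteger_isPrimitiveRoot.pow_eq_one
  have hrz : ∀ g : M ≃ₐ[K] M, (g.restrictScalars ℚ) z = z := fun g => g.commutes (zK z)
  -- the resolvent
  obtain ⟨β, hβ0, hβ⟩ := exists_resolvent hz (fun g : M ≃ₐ[K] M => s (g.restrictScalars ℚ))
    (fun g h => s1 _ _ (hrz g) (hrz h))
  have hβt : ∀ t : M ≃ₐ[ℚ] M, t z = z → t • β = Z ^ (s t).val * β := by
    intro t ht
    obtain ⟨g, hg⟩ := exists_restrictScalars ht
    have h1 : g.restrictScalars ℚ = t := by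
      ext x; exact hg x
    have h2 := hβ g
    simp only [h1] at h2
    rw [← h2]
    apply RingOfIntegers.coe_injective
    exact (hg _).symm
  have hfix : ∀ x : 𝓞 M, (∀ t : M ≃ₐ[ℚ] M, t z = z → t • x = x) →
      ∃ y : 𝓞 K, algebraMap (𝓞 K) (𝓞 M) y = x := by
    intro x hx
    apply exists_of_fixed
    intro g
    exact hx (g.restrictScalars ℚ) (hrz g)
  have hinj : Function.Injective (algebraMap (𝓞 K) (𝓞 M)) :=
    FaithfulSMul.algebraMap_injective (𝓞 K) (𝓞 M)
  -- `α = β ^ p`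
  obtain ⟨α, hα⟩ := hfix (β ^ p) (by
    intro t ht
    rw [smul_pow', hβt t ht, mul_pow, ← pow_mul, mul_comm (s t).val p, pow_mul, hZp, one_pow,
      one_mul])
  have hα0 : α ≠ 0 := by
    rintro rfl
    rw [map_zero] at hα
    exact pow_ne_zero _ hβ0 hα.symm
  -- first condition
  have h1 : ∀ a : (ZMod p)ˣ, ∃ k1 k2 : 𝓞 K, k2 ≠ 0 ∧
      k2 ^ p * sg K a α = α ^ ((a ^ 2 : (ZMod p)ˣ) : ZMod p).val * k1 ^ p := by
    intro a
    obtain ⟨g, hg⟩ := exists_gal hz hK a
    set e := ((a ^ 2 : (ZMod p)ˣ) : ZMod p).val with he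
    have hgZ : g • Z = Z ^ (a : ZMod p).val := by
      apply RingOfIntegers.coe_injective
      rw [map_pow]
      exact hg
    obtain ⟨k1, hk1⟩ := hfix (g • β * β ^ ((p - 1) * e)) (by
      intro τ hτ
      set τ' := g⁻¹ * τ * g with hτ'
      have hτ'z : τ' z = z := by
        have h3 : τ (g z) = g z := by rw [hg, map_pow, hτ]
        show g⁻¹ (τ (g z)) = z
        rw [h3]
        exact g.symm_apply_apply z
      have h4 : s τ' = a * s τ := by
        have h5 := s2 g a τ' hg hτ'z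
        have h6 : g * τ' * g⁻¹ = τ := by rw [hτ']; group
        rw [h6] at h5
        exact h5.symm
      have h5 : τ • (g • β) = Z ^ (a * s τ').val * (g • β) := by
        have h6 : τ * g = g * τ' := by rw [hτ']; group
        rw [smul_smul, h6, ← smul_smul, hβt τ' hτ'z, smul_mul', smul_pow', hgZ, ← pow_mul]
        congr 1
        apply pow_eq_of_modEq hZp
        rw [← ZMod.natCast_eq_natCast_iff]
        push_cast
        simp only [ZMod.natCast_zmod_val]
      rw [smul_mul', smul_pow', h5, hβt τ hτ, mul_pow, ← pow_mul]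
      have h6 : Z ^ (a * s τ').val * Z ^ ((s τ).val * ((p - 1) * e)) = 1 := by
        rw [← pow_add]
        have h7 : p ∣ (a * s τ').val + (s τ).val * ((p - 1) * e) := by
          rw [← ZMod.natCast_eq_zero_iff, h4]
          push_cast [Nat.cast_sub hp.out.one_le]
          rw [he]
          simp only [ZMod.natCast_zmod_val, CharP.cast_eq_zero, zero_sub, Units.val_pow_eq_pow_val]
          ring
        obtain ⟨m, hm⟩ := h7
        rw [hm, pow_mul, hZp, one_pow]
      linear_combination (g • β * β ^ ((p - 1) * e)) * h6)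
    refine ⟨k1, α ^ e, pow_ne_zero _ hα0, ?_⟩
    apply hinj
    rw [map_mul, map_mul]
    simp only [map_pow]
    rw [← smul_algebraMap hz hK hg, hα, hk1, smul_pow', mul_pow, ← pow_mul β ((p - 1) * e) p]
    have h3 : p * (e * p) = p * e + (p - 1) * e * p := by
      have : p = (p - 1) + 1 := (Nat.sub_add_cancel hp.out.one_le).symm
      conv_lhs => rw [this]
      conv_rhs => rw [this]
      simp only [Nat.add_sub_cancel]
      ring
    rw [← pow_mul, ← pow_mul, ← pow_mul, h3, pow_add]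
    ring
  -- places above
  have habove : ∀ v : HeightOneSpectrum (𝓞 K), ∃ w : HeightOneSpectrum (𝓞 M),
      w.asIdeal.LiesOver v.asIdeal := by
    intro v
    have := v.isMaximal
    obtain ⟨P, hP, hPv⟩ := Ideal.exists_maximal_ideal_liesOver_of_isIntegral (S := 𝓞 M) v.asIdeal
    have hP0 : P ≠ ⊥ := Ideal.ne_bot_of_liesOver_of_ne_bot v.ne_bot P
    exact ⟨⟨P, hP.isPrime, hP0⟩, hPv⟩
  -- second condition
  have h2 : ∀ v : HeightOneSpectrum (𝓞 K), (p : 𝓞 K) ∉ v.asIdeal → p ∣ mv v α := by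
    intro v hpv
    obtain ⟨w, hw⟩ := habove v
    have hwp := w.isPrime
    have hvp := v.isPrime
    obtain ⟨q, hq, hqv⟩ := exists_prime_mem v
    have hqp : q ≠ p := by
      rintro rfl
      exact hpv hqv
    have hqw : (q : 𝓞 M) ∈ w.asIdeal := by
      have h3 : algebraMap (𝓞 K) (𝓞 M) (q : 𝓞 K) ∈ w.asIdeal := by
        rw [← Ideal.mem_comap, ← Ideal.under_def, ← Ideal.over_def w.asIdeal v.asIdeal]
        exact hqv
      simpa using h3
    have h3 := ramification_one w (r1 q hq hqp w hqw)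
    have h4 := Ideal.ramificationIdx_tower (R := ℤ) v.asIdeal w.asIdeal
    rw [h3] at h4
    have h5 : v.asIdeal.ramificationIdx' w.asIdeal = 1 := by
      rw [Ideal.ramificationIdx'_eq_ramificationIdx v.asIdeal w.asIdeal v.ne_bot]
      exact Nat.eq_one_of_mul_eq_one_left h4.symm
    have h6 := mv_liesOver v w hα0
    rw [h5, one_mul, hα, mv_pow w hβ0] at h6
    exact ⟨_, h6.symm⟩
  -- third condition
  have h3 : ∀ N : ℕ, ∃ x : 𝓞 K, (hζ.toInteger - 1) ^ N ∣ α - x ^ p := by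
    intro N
    have hpr : Prime (hζ.toInteger - 1) := hζ.zeta_sub_one_prime'
    set v : HeightOneSpectrum (𝓞 K) := ⟨Ideal.span {hζ.toInteger - 1},
      (Ideal.span_singleton_prime hpr.ne_zero).2 hpr, by
        rw [Ne, Ideal.span_singleton_eq_bot]; exact hpr.ne_zero⟩ with hv
    obtain ⟨w, hw⟩ := habove v
    have hpv : (p : 𝓞 K) ∈ v.asIdeal :=
      Ideal.mem_span_singleton.2 hζ.toInteger_sub_one_dvd_prime'
    have hpw : (p : 𝓞 M) ∈ w.asIdeal := by
      have h4 : algebraMap (𝓞 K) (𝓞 M) (p : 𝓞 K) ∈ w.asIdeal := by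
        rw [← Ideal.mem_comap, ← Ideal.under_def, ← Ideal.over_def w.asIdeal v.asIdeal]
        exact hpv
      simpa using h4
    set E := v.asIdeal.ramificationIdx' w.asIdeal with hE
    obtain ⟨y, hy⟩ := exists_approx (K := K) w (by
      intro g hg
      have h4 := r2 w hpw (g.restrictScalars ℚ) (hrz g) hg
      ext x
      exact DFunLike.congr_fun h4 x) β (E * N)
    refine ⟨y, ?_⟩
    by_cases h0 : α - y ^ p = 0
    · rw [h0]; exact dvd_zero _
    have h4 : algebraMap (𝓞 K) (𝓞 M) (α - y ^ p) ∈ w.asIdeal ^ (E * N) := by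
      rw [map_sub, map_pow, hα]
      have h5 := sub_dvd_pow_sub_pow β (algebraMap (𝓞 K) (𝓞 M) y) p
      exact Ideal.mem_of_dvd _ h5 hy
    have h5 : algebraMap (𝓞 K) (𝓞 M) (α - y ^ p) ≠ 0 := fun h => h0 (hinj (by rw [h, map_zero]))
    rw [← w.intValuation_le_pow_iff_mem, intValuation_eq_mv w h5, mv_liesOver v w h0] at h4
    have hE0 : 0 < E := by
      have hwp := w.isPrime
      exact Nat.pos_of_ne_zero (Ideal.IsDedekindDomain.ramificationIdx'_ne_zero_of_liesOver _ v.ne_bot)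
    have h6 : α - y ^ p ∈ v.asIdeal ^ N := by
      rw [← v.intValuation_le_pow_iff_mem, intValuation_eq_mv v h0]
      rw [WithZero.exp_le_exp] at h4 ⊢
      have h7 : E * N ≤ E * mv v (α - y ^ p) := by
        have := neg_le_neg_iff.1 h4
        exact_mod_cast this
      have h8 := Nat.le_of_mul_le_mul_left h7 hE0
      have h9 : (N : ℤ) ≤ (mv v (α - y ^ p) : ℤ) := by exact_mod_cast h8
      exact neg_le_neg h9
    rw [hv] at h6
    simp only [Ideal.span_singleton_pow, Ideal.mem_span_singleton] at h6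
    exact h6
  -- conclusion
  obtain ⟨x, hx⟩ := kummer_trivial hζ hp3 α hα0 h1 h2 h3
  have h4 : β ^ p = (algebraMap (𝓞 K) (𝓞 M) x) ^ p := by rw [← hα, hx, map_pow]
  have hx0 : algebraMap (𝓞 K) (𝓞 M) x ≠ 0 := by
    intro h0
    rw [h0, zero_pow hp0] at h4
    exact pow_ne_zero _ hβ0 h4
  apply s3 t ht
  have h5 : t • β = β := by
    have h6 : (algebraMap (𝓞 M) M β / algebraMap (𝓞 M) M (algebraMap (𝓞 K) (𝓞 M) x)) ^ p = 1 := by
      rw [div_pow, ← map_pow, ← map_pow, h4, div_self]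
      rw [map_pow]
      exact pow_ne_zero _ ((map_ne_zero_iff _ RingOfIntegers.coe_injective).2 hx0)
    obtain ⟨i, -, hi⟩ := hz.eq_pow_of_pow_eq_one h6
    have h7 : algebraMap (𝓞 M) M β = z ^ i * algebraMap (𝓞 M) M (algebraMap (𝓞 K) (𝓞 M) x) := by
      rw [hi, div_mul_cancel₀]
      exact (map_ne_zero_iff _ RingOfIntegers.coe_injective).2 hx0
    apply RingOfIntegers.coe_injective
    have h8 : algebraMap (𝓞 M) M (t • β) = t (algebraMap (𝓞 M) M β) := rfl
    obtain ⟨g, hg⟩ := exists_restrictScalars ht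
    rw [h8, h7, map_mul, map_pow, ht]
    congr 1
    have h9 : algebraMap (𝓞 M) M (algebraMap (𝓞 K) (𝓞 M) x) =
      algebraMap K M (algebraMap (𝓞 K) K x) := rfl
    rw [h9, ← hg, g.commutes]
  rw [hβt t ht] at h5
  have h6 : Z ^ (s t).val = 1 := mul_right_cancel₀ hβ0 (by rw [h5, one_mul])
  have h7 := hz.toInteger_isPrimitiveRoot.dvd_of_pow_eq_one _ h6
  have h8 := Nat.eq_zero_of_dvd_of_lt h7 (ZMod.val_lt _)
  rwa [ZMod.val_eq_zero] at h8

end Fermat.Agent.ExtVan
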