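import Fermat.Agent.ExtVan.Lift
import Fermat.Prelude.Def_ExtCitation_AdmissibleExtension_v2

set_option autoImplicit false
set_option linter.style.haveILetI false
set_option linter.unusedSectionVars false

/-!
# Vanishing of admissible extensions
-/

namespace Fermat.Agent.ExtVan

open Fermat.Agent.Frob Fermat.Agent.Mink ExtCitation
open scoped Pointwise

local notation "Qbar" => AlgebraicClosure ℚ

section omega

variable (p : ℕ) [hp : Fact p.Prime]

/-- the mod `p` cyclotomic character -/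
noncomputable def om : (Qbar ≃ₐ[ℚ] Qbar) →* (ZMod p)ˣ :=
  haveI : NeZero p := ⟨hp.out.ne_zero⟩
  (modularCyclotomicCharacter Qbar (card_rootsOfUnity_eq_self p)).comp
    { toFun := fun σ => (σ : Qbar ≃+* Qbar)
      map_one' := rfl
      map_mul' := fun _ _ => rfl }

lemma cycloExp_eq (σ : Qbar ≃ₐ[ℚ] Qbar) : ((cycloExp p σ : ℕ) : ZMod p) = (om p σ : ZMod p) := by
  haveI : NeZero p := ⟨hp.out.ne_zero⟩
  unfold cycloExp
  rw [ZMod.natCast_zmod_val]
  rfl

variable {p}

lemma om_spec {z : Qbar} (hz : IsPrimitiveRoot z p) (σ : Qbar ≃ₐ[ℚ] Qbar) :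
    σ z = z ^ (om p σ : ZMod p).val := by
  haveI : NeZero p := ⟨hp.out.ne_zero⟩
  have h1 := modularCyclotomicCharacter.spec Qbar (card_rootsOfUnity_eq_self p) (σ : Qbar ≃+* Qbar)
    (t := (hz.isUnit hp.out.ne_zero).unit) (by
      rw [mem_rootsOfUnity]
      apply Units.ext
      simpa using hz.pow_eq_one)
  exact h1

lemma om_eq_of {z : Qbar} (hz : IsPrimitiveRoot z p) {σ : Qbar ≃ₐ[ℚ] Qbar} {a : (ZMod p)ˣ}
    (h : σ z = z ^ (a : ZMod p).val) : om p σ = a := by
  haveI : NeZero p := ⟨hp.out.ne_zero⟩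
  rw [om_spec hz] at h
  exact Units.ext (ZMod.val_injective p (hz.pow_inj (ZMod.val_lt _) (ZMod.val_lt _) h))

lemma om_eq_one_iff {z : Qbar} (hz : IsPrimitiveRoot z p) {σ : Qbar ≃ₐ[ℚ] Qbar} :
    om p σ = 1 ↔ σ z = z := by
  haveI : Fact (1 < p) := ⟨hp.out.one_lt⟩
  constructor
  · intro h
    rw [om_spec hz, h, Units.val_one, ZMod.val_one, pow_one]
  · intro h
    apply om_eq_of hz
    rw [h, Units.val_one, ZMod.val_one, pow_one]

end omega

section main

variable {p : ℕ} [hp : Fact p.Prime] {V : Type} [AddCommGroup V] [Module (ZMod p) V]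
  [DistribMulAction (Qbar ≃ₐ[ℚ] Qbar) V] [SMulCommClass (Qbar ≃ₐ[ℚ] Qbar) (ZMod p) V]
  {C : Submodule (ZMod p) V}

/-- kernel of the action -/
def kerV' (V : Type) [AddCommGroup V] [DistribMulAction (Qbar ≃ₐ[ℚ] Qbar) V] :
    Subgroup (Qbar ≃ₐ[ℚ] Qbar) where
  carrier := {σ | ∀ v : V, σ • v = v}
  one_mem' := fun v => one_smul _ v
  mul_mem' := fun {a b} ha hb v => by rw [mul_smul, hb, ha]
  inv_mem' := fun {a} ha v => by
    have := ha v
    conv_lhs => rw [← this]
    rw [inv_smul_smul]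

instance : (kerV' V).Normal := ⟨fun n hn g v => by
  rw [mul_smul, mul_smul, hn, smul_inv_smul]⟩

lemma mem_kerV' {σ : Qbar ≃ₐ[ℚ] Qbar} : σ ∈ kerV' V ↔ ∀ v : V, σ • v = v := Iff.rfl

variable (hadm : IsAdmissibleExtensionCts p V C)

include hadm

lemma smul_sub_mem (σ : Qbar ≃ₐ[ℚ] Qbar) (x : V) : σ • x - (om p σ : ZMod p) • x ∈ C := by
  have := hadm.cyclo_quot σ x
  rwa [cycloExp_eq] at this

lemma exists_notMem : ∃ x : V, x ∉ C := by
  by_contra h
  push Not at h
  have h1 : C = ⊤ := by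
    rw [eq_top_iff]
    intro x _
    exact h x
  have h2 := hadm.card_sub
  have h3 := hadm.card_total
  have h4 : Nat.card C = Nat.card V := by
    rw [h1]
    exact Nat.card_congr (Equiv.Set.univ V)
  rw [h2, h3] at h4
  have := hp.out.one_lt
  nlinarith

lemma finite_V : Finite V := by
  apply Nat.finite_of_card_ne_zero
  rw [hadm.card_total]
  exact pow_ne_zero _ hp.out.ne_zero

/-- `V = C + F_p x₀` -/
lemma exists_decomp {x₀ : V} (hx₀ : x₀ ∉ C) (v : V) : ∃ (a : ZMod p) (c : V), c ∈ C ∧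
    v = a • x₀ + c := by
  have hfin := finite_V hadm
  have hV : Module.finrank (ZMod p) V = 2 := by
    have h1 := Module.natCard_eq_pow_finrank (K := ZMod p) (V := V)
    rw [hadm.card_total, Nat.card_zmod] at h1
    exact (Nat.pow_right_injective hp.out.two_le h1).symm
  have hC : Module.finrank (ZMod p) C = 1 := by
    have h1 := Module.natCard_eq_pow_finrank (K := ZMod p) (V := C)
    rw [hadm.card_sub, Nat.card_zmod] at h1
    have h2 : p ^ 1 = p ^ Module.finrank (ZMod p) C := by rw [pow_one]; exact h1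
    exact (Nat.pow_right_injective hp.out.two_le h2).symm
  have h1 : C ⊔ Submodule.span (ZMod p) {x₀} = ⊤ := by
    apply Submodule.eq_top_of_finrank_eq
    have h2 : C < C ⊔ Submodule.span (ZMod p) {x₀} := by
      rw [left_lt_sup]
      intro h
      exact hx₀ (h (Submodule.mem_span_singleton_self x₀))
    have h3 := Submodule.finrank_lt_finrank_of_lt h2
    have h4 := Submodule.finrank_le (C ⊔ Submodule.span (ZMod p) {x₀})
    rw [hC] at h3
    rw [hV] at h4 ⊢
    omega
  have h2 : v ∈ C ⊔ Submodule.span (ZMod p) {x₀} := by rw [h1]; trivial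
  obtain ⟨c, hc, y, hy, hcy⟩ := Submodule.mem_sup.1 h2
  obtain ⟨a, rfl⟩ := Submodule.mem_span_singleton.1 hy
  exact ⟨a, c, hc, by rw [← hcy, add_comm]⟩

lemma exists_psi : ∃ ψ : C →ₗ[ZMod p] ZMod p, Function.Injective ψ := by
  have hfin := finite_V hadm
  have hC : Module.finrank (ZMod p) C = 1 := by
    have h1 := Module.natCard_eq_pow_finrank (K := ZMod p) (V := C)
    rw [hadm.card_sub, Nat.card_zmod] at h1
    have h2 : p ^ 1 = p ^ Module.finrank (ZMod p) C := by rw [pow_one]; exact h1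
    exact (Nat.pow_right_injective hp.out.two_le h2).symm
  have e : C ≃ₗ[ZMod p] ZMod p := LinearEquiv.ofFinrankEq _ _ (by rw [hC, Module.finrank_self])
  exact ⟨e, e.injective⟩

/-- an element fixing `x₀` is in the kernel -/
lemma mem_ker_of_fix {x₀ : V} (hx₀ : x₀ ∉ C) {σ : Qbar ≃ₐ[ℚ] Qbar} (h : σ • x₀ = x₀) :
    σ ∈ kerV' V := by
  intro v
  obtain ⟨a, c, hc, rfl⟩ := exists_decomp hadm hx₀ v
  rw [smul_add, smul_comm, h, hadm.fixed_sub σ c hc]

lemma om_of_mem_ker {σ : Qbar ≃ₐ[ℚ] Qbar} (h : σ ∈ kerV' V) : om p σ = 1 := by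
  obtain ⟨x₀, hx₀⟩ := exists_notMem hadm
  have h1 := smul_sub_mem hadm σ x₀
  rw [h x₀] at h1
  have h2 : x₀ - (om p σ : ZMod p) • x₀ = (1 - (om p σ : ZMod p)) • x₀ := by
    rw [sub_smul, one_smul]
  rw [h2] at h1
  by_contra hne
  have h3 : (1 - (om p σ : ZMod p)) ≠ 0 := by
    intro h4
    apply hne
    apply Units.ext
    rw [Units.val_one]
    exact (sub_eq_zero.1 h4).symm
  exact hx₀ ((Submodule.smul_mem_iff _ h3).1 h1)

lemma smul_sub_mem' {σ : Qbar ≃ₐ[ℚ] Qbar} (hσ : om p σ = 1) (x : V) : σ • x - x ∈ C := by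
  have := smul_sub_mem hadm σ x
  rwa [hσ, Units.val_one, one_smul] at this

/-- `ω(σ) c(σ τ σ⁻¹) = c(τ)` -/
lemma conj_formula (σ : Qbar ≃ₐ[ℚ] Qbar) {τ : Qbar ≃ₐ[ℚ] Qbar} (hτ : om p τ = 1) (x : V) :
    (om p σ : ZMod p) • ((σ * τ * σ⁻¹) • x - x) = τ • x - x := by
  have h1 : om p (σ * τ * σ⁻¹) = 1 := by
    rw [map_mul, map_mul, hτ, mul_one, map_inv, mul_inv_cancel]
  obtain ⟨k, hk, hk2⟩ : ∃ k ∈ C, σ • x = (om p σ : ZMod p) • x + k :=
    ⟨_, smul_sub_mem hadm σ x, by abel⟩
  obtain ⟨c, hc, hc2⟩ : ∃ c ∈ C, τ • x = x + c :=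
    ⟨_, smul_sub_mem' hadm hτ x, by abel⟩
  have h2 : (σ * τ * σ⁻¹) • (σ • x) = σ • x + c := by
    rw [smul_smul, inv_mul_cancel_right, mul_smul, hc2, smul_add, hadm.fixed_sub σ c hc]
  rw [hk2, smul_add, smul_comm, hadm.fixed_sub _ k hk] at h2
  rw [smul_sub, hc2]
  have h3 : (om p σ : ZMod p) • (σ * τ * σ⁻¹) • x = (om p σ : ZMod p) • x + c := by
    have := congrArg (fun y => y - k) h2
    simp only [add_sub_cancel_right] at this
    rw [this]
    abel
  rw [h3]
  abel

theorem ker_omega_le (hp3 : 3 ≤ p) :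
    (∀ σ : Qbar ≃ₐ[ℚ] Qbar, om p σ = 1 → σ ∈ kerV' V) ∧ ∃ σ : Qbar ≃ₐ[ℚ] Qbar, om p σ = -1 := by
  classical
  haveI hNZ : NeZero p := ⟨hp.out.ne_zero⟩
  haveI hgalQ : IsGalois ℚ Qbar := isGalois_Qbar
  obtain ⟨x₀, hx₀⟩ := exists_notMem hadm
  obtain ⟨ψ, hψ⟩ := exists_psi hadm
  -- the field
  set N : Subgroup (Qbar ≃ₐ[ℚ] Qbar) := kerV' V with hN
  have hNopen : IsOpen (N : Set (Qbar ≃ₐ[ℚ] Qbar)) := hadm.open_kernel
  have hNc := N.isClosed_of_isOpen hNopen
  set M := IntermediateField.fixedField N with hM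
  have hfix : M.fixingSubgroup = N := InfiniteGalois.fixingSubgroup_fixedField ⟨N, hNc⟩
  have h1 := (InfiniteGalois.isOpen_and_normal_iff_finite_and_isGalois M).mp
    ⟨by rw [hfix]; exact hNopen, by rw [hfix]; infer_instance⟩
  haveI hfd : FiniteDimensional ℚ M := h1.1
  haveI hgalM : IsGalois ℚ M := h1.2
  haveI hNF : NumberField M := by
    have hinst : (inferInstance : Algebra ℚ M) = DivisionRing.toRatAlgebra :=
      Subsingleton.elim _ _
    have hfd' : @Module.Finite ℚ M _ _ (inferInstance : Algebra ℚ M).toModule := hfd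
    rw [hinst] at hfd'
    exact @NumberField.mk M _ _ hfd'
  -- root of unity
  obtain ⟨zQ, hzQ⟩ : ∃ zQ : Qbar, IsPrimitiveRoot zQ p :=
    HasEnoughRootsOfUnity.exists_primitiveRoot Qbar p
  have hzM : zQ ∈ M := by
    rw [hM, IntermediateField.mem_fixedField_iff]
    intro f hf
    exact (om_eq_one_iff hzQ).1 (om_of_mem_ker hadm hf)
  set z : M := ⟨zQ, hzM⟩ with hzdef
  have hz : IsPrimitiveRoot z p :=
    IsPrimitiveRoot.of_map_of_injective (f := algebraMap M Qbar) hzQ (algebraMap M Qbar).injective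
  -- lifts
  choose lift hlift using fun g : M ≃ₐ[ℚ] M =>
    AlgEquiv.restrictNormalHom_surjective (F := ℚ) (K₁ := M) Qbar g
  have hlift2 : ∀ (g : M ≃ₐ[ℚ] M) (x : M), lift g (x : Qbar) = ((g x : M) : Qbar) := by
    intro g x
    have h2 := AlgEquiv.restrictNormal_commutes (lift g) M x
    have h3 : AlgEquiv.restrictNormal (lift g) M = g := hlift g
    rw [h3] at h2
    exact h2.symm
  have hmemN : ∀ σ : Qbar ≃ₐ[ℚ] Qbar, (∀ x : M, σ (x : Qbar) = x) → σ ∈ N := by
    intro σ hσ
    rw [← hfix, IntermediateField.mem_fixingSubgroup_iff]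
    intro x hx
    exact hσ ⟨x, hx⟩
  have hNM : ∀ σ ∈ N, ∀ x : M, σ (x : Qbar) = x := by
    intro σ hσ x
    rw [← hfix, IntermediateField.mem_fixingSubgroup_iff] at hσ
    exact hσ x x.2
  -- two elements with the same restriction act in the same way
  have hsame : ∀ σ τ : Qbar ≃ₐ[ℚ] Qbar, (∀ x : M, σ (x : Qbar) = τ (x : Qbar)) →
      ∀ v : V, σ • v = τ • v := by
    intro σ τ h v
    have h2 : τ⁻¹ * σ ∈ N := by
      apply hmemN
      intro x
      show τ⁻¹ (σ (x : Qbar)) = x
      rw [h x]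
      exact τ.symm_apply_apply _
    have h3 : (τ⁻¹ * σ) • v = v := h2 v
    rw [mul_smul, inv_smul_eq_iff] at h3
    exact h3
  have homz : ∀ t : M ≃ₐ[ℚ] M, t z = z → om p (lift t) = 1 := by
    intro t ht
    rw [om_eq_one_iff hzQ]
    have := hlift2 t z
    rw [ht] at this
    exact this
  have hreseq : ∀ g : M ≃ₐ[ℚ] M, lift g ∈ N → g = 1 := by
    intro g hg
    ext x
    have h2 := hNM _ hg x
    rw [hlift2] at h2
    exact h2
  -- the function `s`
  set s : (M ≃ₐ[ℚ] M) → ZMod p := fun g =>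
    ψ ⟨lift g • x₀ - (om p (lift g) : ZMod p) • x₀, smul_sub_mem hadm _ _⟩ with hs
  have hs' : ∀ (t : M ≃ₐ[ℚ] M) (ht : t z = z),
      s t = ψ ⟨lift t • x₀ - x₀, smul_sub_mem' hadm (homz t ht) _⟩ := by
    intro t ht
    rw [hs]
    simp only
    congr 2
    rw [homz t ht, Units.val_one, one_smul]
  have key : (∀ t : M ≃ₐ[ℚ] M, t z = z → t = 1) ∧
      ∃ g : M ≃ₐ[ℚ] M, g z = z ^ ((-1 : (ZMod p)ˣ) : ZMod p).val := by
    refine finite_level' M hz hp3 s ?_ ?_ ?_ ?_ ?_
    · intro t t' ht ht'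
      have htt' : (t * t') z = z := by
        show t (t' z) = z
        rw [ht', ht]
      rw [hs' _ htt', hs' _ ht, hs' _ ht', ← map_add]
      congr 1
      apply Subtype.ext
      show lift (t * t') • x₀ - x₀ = (lift t • x₀ - x₀) + (lift t' • x₀ - x₀)
      have h2 : lift (t * t') • x₀ = (lift t * lift t') • x₀ := by
        apply hsame
        intro x
        rw [hlift2]
        show _ = lift t (lift t' (x : Qbar))
        rw [hlift2, hlift2]
        rfl
      have h3 : lift t • (lift t' • x₀ - x₀) = lift t' • x₀ - x₀ :=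
        hadm.fixed_sub _ _ (smul_sub_mem' hadm (homz t' ht') _)
      rw [smul_sub, ← mul_smul] at h3
      rw [h2, sub_eq_iff_eq_add.1 h3]
      abel
    · intro g a t hg ht
      have hgt : (g * t * g⁻¹) z = z := by
        have h2 : g⁻¹ z = g.symm z := rfl
        show g (t (g⁻¹ z)) = z
        rw [h2]
        have h3 : t (g.symm z) = g.symm z := by
          have h4 : g.symm z ^ p = 1 := by rw [← map_pow, hz.pow_eq_one, map_one]
          obtain ⟨i, -, hi⟩ := hz.eq_pow_of_pow_eq_one h4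
          rw [← hi, map_pow, ht]
        rw [h3]
        exact g.apply_symm_apply z
      have hoa : om p (lift g) = a := by
        apply om_eq_of hzQ
        have := hlift2 g z
        rw [hg] at this
        exact this
      rw [hs' _ hgt, hs' _ ht, ← smul_eq_mul, ← map_smul]
      congr 1
      apply Subtype.ext
      show (a : ZMod p) • (lift (g * t * g⁻¹) • x₀ - x₀) = lift t • x₀ - x₀
      have h2 : lift (g * t * g⁻¹) • x₀ = (lift g * lift t * (lift g)⁻¹) • x₀ := by
        apply hsame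
        intro x
        rw [hlift2]
        show _ = lift g (lift t ((lift g)⁻¹ (x : Qbar)))
        have h3 : (lift g)⁻¹ (x : Qbar) = ((g⁻¹ x : M) : Qbar) := by
          have h4 : lift g ((g⁻¹ x : M) : Qbar) = x := by
            rw [hlift2]
            exact congrArg Subtype.val (g.apply_symm_apply x)
          rw [← h4]
          exact (lift g).symm_apply_apply _
        rw [h3, hlift2, hlift2]
        rfl
      rw [h2, ← hoa]
      exact conj_formula hadm (lift g) (homz t ht) x₀
    · intro t ht hst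
      rw [hs' _ ht] at hst
      have h2 := (map_eq_zero_iff ψ hψ).1 hst
      have h3 : lift t • x₀ = x₀ := sub_eq_zero.1 (congrArg Subtype.val h2)
      exact hreseq t (mem_ker_of_fix hadm hx₀ h3)
    · intro ℓ hℓ hℓp w hw g hg
      obtain ⟨A, hA⟩ := exists_place M w
      have hAℓ : A.LiesOverPrime ℓ := by
        have h2 := (hA (ℓ : NumberField.RingOfIntegers M)).2 hw
        rw [mem_center_iff, ← mem_nonunits_iff_valuation] at h2
        have h3 : ((incl M (ℓ : NumberField.RingOfIntegers M) : integralClosure ℤ Qbar) : Qbar) = ℓ := by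
          rw [map_natCast]
          rfl
        rw [h3] at h2
        exact h2
      obtain ⟨h, hh, hhg⟩ := exists_mul_mem_inertia A hℓ hAℓ N hNopen (lift g) (by
        intro b hb
        have hbM : (b : Qbar) ∈ M := by
          rw [hM, IntermediateField.mem_fixedField_iff]
          intro f hf
          exact congrArg Subtype.val (hb f hf)
        have hbi : IsIntegral ℤ (⟨(b : Qbar), hbM⟩ : M) := by
          have := b.2
          rw [mem_integralClosure_iff] at this
          exact (isIntegral_algHom_iff (IsScalarTower.toAlgHom ℤ M Qbar)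
            (algebraMap M Qbar).injective).mp this
        have h3 := (hA _).2 (hg ⟨⟨(b : Qbar), hbM⟩, hbi⟩)
        rw [mem_center_iff] at h3 ⊢
        have h4 : ((incl M (g • (⟨⟨(b : Qbar), hbM⟩, hbi⟩ : NumberField.RingOfIntegers M) -
            (⟨⟨(b : Qbar), hbM⟩, hbi⟩ : NumberField.RingOfIntegers M)) :
            integralClosure ℤ Qbar) : Qbar) = ((lift g • b - b : integralClosure ℤ Qbar) : Qbar) := by
          show ((g (⟨(b : Qbar), hbM⟩ : M) : M) : Qbar) - (b : Qbar) = lift g (b : Qbar) - (b : Qbar)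
          rw [← hlift2]
        exact (congrArg A.valuation h4).symm.trans_lt h3)
      apply hreseq
      have h5 : h * lift g ∈ N := fun v => hadm.unramified_outside ℓ hℓ hℓp A hAℓ _ hhg v
      have h6 := N.mul_mem (N.inv_mem hh) h5
      rwa [inv_mul_cancel_left] at h6
    · intro w hw t ht htw
      obtain ⟨A, hA⟩ := exists_place M w
      have hAℓ : A.LiesOverPrime p := by
        have h2 := (hA (p : NumberField.RingOfIntegers M)).2 hw
        rw [mem_center_iff, ← mem_nonunits_iff_valuation] at h2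
        have h3 : ((incl M (p : NumberField.RingOfIntegers M) : integralClosure ℤ Qbar) : Qbar) = p := by
          rw [map_natCast]
          rfl
        rw [h3] at h2
        exact h2
      obtain ⟨h, hh, hhg⟩ := exists_mul_mem_decomposition A hp.out hAℓ N hNopen (lift t) (by
        intro b hb
        have hbM : (b : Qbar) ∈ M := by
          rw [hM, IntermediateField.mem_fixedField_iff]
          intro f hf
          exact congrArg Subtype.val (hb f hf)
        have hbi : IsIntegral ℤ (⟨(b : Qbar), hbM⟩ : M) := by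
          have := b.2
          rw [mem_integralClosure_iff] at this
          exact (isIntegral_algHom_iff (IsScalarTower.toAlgHom ℤ M Qbar)
            (algebraMap M Qbar).injective).mp this
        set b' : NumberField.RingOfIntegers M := ⟨⟨(b : Qbar), hbM⟩, hbi⟩ with hb'
        have h3 := htw b'
        rw [← hA, ← hA] at h3
        have h4 : incl M b' = b := rfl
        have h5 : incl M (t • b') = lift t • b := by
          apply Subtype.ext
          show ((t (⟨(b : Qbar), hbM⟩ : M) : M) : Qbar) = lift t (b : Qbar)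
          rw [← hlift2]
        rwa [h4, h5] at h3)
      apply hreseq
      have h5 : h * lift t ∈ N := by
        obtain ⟨C', hC'1, hC'2⟩ := hadm.locally_split A hAℓ
        have hom1 : om p (h * lift t) = 1 := by
          rw [map_mul, om_of_mem_ker hadm hh, homz t ht, mul_one]
        intro v
        have h6 : v ∈ C ⊔ C' := by rw [hC'2.sup_eq_top]; trivial
        obtain ⟨c, hc, c', hc', rfl⟩ := Submodule.mem_sup.1 h6
        rw [smul_add, hadm.fixed_sub _ c hc]
        congr 1
        have h7 := smul_sub_mem' hadm hom1 c'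
        have h8 : (h * lift t) • c' - c' ∈ C' := C'.sub_mem (hC'1 _ hhg c' hc') hc'
        have h9 : (h * lift t) • c' - c' ∈ C ⊓ C' := ⟨h7, h8⟩
        rw [hC'2.inf_eq_bot, Submodule.mem_bot] at h9
        exact sub_eq_zero.1 h9
      have h6 := N.mul_mem (N.inv_mem hh) h5
      rwa [inv_mul_cancel_left] at h6
  obtain ⟨hall, g, hg⟩ := key
  refine ⟨?_, lift g, ?_⟩
  · intro σ hσ
    apply hmemN
    set t := AlgEquiv.restrictNormal σ M with ht
    have ht2 : ∀ x : M, ((t x : M) : Qbar) = σ (x : Qbar) := fun x =>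
      AlgEquiv.restrictNormal_commutes σ M x
    have ht3 : t z = z := by
      apply Subtype.ext
      rw [ht2 z]
      exact (om_eq_one_iff hzQ).1 hσ
    have ht4 := hall t ht3
    intro x
    rw [← ht2, ht4]
    rfl
  · apply om_eq_of hzQ
    have := hlift2 g z
    rw [hg] at this
    exact this

theorem splits (hp3 : 3 ≤ p) : SplitsGlobally C := by
  obtain ⟨hker, σ₀, hσ₀⟩ := ker_omega_le hadm hp3
  have h2 : (2 : ZMod p) ≠ 0 := by
    intro h
    have h3 : ((2 : ℕ) : ZMod p) = 0 := by exact_mod_cast h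
    rw [ZMod.natCast_eq_zero_iff] at h3
    have := Nat.le_of_dvd (by norm_num) h3
    omega
  have hw : ((om p σ₀ : (ZMod p)ˣ) : ZMod p) = -1 := by rw [hσ₀]; simp
  refine ⟨{ carrier := {v | σ₀ • v = -v}
            add_mem' := ?_
            zero_mem' := ?_
            smul_mem' := ?_ }, ?_, ?_⟩
  · intro a b ha hb
    show σ₀ • (a + b) = -(a + b)
    have ha' : σ₀ • a = -a := ha
    have hb' : σ₀ • b = -b := hb
    rw [smul_add, ha', hb', neg_add]
  · show σ₀ • (0 : V) = -0
    rw [smul_zero, neg_zero]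
  · intro a v hv
    have hv' : σ₀ • v = -v := hv
    show σ₀ • (a • v) = -(a • v)
    rw [smul_comm, hv', smul_neg]
  · intro σ v hv
    have hv' : σ₀ • v = -v := hv
    show σ₀ • (σ • v) = -(σ • v)
    have h3 : (σ⁻¹ * σ₀⁻¹ * σ * σ₀) ∈ kerV' V := by
      apply hker
      rw [map_mul, map_mul, map_mul, map_inv, map_inv]
      rw [mul_right_comm (om p σ)⁻¹, inv_mul_cancel, one_mul, inv_mul_cancel]
    have h4 := h3 v
    have h5 : σ • σ₀ • v = σ₀ • σ • v := by
      rw [mul_smul, mul_smul, mul_smul, inv_smul_eq_iff, inv_smul_eq_iff] at h4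
      exact h4
    rw [← h5, hv', smul_neg]
  · rw [isCompl_iff, Submodule.disjoint_def, codisjoint_iff]
    constructor
    · intro x hx hx'
      have hx2 : σ₀ • x = -x := hx'
      rw [hadm.fixed_sub σ₀ x hx] at hx2
      have h3 : (2 : ZMod p) • x = 0 := by
        rw [two_smul]
        conv_lhs => arg 1; rw [hx2]
        exact neg_add_cancel x
      exact (smul_eq_zero.1 h3).resolve_left h2
    · rw [eq_top_iff]
      intro v _
      have hk := smul_sub_mem hadm σ₀ v
      rw [hw, neg_smul, one_smul, sub_neg_eq_add] at hk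
      rw [Submodule.mem_sup]
      refine ⟨(2 : ZMod p)⁻¹ • (σ₀ • v + v), C.smul_mem _ hk,
        v - (2 : ZMod p)⁻¹ • (σ₀ • v + v), ?_, by abel⟩
      show σ₀ • (v - (2 : ZMod p)⁻¹ • (σ₀ • v + v)) = -(v - (2 : ZMod p)⁻¹ • (σ₀ • v + v))
      rw [smul_sub, smul_comm σ₀, hadm.fixed_sub σ₀ _ hk]
      have h3 : σ₀ • v + v = (2 : ZMod p) • ((2 : ZMod p)⁻¹ • (σ₀ • v + v)) := by
        rw [smul_smul, mul_inv_cancel₀ h2, one_smul]
      have h4 : σ₀ • v = (2 : ZMod p) • ((2 : ZMod p)⁻¹ • (σ₀ • v + v)) - v := by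
        rw [← h3]; abel
      generalize (2 : ZMod p)⁻¹ • (σ₀ • v + v) = y at *
      rw [h4, two_smul]
      abel

end main

end Fermat.Agent.ExtVan
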