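import Fermat.Agent.FrobDens.Fixed

set_option autoImplicit false

/-!
# Homs from the ring of integers of a Kummer extension to `ZMod ℓ`
-/

namespace Fermat.Agent.ExtVan

open NumberField Finset Module Polynomial Fermat.Agent.FrobDens
open scoped nonZeroDivisors

/-- extending homs along finite index inclusions -/
lemma extend_hom {A B F : Type*} [CommRing A] [CommRing B] [Field F] (i : A →+* B)
    (hi : Function.Injective i) {m : ℕ} (hm : ∀ b : B, ∃ a : A, i a = m * b) (f : A →+* F)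
    (hmF : (m : F) ≠ 0) : ∃ g : B →+* F, g.comp i = f := by
  choose s hs using hm
  have hsa : ∀ b b', s (b + b') = s b + s b' := fun b b' => hi (by
    rw [map_add, hs, hs, hs, mul_add])
  have hsm : ∀ b b', m * s (b * b') = s b * s b' := fun b b' => hi (by
    rw [map_mul, map_mul, map_natCast, hs, hs, hs]; ring)
  have hs1 : s 1 = m := hi (by rw [hs, map_natCast, mul_one])
  have hs0 : s 0 = 0 := hi (by rw [hs, map_zero, mul_zero])
  refine ⟨⟨⟨⟨fun b => f (s b) / m, ?_⟩, ?_⟩, ?_, ?_⟩, ?_⟩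
  · show f (s 1) / m = 1
    rw [hs1, map_natCast, div_self hmF]
  · intro b b'
    show f (s (b * b')) / m = f (s b) / m * (f (s b') / m)
    have h := congrArg f (hsm b b')
    rw [map_mul, map_mul, map_natCast] at h
    field_simp
    linear_combination h
  · show f (s 0) / m = 0
    rw [hs0, map_zero, zero_div]
  · intro b b'
    show f (s (b + b')) / m = f (s b) / m + f (s b') / m
    rw [hsa, map_add, add_div]
  · ext a
    show f (s (i a)) / m = f a
    have h1 : s (i a) = m * a := hi (by rw [hs, map_mul, map_natCast])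
    rw [h1, map_mul, map_natCast]
    field_simp

variable {K : Type} [Field K] [NumberField K] {q : ℕ}

lemma not_pow_field {E : 𝓞 K} (hq0 : q ≠ 0) (hE : ∀ x : 𝓞 K, E ≠ x ^ q) (b : K) :
    b ^ q ≠ algebraMap (𝓞 K) K E := by
  intro hb
  have h1 : IsIntegral ℤ b := by
    apply IsIntegral.of_pow (Nat.pos_of_ne_zero hq0)
    rw [hb]
    exact E.isIntegral_coe
  set B : 𝓞 K := ⟨b, h1⟩ with hB
  apply hE B
  apply RingOfIntegers.coe_injective
  rw [map_pow]
  exact hb.symm

lemma exists_int_mul (b : K) : ∃ m : ℕ, m ≠ 0 ∧ ∃ x : 𝓞 K, algebraMap (𝓞 K) K x = m * b := by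
  have halg : IsAlgebraic ℤ b := by
    have : IsAlgebraic ℚ b := (Algebra.IsIntegral.isIntegral (R := ℚ) b).isAlgebraic
    exact (IsFractionRing.isAlgebraic_iff ℤ ℚ K).mpr this
  obtain ⟨y, hy0, hy⟩ := halg.exists_integral_multiple
  obtain ⟨n, rfl | rfl⟩ := y.eq_nat_or_neg
  · refine ⟨n, by exact_mod_cast hy0, ⟨(n : ℤ) • b, hy⟩, ?_⟩
    show ((n : ℤ) • b : K) = n * b
    rw [zsmul_eq_mul]
    push_cast
    rfl
  · refine ⟨n, ?_, ⟨-((-(n : ℤ)) • b), hy.neg⟩, ?_⟩
    · rintro rfl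
      exact hy0 (by simp)
    · show -((-(n : ℤ)) • b : K) = n * b
      rw [zsmul_eq_mul]
      push_cast
      ring

lemma exists_int_mul_poly (g : K[X]) : ∃ m : ℕ, m ≠ 0 ∧ ∃ h : (𝓞 K)[X],
    h.map (algebraMap (𝓞 K) K) = (m : K[X]) * g := by
  induction g using Polynomial.induction_on' with
  | add g g' hg hg' =>
    obtain ⟨m, hm, h, hh⟩ := hg
    obtain ⟨m', hm', h', hh'⟩ := hg'
    refine ⟨m * m', mul_ne_zero hm hm', m' * h + m * h', ?_⟩
    rw [Polynomial.map_add, Polynomial.map_mul, Polynomial.map_mul, hh, hh',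
      Polynomial.map_natCast, Polynomial.map_natCast]
    push_cast
    ring
  | monomial n a =>
    obtain ⟨m, hm, x, hx⟩ := exists_int_mul a
    refine ⟨m, hm, monomial n x, ?_⟩
    rw [map_monomial, hx, ← C_mul_X_pow_eq_monomial, ← C_mul_X_pow_eq_monomial, C_mul, mul_assoc]
    simp

/-- Kummer extensions and reductions -/
theorem exists_kummer_field (hq : q.Prime) {E : 𝓞 K} (hE : ∀ x : 𝓞 K, E ≠ x ^ q) :
    ∃ (L : Type) (_ : Field L) (_ : NumberField L)
      (j : AdjoinRoot (X ^ q - C E : (𝓞 K)[X]) →+* 𝓞 L) (m : ℕ), m ≠ 0 ∧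
      ∀ (ℓ : ℕ) [Fact ℓ.Prime], ¬ ℓ ∣ m →
        ∀ f : AdjoinRoot (X ^ q - C E : (𝓞 K)[X]) →+* ZMod ℓ,
          ∃ g : 𝓞 L →+* ZMod ℓ, g.comp j = f := by
  classical
  set E' : K := algebraMap (𝓞 K) K E with hE'
  have hirr : Irreducible (X ^ q - C E' : K[X]) :=
    X_pow_sub_C_irreducible_of_prime hq (not_pow_field hq.ne_zero hE)
  haveI : Fact (Irreducible (X ^ q - C E' : K[X])) := ⟨hirr⟩
  set L := AdjoinRoot (X ^ q - C E' : K[X]) with hL
  have hmonK : (X ^ q - C E' : K[X]).Monic := monic_X_pow_sub_C _ hq.ne_zero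
  have hmon : (X ^ q - C E : (𝓞 K)[X]).Monic := monic_X_pow_sub_C _ hq.ne_zero
  haveI : Module.Finite K L := (AdjoinRoot.powerBasis' hmonK).finite
  haveI hNF : NumberField L := NumberField.of_module_finite K L
  have hmap : (X ^ q - C E : (𝓞 K)[X]).map (algebraMap (𝓞 K) K) = X ^ q - C E' := by
    simp [hE']
  -- the inclusion
  let j0 : AdjoinRoot (X ^ q - C E : (𝓞 K)[X]) →+* L :=
    AdjoinRoot.lift ((algebraMap K L).comp (algebraMap (𝓞 K) K)) (AdjoinRoot.root _) (by
      rw [← Polynomial.eval₂_map, hmap]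
      exact AdjoinRoot.eval₂_root _)
  have hj0 : ∀ g : (𝓞 K)[X], j0 (AdjoinRoot.mk _ g) =
      AdjoinRoot.mk (X ^ q - C E' : K[X]) (g.map (algebraMap (𝓞 K) K)) := by
    intro g
    show AdjoinRoot.lift _ _ _ (AdjoinRoot.mk _ g) = _
    rw [AdjoinRoot.lift_mk, ← Polynomial.eval₂_map]
    have := AdjoinRoot.aeval_eq (f := (X ^ q - C E' : K[X])) (g.map (algebraMap (𝓞 K) K))
    rw [← this]
    rfl
  have hj0inj : Function.Injective j0 := by
    rw [injective_iff_map_eq_zero]
    intro x hx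
    obtain ⟨g, rfl⟩ := AdjoinRoot.mk_surjective x
    rw [hj0, AdjoinRoot.mk_eq_zero, ← hmap,
      Polynomial.map_dvd_map _ RingOfIntegers.coe_injective hmon] at hx
    exact AdjoinRoot.mk_eq_zero.2 hx
  -- it lands in the integers
  have hint : ∀ x, IsIntegral ℤ (j0 x) := by
    intro x
    have hfin : Module.Finite (𝓞 K) (AdjoinRoot (X ^ q - C E : (𝓞 K)[X])) :=
      (AdjoinRoot.powerBasis' hmon).finite
    have hfin2 : Module.Finite ℤ (AdjoinRoot (X ^ q - C E : (𝓞 K)[X])) :=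
      Module.Finite.trans (𝓞 K) _
    have hx : IsIntegral ℤ x := Algebra.IsIntegral.isIntegral x
    exact hx.map j0.toIntAlgHom
  let j : AdjoinRoot (X ^ q - C E : (𝓞 K)[X]) →+* 𝓞 L :=
    { toFun := fun x => ⟨j0 x, hint x⟩
      map_one' := RingOfIntegers.coe_injective (map_one j0)
      map_mul' := fun x y => RingOfIntegers.coe_injective (map_mul j0 x y)
      map_zero' := RingOfIntegers.coe_injective (map_zero j0)
      map_add' := fun x y => RingOfIntegers.coe_injective (map_add j0 x y) }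
  have hjj : ∀ x, algebraMap (𝓞 L) L (j x) = j0 x := fun x => rfl
  have hjinj : Function.Injective j := fun x y h => hj0inj (by rw [← hjj, ← hjj, h])
  -- the index
  have h1 : ∀ b : 𝓞 L, ∃ m : ℕ, m ≠ 0 ∧ ∃ a, j a = m * b := by
    intro b
    obtain ⟨g, hg⟩ := AdjoinRoot.mk_surjective (algebraMap (𝓞 L) L b)
    obtain ⟨m, hm, h, hh⟩ := exists_int_mul_poly g
    refine ⟨m, hm, AdjoinRoot.mk _ h, ?_⟩
    apply RingOfIntegers.coe_injective
    rw [hjj, hj0, hh, map_mul, map_natCast, map_mul, map_natCast, hg]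
  choose mb hmb hmb' using h1
  obtain ⟨S, hS⟩ := (inferInstance : Module.Finite ℤ (𝓞 L)).fg_top
  set m := ∏ b ∈ S, mb b with hm
  have hm0 : m ≠ 0 := Finset.prod_ne_zero_iff.2 fun b _ => hmb b
  have hmS : ∀ b : 𝓞 L, ∃ a, j a = m * b := by
    intro b
    have hb : b ∈ Submodule.span ℤ (S : Set (𝓞 L)) := by rw [hS]; trivial
    induction hb using Submodule.span_induction with
    | mem b hb =>
      obtain ⟨k, hk⟩ := Finset.dvd_prod_of_mem mb hb
      obtain ⟨a, ha⟩ := hmb' b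
      refine ⟨k * a, ?_⟩
      rw [map_mul, map_natCast, ha, hm, hk]
      push_cast
      ring
    | zero => exact ⟨0, by rw [map_zero, mul_zero]⟩
    | add x y _ _ hx hy =>
      obtain ⟨a, ha⟩ := hx
      obtain ⟨b, hb⟩ := hy
      exact ⟨a + b, by rw [map_add, ha, hb, mul_add]⟩
    | smul c x _ hx =>
      obtain ⟨a, ha⟩ := hx
      refine ⟨c • a, ?_⟩
      rw [map_zsmul, ha, zsmul_eq_mul, zsmul_eq_mul]
      ring
  refine ⟨L, inferInstance, hNF, j, m, hm0, ?_⟩
  intro ℓ hℓ hlm f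
  exact extend_hom j hjinj hmS f (by rwa [Ne, ZMod.natCast_eq_zero_iff])

lemma finite_ringHom (L : Type*) [Field L] [NumberField L] (ℓ : ℕ) [Fact ℓ.Prime] :
    Finite (𝓞 L →+* ZMod ℓ) := by
  obtain ⟨S, hS⟩ := (inferInstance : Module.Finite ℤ (𝓞 L)).fg_top
  refine Finite.of_injective (fun g : 𝓞 L →+* ZMod ℓ => fun b : S => g b) ?_
  intro g g' h
  ext b
  have hb : b ∈ Submodule.span ℤ (S : Set (𝓞 L)) := by rw [hS]; trivial
  induction hb using Submodule.span_induction with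
  | mem b hb => exact congrFun h ⟨b, hb⟩
  | zero => simp
  | add x y _ _ hx hy => rw [map_add, map_add, hx, hy]
  | smul c x _ hx => rw [map_zsmul, map_zsmul, hx]

end Fermat.Agent.ExtVan
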