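import Fermat.Agent.ExtVan.UnitPow
import Fermat.Agent.ExtVan.ClassTriv

set_option autoImplicit false

/-!
# Elements of the `ω²`-part of `K*/p` which are unramified outside `p` and local `p`-th powers at `p`
are `p`-th powers
-/

namespace Fermat.Agent.ExtVan

open NumberField Finset Module Polynomial IsDedekindDomain
open scoped nonZeroDivisors

section General

variable {K : Type*} [Field K] [NumberField K]

lemma exists_ideal_pow {m : ℕ} {x : 𝓞 K} (hx : x ≠ 0) (h : ∀ v, m ∣ mv v x) :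
    ∃ I : Ideal (𝓞 K), I ^ m = Ideal.span {x} := by
  classical
  have hx' : Ideal.span {x} ≠ 0 := by
    rwa [Ne, Ideal.zero_eq_bot, Ideal.span_singleton_eq_bot]
  have hfin : (Function.mulSupport fun v : HeightOneSpectrum (𝓞 K) =>
      v.maxPowDividing (Ideal.span {x})).Finite := Ideal.hasFiniteMulSupport hx'
  have h1 := Ideal.finprod_heightOneSpectrum_factorization hx'
  rw [finprod_eq_prod_of_mulSupport_subset _ (s := Set.Finite.toFinset hfin)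
    (by rw [Set.Finite.coe_toFinset])] at h1
  choose e he using h
  refine ⟨∏ v ∈ Set.Finite.toFinset hfin, v.asIdeal ^ (e v), ?_⟩
  rw [← Finset.prod_pow]
  refine Eq.trans (Finset.prod_congr rfl fun v _ => ?_) h1
  rw [maxPowDividing_eq v hx, he v, ← pow_mul, mul_comm]

end General

variable {p : ℕ} [hp : Fact p.Prime] {K : Type} [Field K] [NumberField K]
  [hK : IsCyclotomicExtension {p} ℚ K] {ζ : K} (hζ : IsPrimitiveRoot ζ p) (hp5 : 5 ≤ p)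

lemma Psi3_cube : Psi3 hζ hp5 ((hζ.toInteger - 1) ^ 3) = 0 := by
  rw [map_pow, map_sub, Psi3_zeta, map_one]
  have h2 : (ez (1 : ZMod p) - 1) = mk3 0 1 (1 / 2) := by
    rw [sub_eq_iff_eq_add]
    simp only [ez, mk3, map_one, map_zero, one_pow]
    ring
  rw [h2, pow_succ, pow_two, mk3_mul, mk3_mul]
  simp [mk3]

lemma c3_congr {x y : 𝓞 K} (h : (hζ.toInteger - 1) ^ 3 ∣ x - y) (k : ℕ) :
    c3 hζ hp5 k x = c3 hζ hp5 k y := by
  obtain ⟨z, hz⟩ := h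
  have h1 : x = y + (hζ.toInteger - 1) ^ 3 * z := by rw [← hz]; ring
  rw [c3, c3, h1, map_add, map_mul, Psi3_cube, zero_mul, add_zero]

lemma c3_zero_ne {x : 𝓞 K} (h : ¬ (hζ.toInteger - 1) ∣ x) : c3 hζ hp5 0 x ≠ 0 := by
  intro h0
  apply h
  obtain ⟨n, hn⟩ := Kummer.exists_int_sub_dvd hζ 1 x
  rw [Int.cast_one] at hn
  obtain ⟨y, hy⟩ := hn
  have hadd : ∀ a b : 𝓞 K, c3 hζ hp5 0 (a + b) = c3 hζ hp5 0 a + c3 hζ hp5 0 b := by
    intro a b
    rw [c3, c3, c3, map_add, map_add]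
  have h1 : c3 hζ hp5 0 (hζ.toInteger - 1) = 0 := by
    rw [c3, map_sub, Psi3_zeta, map_one]
    have h2 : (ez (1 : ZMod p) - 1) = mk3 0 1 (1 / 2) := by
      rw [sub_eq_iff_eq_add]
      simp only [ez, mk3, map_one, map_zero, one_pow]
      ring
    rw [h2]
    exact (coord_mk3 0 1 (1 / 2)).1
  have h2 : c3 hζ hp5 0 (n : 𝓞 K) = 0 := by
    have h3 : x = n + (hζ.toInteger - 1) * y := by rw [← hy]; ring
    rw [h3, hadd, (c3_mul hζ hp5 _ _).1, h1, zero_mul, add_zero] at h0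
    exact h0
  have h3 : (n : ZMod p) = 0 := by
    have h4 : Psi3 hζ hp5 (n : 𝓞 K) = mk3 (n : ZMod p) 0 0 := by
      rw [map_intCast]
      simp [mk3]
    rw [c3, h4, (coord_mk3 (n : ZMod p) 0 0).1] at h2
    exact h2
  rw [ZMod.intCast_zmod_eq_zero_iff_dvd] at h3
  have h4 : (hζ.toInteger - 1) ∣ (p : 𝓞 K) := hζ.toInteger_sub_one_dvd_prime'
  have h5 : (hζ.toInteger - 1) ∣ (n : 𝓞 K) := by
    obtain ⟨k, rfl⟩ := h3
    push_cast
    exact h4.mul_right _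
  have h6 : x = (hζ.toInteger - 1) * y + n := by rw [← hy]; ring
  rw [h6]
  exact (Dvd.intro y rfl).add h5

/-- passing to the unit -/
lemma unit_step {α x : 𝓞 K} {ε : (𝓞 K)ˣ} (hx0 : x ≠ 0) (hε : x ^ p * (ε : 𝓞 K) = α)
    (h1 : ∀ a : (ZMod p)ˣ, ∃ k1 k2 : 𝓞 K, k2 ≠ 0 ∧
      k2 ^ p * sg K a α = α ^ ((a ^ 2 : (ZMod p)ˣ) : ZMod p).val * k1 ^ p) (a : (ZMod p)ˣ) :
    ∃ k : (𝓞 K)ˣ, ug K a ε = ε ^ ((a ^ 2 : (ZMod p)ˣ) : ZMod p).val * k ^ p := by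
  have hp0 := hp.out.ne_zero
  obtain ⟨k1, k2, hk2, hk⟩ := h1 a
  set e := ((a ^ 2 : (ZMod p)ˣ) : ZMod p).val with he
  set u : (𝓞 K)ˣ := ug K a ε * (ε ^ e)⁻¹ with hu
  -- `u` is a `p`-th power in `K`
  have hs0 : sg K a x ≠ 0 := (map_ne_zero_iff _ (sg K a).injective).2 hx0
  have h5 : (u : 𝓞 K) * (k2 * sg K a x) ^ p = (x ^ e * k1) ^ p := by
    have h6 : (k2 * sg K a x) ^ p * ((ug K a ε : (𝓞 K)ˣ) : 𝓞 K) =
        (x ^ e * k1) ^ p * ((ε ^ e : (𝓞 K)ˣ) : 𝓞 K) := by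
      rw [← hε] at hk
      rw [map_mul, map_pow] at hk
      rw [coe_ug, Units.val_pow_eq_pow_val]
      rw [mul_pow, mul_pow, ← pow_mul x e p, mul_comm e p, pow_mul x p e]
      linear_combination hk
    rw [hu, Units.val_mul]
    calc ((ug K a ε : (𝓞 K)ˣ) : 𝓞 K) * (((ε ^ e)⁻¹ : (𝓞 K)ˣ) : 𝓞 K) * (k2 * sg K a x) ^ p
        = ((k2 * sg K a x) ^ p * ((ug K a ε : (𝓞 K)ˣ) : 𝓞 K)) *
          (((ε ^ e)⁻¹ : (𝓞 K)ˣ) : 𝓞 K) := by ring
      _ = (x ^ e * k1) ^ p * (((ε ^ e : (𝓞 K)ˣ) : 𝓞 K) * (((ε ^ e)⁻¹ : (𝓞 K)ˣ) : 𝓞 K)) := by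
          rw [h6]; ring
      _ = (x ^ e * k1) ^ p := by rw [Units.mul_inv, mul_one]
  have h6 : (k2 * sg K a x) ^ p ∣ (x ^ e * k1) ^ p := Dvd.intro_left _ h5
  rw [IsIntegrallyClosed.pow_dvd_pow_iff hp0] at h6
  obtain ⟨z, hz⟩ := h6
  have h7 : (u : 𝓞 K) = z ^ p := by
    rw [hz, mul_pow (k2 * sg K a x) z, mul_comm] at h5
    exact mul_left_cancel₀ (pow_ne_zero _ (mul_ne_zero hk2 hs0)) h5
  have h8 : IsUnit z := by
    have h9 : IsUnit (z ^ p) := by rw [← h7]; exact u.isUnit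
    exact (isUnit_pow_iff hp0).1 h9
  refine ⟨h8.unit, ?_⟩
  have h9 : u = h8.unit ^ p := by
    apply Units.ext
    rw [h7]
    push_cast
    rfl
  rw [← h9, hu]
  rw [mul_comm (ug K a ε), mul_inv_cancel_left]

include hp5 in
/-- the prime-to-`λ` case -/
lemma kummer_trivial_aux (α : 𝓞 K) (hα : ¬ (hζ.toInteger - 1) ∣ α)
    (h1 : ∀ a : (ZMod p)ˣ, ∃ k1 k2 : 𝓞 K, k2 ≠ 0 ∧
      k2 ^ p * sg K a α = α ^ ((a ^ 2 : (ZMod p)ˣ) : ZMod p).val * k1 ^ p)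
    (h2 : ∀ v : HeightOneSpectrum (𝓞 K), p ∣ mv v α)
    (h3 : ∃ x : 𝓞 K, (hζ.toInteger - 1) ^ 3 ∣ α - x ^ p) : ∃ x : 𝓞 K, α = x ^ p := by
  classical
  have hNZ : NeZero p := ⟨hp.out.ne_zero⟩
  have hp0 := hp.out.ne_zero
  have hα0 : α ≠ 0 := fun h => hα (by rw [h]; exact dvd_zero _)
  obtain ⟨I, hI⟩ := exists_ideal_pow hα0 h2
  have hI0 : I ≠ 0 := by
    rintro rfl
    rw [zero_pow hp0] at hI
    exact hα0 (Ideal.span_singleton_eq_bot.1 (by rw [← hI]; rfl))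
  set I' : (Ideal (𝓞 K))⁰ := ⟨I, mem_nonZeroDivisors_of_ne_zero hI0⟩ with hI'
  -- the class of `I` is trivial
  have hc : ClassGroup.mk0 I' = 1 := by
    apply class_trivial hζ hp5
    · rw [← map_pow, ClassGroup.mk0_eq_one_iff]
      show Submodule.IsPrincipal (I ^ p)
      rw [hI]
      exact ⟨⟨α, rfl⟩⟩
    · intro a
      obtain ⟨k1, k2, hk2, hk⟩ := h1 a
      set e := ((a ^ 2 : (ZMod p)ˣ) : ZMod p).val with he
      have hk1 : k1 ≠ 0 := by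
        rintro rfl
        rw [zero_pow hp0, mul_zero] at hk
        have h5 : sg K a α ≠ 0 := (map_ne_zero_iff _ (sg K a).injective).2 hα0
        exact mul_ne_zero (pow_ne_zero _ hk2) h5 hk
      rw [ClassGroup.mulEquiv_mk0, ← map_pow]
      rw [ClassGroup.mk0_eq_mk0_iff]
      refine ⟨k2, k1, hk2, hk1, ?_⟩
      have h5 : (Ideal.span {k2} * Ideal.map (sg K a : 𝓞 K →+* 𝓞 K) I) ^ p =
          (Ideal.span {k1} * I ^ e) ^ p := by
        rw [mul_pow, mul_pow, ← Ideal.map_pow, hI, Ideal.map_span, Set.image_singleton,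
          Ideal.span_singleton_pow, Ideal.span_singleton_mul_span_singleton, ← pow_mul, mul_comm e,
          pow_mul, hI, Ideal.span_singleton_pow, Ideal.span_singleton_pow,
          Ideal.span_singleton_mul_span_singleton]
        congr 2
        rw [mul_comm (k1 ^ p), ← hk]
        rfl
      exact (pow_left_injective hp0) h5
  rw [ClassGroup.mk0_eq_one_iff] at hc
  obtain ⟨⟨x, hx⟩⟩ := hc
  have hx' : I = Ideal.span {x} := hx
  rw [hx', Ideal.span_singleton_pow, Ideal.span_singleton_eq_span_singleton] at hI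
  obtain ⟨ε, hε⟩ := hI
  have hx0 : x ≠ 0 := by
    rintro rfl
    rw [zero_pow hp0, zero_mul] at hε
    exact hα0 hε.symm
  have hxl : ¬ (hζ.toInteger - 1) ∣ x := by
    intro h
    apply hα
    rw [← hε]
    exact (dvd_pow h hp0).mul_right _
  -- the unit
  have hcx := c3_zero_ne hζ hp5 hxl
  have hcα := c3_zero_ne hζ hp5 hα
  obtain ⟨y, hy⟩ := h3
  have hcy : c3 hζ hp5 0 y ≠ 0 := by
    intro h0
    apply hcα
    rw [c3_congr hζ hp5 hy, c3_zero_pow, h0, zero_pow hp0]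
  have hL1α : L1 hζ hp5 α = 0 := by
    have h5 : L1 hζ hp5 α = L1 hζ hp5 (y ^ p) := by
      rw [L1, L1, c3_congr hζ hp5 hy, c3_congr hζ hp5 hy]
    rw [h5, L1_pow hζ hp5 hcy, CharP.cast_eq_zero (ZMod p) p, zero_mul]
  have hL2α : L2 hζ hp5 α = 0 := by
    have h5 : L2 hζ hp5 α = L2 hζ hp5 (y ^ p) := by
      rw [L2, L2, c3_congr hζ hp5 hy, c3_congr hζ hp5 hy, c3_congr hζ hp5 hy]
    rw [h5, L2_pow hζ hp5 hcy, CharP.cast_eq_zero (ZMod p) p, zero_mul]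
  have hcxp : c3 hζ hp5 0 (x ^ p) ≠ 0 := by
    rw [c3_zero_pow]; exact pow_ne_zero _ hcx
  have hL1 : L1 hζ hp5 (ε : 𝓞 K) = 0 := by
    rw [← hε, L1_mul hζ hp5 hcxp (c3_unit hζ hp5 ε), L1_pow hζ hp5 hcx,
      CharP.cast_eq_zero (ZMod p) p, zero_mul, zero_add] at hL1α
    exact hL1α
  have hL2 : L2 hζ hp5 (ε : 𝓞 K) = 0 := by
    rw [← hε, L2_mul hζ hp5 hcxp (c3_unit hζ hp5 ε), L2_pow hζ hp5 hcx,
      CharP.cast_eq_zero (ZMod p) p, zero_mul, zero_add] at hL2α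
    exact hL2α
  obtain ⟨v, hv⟩ := unit_is_pow hζ hp5 ε (unit_step hx0 hε h1) hL1 hL2
  refine ⟨x * v, ?_⟩
  rw [← hε, hv, mul_pow]
  push_cast
  rfl

lemma mv_eq_zero_of_notMem {R : Type*} [CommRing R] [IsDedekindDomain R]
    (v : HeightOneSpectrum R) {x : R} (hx : x ∉ v.asIdeal) : mv v x = 0 := by
  unfold mv
  rw [multiplicity_eq_zero]
  intro h
  exact hx ((Ideal.dvd_span_singleton).1 h)

/-- removing the powers of `λ` -/
theorem strip (α : 𝓞 K) (hα : α ≠ 0)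
    (h1 : ∀ a : (ZMod p)ˣ, ∃ k1 k2 : 𝓞 K, k2 ≠ 0 ∧
      k2 ^ p * sg K a α = α ^ ((a ^ 2 : (ZMod p)ˣ) : ZMod p).val * k1 ^ p)
    (h2 : ∀ v : HeightOneSpectrum (𝓞 K), (p : 𝓞 K) ∉ v.asIdeal → p ∣ mv v α)
    (h3 : ∀ N : ℕ, ∃ x : 𝓞 K, (hζ.toInteger - 1) ^ N ∣ α - x ^ p) :
    ∃ c α' : 𝓞 K, α = c ^ p * α' ∧ ¬ (hζ.toInteger - 1) ∣ α' ∧
      (∀ a : (ZMod p)ˣ, ∃ k1 k2 : 𝓞 K, k2 ≠ 0 ∧
      k2 ^ p * sg K a α' = α' ^ ((a ^ 2 : (ZMod p)ˣ) : ZMod p).val * k1 ^ p) ∧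
      (∀ v : HeightOneSpectrum (𝓞 K), p ∣ mv v α') ∧
      ∃ x : 𝓞 K, (hζ.toInteger - 1) ^ 3 ∣ α' - x ^ p := by
  have hp0 := hp.out.ne_zero
  set lam := hζ.toInteger - 1 with hlam
  have hpr : Prime lam := hζ.zeta_sub_one_prime'
  have hfin : ∀ {y : 𝓞 K}, y ≠ 0 → FiniteMultiplicity lam y := fun {y} hy =>
    FiniteMultiplicity.of_not_isUnit hpr.not_isUnit hy
  obtain ⟨α', hα', hα'2⟩ := (hfin hα).exists_eq_pow_mul_and_not_dvd
  set M := multiplicity lam α with hM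
  obtain ⟨x, hx⟩ := h3 (M + 3)
  have hx0 : x ≠ 0 := by
    rintro rfl
    rw [zero_pow hp0, sub_zero, hα', pow_add] at hx
    have h5 := (mul_dvd_mul_iff_left (pow_ne_zero M hpr.ne_zero)).1 hx
    exact hα'2 ((dvd_pow_self _ (by norm_num)).trans h5)
  obtain ⟨x', hx', hx'2⟩ := (hfin hx0).exists_eq_pow_mul_and_not_dvd
  set m := multiplicity lam x with hm
  have hxp : x ^ p = lam ^ (m * p) * x' ^ p := by rw [hx', mul_pow, ← pow_mul]
  have hMm : M = m * p := by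
    rcases lt_trichotomy M (m * p) with h | h | h
    · exfalso
      have h5 : lam ^ (M + 1) ∣ x ^ p := by
        rw [hxp]
        exact (pow_dvd_pow _ h).mul_right _
      have h6 : lam ^ (M + 1) ∣ α := by
        have h7 := (pow_dvd_pow lam (show M + 1 ≤ M + 3 by omega)).trans hx
        have h8 := h7.add h5
        rwa [sub_add_cancel] at h8
      rw [hα', pow_succ] at h6
      exact hα'2 ((mul_dvd_mul_iff_left (pow_ne_zero M hpr.ne_zero)).1 h6)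
    · exact h
    · exfalso
      have h5 : lam ^ (m * p + 1) ∣ α := by
        rw [hα']
        exact (pow_dvd_pow _ h).mul_right _
      have h6 : lam ^ (m * p + 1) ∣ x ^ p := by
        have h7 := (pow_dvd_pow lam (show m * p + 1 ≤ M + 3 by omega)).trans hx
        have h8 := h5.sub h7
        rwa [sub_sub_cancel] at h8
      rw [hxp, pow_succ] at h6
      exact hx'2 (hpr.dvd_of_dvd_pow ((mul_dvd_mul_iff_left (pow_ne_zero _ hpr.ne_zero)).1 h6))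
  have hαm : α = (lam ^ m) ^ p * α' := by rw [← pow_mul, ← hMm, ← hα']
  have hlm : lam ^ m ≠ 0 := pow_ne_zero _ hpr.ne_zero
  have hα'0 : α' ≠ 0 := by
    rintro rfl
    exact hα'2 (dvd_zero _)
  refine ⟨lam ^ m, α', hαm, hα'2, ?_, ?_, ?_⟩
  · intro a
    obtain ⟨k1, k2, hk2, hk⟩ := h1 a
    set e := ((a ^ 2 : (ZMod p)ˣ) : ZMod p).val with he
    refine ⟨(lam ^ m) ^ e * k1, k2 * sg K a (lam ^ m), mul_ne_zero hk2
      ((map_ne_zero_iff _ (sg K a).injective).2 hlm), ?_⟩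
    rw [hαm, map_mul, map_pow (sg K a) (lam ^ m) p] at hk
    rw [mul_pow, mul_pow, ← pow_mul (lam ^ m) e p, mul_comm e p, pow_mul (lam ^ m) p e]
    linear_combination hk
  · intro v
    by_cases hpv : (p : 𝓞 K) ∈ v.asIdeal
    · rw [mv_eq_zero_of_notMem v]
      · exact dvd_zero _
      · have h2 := liesOver_int v hp.out hpv
        have h3 := v.isPrime
        rw [IsCyclotomicExtension.Rat.eq_span_zeta_sub_one_of_liesOver' p K hζ v.asIdeal,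
          Ideal.mem_span_singleton]
        exact hα'2
    · have h5 := h2 v hpv
      rw [hαm, mv_mul v (pow_ne_zero _ hlm) hα'0, mv_pow v hlm] at h5
      exact (Nat.dvd_add_right (dvd_mul_right _ _)).1 h5
  · refine ⟨x', ?_⟩
    have h5 : α - x ^ p = lam ^ M * (α' - x' ^ p) := by
      rw [hxp, ← hMm]
      conv_lhs => rw [hα']
      ring
    rw [h5, pow_add] at hx
    exact (mul_dvd_mul_iff_left (pow_ne_zero M hpr.ne_zero)).1 hx

open NumberField.Units in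
include hζ in
lemma torsion_eq' (hp2 : p ≠ 2) (τ : (𝓞 K)ˣ) (hτ : τ ∈ torsion K) :
    ∃ r : ℕ, (τ : 𝓞 K) = (-hζ.toInteger) ^ r := by
  have hNZ : NeZero p := ⟨hp.out.ne_zero⟩
  have h1 : IsOfFinOrder (algebraMap (𝓞 K) K τ) := by
    have h2 : IsOfFinOrder τ := hτ
    have h3 := MonoidHom.isOfFinOrder
      (((algebraMap (𝓞 K) K : 𝓞 K →+* K) : 𝓞 K →* K).comp (Units.coeHom (𝓞 K))) h2
    exact h3
  obtain ⟨r, hr⟩ := IsPrimitiveRoot.exists_neg_pow_of_isOfFinOrder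
    (hp.out.odd_of_ne_two hp2) hζ h1
  refine ⟨r, ?_⟩
  apply RingOfIntegers.coe_injective
  rw [hr, map_pow, map_neg]
  rfl

open NumberField.Units in
/-- the case `p = 3` -/
lemma kummer_trivial_three {K : Type} [Field K] [NumberField K] [Fact (Nat.Prime 3)]
    [hK : IsCyclotomicExtension {3} ℚ K] {ζ : K} (hζ : IsPrimitiveRoot ζ 3) (α : 𝓞 K) (hα0 : α ≠ 0)
    (h1 : ∀ a : (ZMod 3)ˣ, ∃ k1 k2 : 𝓞 K, k2 ≠ 0 ∧
      k2 ^ 3 * sg K a α = α ^ ((a ^ 2 : (ZMod 3)ˣ) : ZMod 3).val * k1 ^ 3)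
    (h2 : ∀ v : HeightOneSpectrum (𝓞 K), 3 ∣ mv v α) : ∃ x : 𝓞 K, α = x ^ 3 := by
  have hpid := IsCyclotomicExtension.Rat.three_pid K
  obtain ⟨I, hI⟩ := exists_ideal_pow hα0 h2
  obtain ⟨⟨x, hx⟩⟩ := hpid.principal I
  have hx' : I = Ideal.span {x} := hx
  rw [hx', Ideal.span_singleton_pow, Ideal.span_singleton_eq_span_singleton] at hI
  obtain ⟨ε, hε⟩ := hI
  have hx0 : x ≠ 0 := by
    rintro rfl
    rw [zero_pow (by norm_num), zero_mul] at hε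
    exact hα0 hε.symm
  have hrank : rank K = 0 := by
    rw [rank, InfinitePlace.card_eq_nrRealPlaces_add_nrComplexPlaces,
      IsCyclotomicExtension.Rat.nrRealPlaces_eq_zero K (n := 3) (by norm_num),
      IsCyclotomicExtension.Rat.nrComplexPlaces_eq_totient_div_two 3 K,
      Nat.totient_prime Nat.prime_three]
  have htors : ∀ u : (𝓞 K)ˣ, ∃ r : ℕ, (u : 𝓞 K) = (-hζ.toInteger) ^ r := by
    intro u
    apply torsion_eq' hζ (by norm_num)
    obtain ⟨τ, hτ, hu⟩ := co_spec K u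
    have hem : IsEmpty (Fin (rank K)) := by rw [hrank]; infer_instance
    rw [Finset.univ_eq_empty, Finset.prod_empty, mul_one] at hu
    rwa [hu]
  obtain ⟨k, hk⟩ := unit_step hx0 hε h1 (-1)
  obtain ⟨r, hr⟩ := htors ε
  obtain ⟨j, hj⟩ := htors k
  have h3 := congrArg (fun u : (𝓞 K)ˣ => (u : 𝓞 K)) hk
  simp only [Units.val_mul, Units.val_pow_eq_pow_val, coe_ug] at h3
  have hval2 : ((-1 : (ZMod 3)ˣ) : ZMod 3).val = 2 := by
    rw [Units.val_neg, Units.val_one]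
    rfl
  have hval : (((-1 : (ZMod 3)ˣ) : ZMod 3) ^ 2).val = 1 := by
    rw [Units.val_neg, Units.val_one, neg_one_sq]
    rfl
  have hz3 : hζ.toInteger ^ 3 = 1 := hζ.toInteger_isPrimitiveRoot.pow_eq_one
  rw [hval, pow_one, hr, hj, map_pow, map_neg, sg_zeta, hval2] at h3
  have hz0 : (-hζ.toInteger) ^ r ≠ 0 := pow_ne_zero _
    (neg_ne_zero.2 (hζ.toInteger_isPrimitiveRoot.ne_zero (by norm_num)))
  have h4 : hζ.toInteger ^ r = ((-1 : 𝓞 K)) ^ j := by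
    apply mul_left_cancel₀ hz0
    have h5 : (-hζ.toInteger ^ 2) ^ r = (-hζ.toInteger) ^ r * hζ.toInteger ^ r := by
      rw [← mul_pow]
      congr 1
      ring
    rw [← h5, h3, ← pow_mul, mul_comm j 3, pow_mul]
    congr 2
    linear_combination -hz3
  have h5 : hζ.toInteger ^ (r * 2) = 1 := by
    rw [pow_mul, h4, ← pow_mul, mul_comm, pow_mul]
    norm_num
  have h6 := hζ.toInteger_isPrimitiveRoot.dvd_of_pow_eq_one _ h5
  have h7 : 3 ∣ r := (Nat.Coprime.dvd_of_dvd_mul_right (by norm_num) h6)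
  obtain ⟨q, rfl⟩ := h7
  refine ⟨x * (-hζ.toInteger) ^ q, ?_⟩
  rw [← hε, hr, mul_pow, ← pow_mul, mul_comm q 3]

include hζ in
/-- **Main algebraic theorem** -/
theorem kummer_trivial (hp3 : 3 ≤ p) (α : 𝓞 K) (hα : α ≠ 0)
    (h1 : ∀ a : (ZMod p)ˣ, ∃ k1 k2 : 𝓞 K, k2 ≠ 0 ∧
      k2 ^ p * sg K a α = α ^ ((a ^ 2 : (ZMod p)ˣ) : ZMod p).val * k1 ^ p)
    (h2 : ∀ v : HeightOneSpectrum (𝓞 K), (p : 𝓞 K) ∉ v.asIdeal → p ∣ mv v α)
    (h3 : ∀ N : ℕ, ∃ x : 𝓞 K, (hζ.toInteger - 1) ^ N ∣ α - x ^ p) : ∃ x : 𝓞 K, α = x ^ p := by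
  obtain ⟨c, α', hα', h4, h5, h6, h7⟩ := strip hζ α hα h1 h2 h3
  have h8 : ∃ x : 𝓞 K, α' = x ^ p := by
    by_cases hp5 : 5 ≤ p
    · exact kummer_trivial_aux hζ hp5 α' h4 h5 h6 h7
    · have hp' : p = 3 := by
        have h9 : p < 5 := not_le.1 hp5
        interval_cases p
        · rfl
        · exact absurd hp.out (by norm_num)
      subst hp'
      exact kummer_trivial_three hζ α' (by rintro rfl; exact h4 (dvd_zero _)) h5 h6
  obtain ⟨x, rfl⟩ := h8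
  exact ⟨c * x, by rw [mul_pow]; exact hα'⟩

end Fermat.Agent.ExtVan
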