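import Fermat.Agent.ExtVan.Tent

set_option autoImplicit false

/-!
# Lattice sums over ideals depend only on the norm up to `O(1)`
-/

namespace Fermat.Agent.ExtVan

open NumberField NumberField.Units NumberField.Units.dirichletUnitTheorem NumberField.mixedEmbedding
  NumberField.InfinitePlace Finset Module

variable (K : Type*) [Field K] [NumberField K]

/-- projection to the log space -/
noncomputable def piLog : (InfinitePlace K → ℝ) →ₗ[ℝ] logSpace K where
  toFun X w := mult w.val * (X w.val - (∑ v, mult v * X v) * (finrank ℚ K : ℝ)⁻¹)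
  map_add' X Y := by
    ext w
    simp only [Pi.add_apply, mul_add, Finset.sum_add_distrib]
    ring
  map_smul' c X := by
    ext w
    simp only [Pi.smul_apply, smul_eq_mul, RingHom.id_apply]
    have : ∑ v, (mult v : ℝ) * (c * X v) = c * ∑ v, (mult v : ℝ) * X v := by
      rw [Finset.mul_sum]
      exact Finset.sum_congr rfl fun v _ => by ring
    rw [this]
    ring

open scoped Classical in
/-- the real basis -/
noncomputable def ulB : Basis (Fin (Units.rank K)) ℝ (logSpace K) :=
  (basisUnitLattice K).ofZLatticeBasis ℝ (unitLattice K)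

open scoped Classical in
lemma ulB_apply (i : Fin (Units.rank K)) : ulB K i = basisUnitLattice K i :=
  Basis.ofZLatticeBasis_apply ℝ (unitLattice K) (basisUnitLattice K) i

/-- coordinates with respect to the basis of the unit lattice -/
noncomputable def lam (i : Fin (Units.rank K)) : (InfinitePlace K → ℝ) →ₗ[ℝ] ℝ :=
  (ulB K).coord i ∘ₗ piLog K

/-- logarithms of the absolute values -/
noncomputable def lg (x : K) : InfinitePlace K → ℝ := fun v => Real.log (v x)

variable {K}

omit [NumberField K] in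
lemma lg_mul {x y : K} (hx : x ≠ 0) (hy : y ≠ 0) : lg K (x * y) = lg K x + lg K y := by
  ext v
  simp only [lg, Pi.add_apply, map_mul]
  exact Real.log_mul (by simpa using hx) (by simpa using hy)

lemma sum_lg {x : K} (hx : x ≠ 0) :
    ∑ v : InfinitePlace K, (mult v : ℝ) * lg K x v = Real.log |((Algebra.norm ℚ x : ℚ) : ℝ)| := by
  have h1 := prod_eq_abs_norm x
  have h2 : Real.log (∏ w : InfinitePlace K, w x ^ mult w) =
      ∑ v : InfinitePlace K, (mult v : ℝ) * lg K x v := by
    rw [Real.log_prod (fun v _ => pow_ne_zero _ (by simpa using hx))]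
    exact Finset.sum_congr rfl fun v _ => by rw [Real.log_pow]; rfl
  rw [← h2, h1]
  push_cast
  rfl

lemma piLog_lg {x : K} (hx : x ≠ 0) : piLog K (lg K x) = logMap (mixedEmbedding K x) := by
  ext w
  rw [logMap_apply]
  simp only [piLog, LinearMap.coe_mk, AddHom.coe_mk]
  rw [sum_lg hx, normAtPlace_apply, norm_eq_norm]
  push_cast
  rfl

lemma lam_fund (i j : Fin (Units.rank K)) :
    lam K j (lg K ((fundSystem K i : 𝓞 K) : K)) = if i = j then 1 else 0 := by
  unfold lam
  rw [LinearMap.comp_apply, piLog_lg (by simp), logMap_eq_logEmbedding, logEmbedding_fundSystem,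
    ← ulB_apply, Basis.coord_apply, Basis.repr_self, Finsupp.single_apply]

lemma lg_torsion {u : (𝓞 K)ˣ} (hu : u ∈ torsion K) : lg K ((u : 𝓞 K) : K) = 0 := by
  ext v
  simp only [lg, Pi.zero_apply]
  rw [(mem_torsion K).1 hu v, Real.log_one]

variable (K) in
/-- the log map on units -/
noncomputable def lgU : Additive (𝓞 K)ˣ →+ (InfinitePlace K → ℝ) where
  toFun u := lg K ((u.toMul : 𝓞 K) : K)
  map_zero' := by
    ext v
    simp [lg]
  map_add' u v := by
    rw [← lg_mul (by simp) (by simp)]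
    simp

omit [NumberField K] in
lemma lgU_apply (u : (𝓞 K)ˣ) : lgU K (Additive.ofMul u) = lg K ((u : 𝓞 K) : K) := rfl

lemma lam_unit (ζ : (𝓞 K)ˣ) (hζ : ζ ∈ torsion K) (m : Fin (Units.rank K) → ℤ)
    (j : Fin (Units.rank K)) :
    lam K j (lg K (((ζ * ∏ i, fundSystem K i ^ m i : (𝓞 K)ˣ) : 𝓞 K) : K)) = m j := by
  rw [← lgU_apply, ofMul_mul, ofMul_prod, map_add, map_sum, map_add, map_sum, lgU_apply,
    lg_torsion hζ, map_zero, zero_add]
  have h : ∀ i ∈ (univ : Finset (Fin (Units.rank K))),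
      lam K j (lgU K (Additive.ofMul (fundSystem K i ^ m i))) = if i = j then (m i : ℝ) else 0 := by
    intro i _
    rw [ofMul_zpow, map_zsmul, map_zsmul, lgU_apply, lam_fund]
    split_ifs <;> simp
  rw [Finset.sum_congr rfl h]
  simp

variable (K) in
/-- the structure of the unit group -/
noncomputable def uEquiv : torsion K × (Fin (Units.rank K) → ℤ) ≃ (𝓞 K)ˣ :=
  Equiv.ofBijective (fun x => x.1 * ∏ i, fundSystem K i ^ x.2 i)
    (Function.bijective_iff_existsUnique _ |>.2 fun u => by
      obtain ⟨x, hx, huniq⟩ := exist_unique_eq_mul_prod K u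
      exact ⟨x, hx.symm, fun y hy => huniq y hy.symm⟩)

lemma uEquiv_apply (x : torsion K × (Fin (Units.rank K) → ℤ)) :
    uEquiv K x = x.1 * ∏ i, fundSystem K i ^ x.2 i := rfl

/-- boundedness of the projective coordinates on the support of the weight -/
lemma exists_D : ∃ D : ℝ, ∀ X : InfinitePlace K → ℝ, (∀ i, |lam K i X| < 1) →
    ∀ v v', |X v - X v'| ≤ D := by
  classical
  set B := ulB K with hB
  set E : ℝ := ∑ w, ∑ i, |B i w| with hE
  refine ⟨2 * E, fun X hX v v' => ?_⟩
  set μ : ℝ := (∑ v, mult v * X v) * (finrank ℚ K : ℝ)⁻¹ with hμ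
  have h1 : ∀ w : {w : InfinitePlace K // w ≠ w₀}, |piLog K X w| ≤ ∑ i, |B i w| := by
    intro w
    have h2 : piLog K X = ∑ i, lam K i X • B i := by
      conv_lhs => rw [← B.sum_repr (piLog K X)]
      rfl
    rw [h2, Finset.sum_apply]
    refine (abs_sum_le_sum_abs _ _).trans (Finset.sum_le_sum fun i _ => ?_)
    rw [Pi.smul_apply, smul_eq_mul, abs_mul]
    exact mul_le_of_le_one_left (abs_nonneg _) (hX i).le
  have hmul1 : ∀ w : InfinitePlace K, (1 : ℝ) ≤ mult w := fun w => by exact_mod_cast one_le_mult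
  have hsum : ∑ w : InfinitePlace K, (mult w : ℝ) * (X w - μ) = 0 := by
    have h3 : (∑ w : InfinitePlace K, (mult w : ℝ)) = finrank ℚ K := by
      exact_mod_cast congrArg (Nat.cast : ℕ → ℝ) (sum_mult_eq (K := K))
    have h4 : (finrank ℚ K : ℝ) ≠ 0 := by
      exact_mod_cast finrank_pos.ne'
    simp only [mul_sub, Finset.sum_sub_distrib, ← Finset.sum_mul]
    rw [h3, hμ]
    field_simp
    ring
  have h2 : ∀ w : InfinitePlace K, |X w - μ| ≤ E := by
    intro w
    by_cases hw : w = w₀
    · have h3 : (mult w : ℝ) * (X w - μ) = -∑ w : {w : InfinitePlace K // w ≠ w₀}, piLog K X w := by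
        rw [Fintype.sum_eq_add_sum_subtype_ne _ (w₀ : InfinitePlace K)] at hsum
        rw [hw]
        have h5 : ∑ w : {w : InfinitePlace K // w ≠ w₀}, piLog K X w =
            ∑ w : {w : InfinitePlace K // w ≠ w₀}, (mult w.1 : ℝ) * (X w.1 - μ) := rfl
        rw [h5]
        linarith
      have h4 : |(mult w : ℝ) * (X w - μ)| ≤ E := by
        rw [h3, abs_neg]
        exact (abs_sum_le_sum_abs _ _).trans (Finset.sum_le_sum fun w _ => h1 w)
      rw [abs_mul, abs_of_nonneg (by positivity : (0 : ℝ) ≤ mult w)] at h4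
      have h5 := abs_nonneg (X w - μ)
      nlinarith [hmul1 w]
    · have h3 := h1 ⟨w, hw⟩
      have h4 : piLog K X ⟨w, hw⟩ = mult w * (X w - μ) := rfl
      rw [h4, abs_mul, abs_of_nonneg (by positivity : (0 : ℝ) ≤ mult w)] at h3
      have h5 : ∑ i, |B i ⟨w, hw⟩| ≤ E :=
        Finset.single_le_sum (f := fun w => ∑ i, |B i w|)
          (fun w _ => sum_nonneg fun i _ => abs_nonneg _) (mem_univ _)
      have h6 := abs_nonneg (X w - μ)
      nlinarith [hmul1 w]
  have h3 := abs_le.1 (h2 v)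
  have h4 := abs_le.1 (h2 v')
  rw [abs_le]
  constructor <;> linarith [h3.1, h3.2, h4.1, h4.2]

lemma hasSum_prod_aux {T : Type*} [Finite T] {S : Type*} {g : S → ℝ} (hg : ∀ x, 0 ≤ g x)
    (h : HasSum g 1) : HasSum (fun x : T × S => g x.2) (Nat.card T) := by
  have hT : Fintype T := Fintype.ofFinite _
  have h3 : HasSum (fun _ : T => (1 : ℝ)) (Nat.card T) := by
    have := hasSum_fintype (fun _ : T => (1 : ℝ))
    rw [Finset.sum_const, Finset.card_univ, nsmul_eq_mul, mul_one] at this
    rw [Nat.card_eq_fintype_card]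
    exact this
  have h4 := h3.mul h (h3.summable.mul_of_nonneg h.summable (fun _ => zero_le_one) hg)
  simpa using h4

/-- partition of unity over the units -/
lemma hasSum_units (X : InfinitePlace K → ℝ) :
    HasSum (fun u : (𝓞 K)ˣ => wprod (fun i => lam K i (lg K ((u : 𝓞 K) : K) + X)))
      (Nat.card (torsion K)) := by
  have hfin : Finite (torsion K) := inferInstance
  have hw := hasSum_wprod (fun i => lam K i X)
  have h4 := hasSum_prod_aux (T := torsion K) (fun _ => wprod_nonneg _) hw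
  rw [← (uEquiv K).hasSum_iff]
  have h5 : ((fun u : (𝓞 K)ˣ => wprod (fun i => lam K i (lg K ((u : 𝓞 K) : K) + X))) ∘ uEquiv K) =
      fun x => wprod (fun i => lam K i X + x.2 i) := by
    funext x
    rw [Function.comp_apply, uEquiv_apply]
    refine congrArg wprod (funext fun i => ?_)
    rw [map_add, lam_unit _ x.1.2, add_comm]
  rw [h5]
  exact h4

/-! ### the summand -/

/-- the summand of the lattice sums -/
noncomputable def fs (s : ℝ) (x : 𝓞 K) : ℝ :=
  open scoped Classical in
  if x = 0 then 0 else Fw (lam K) (fun v => mult v) s (lg K (x : K))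

lemma fs_zero (s : ℝ) : fs s (0 : 𝓞 K) = 0 := by simp [fs]

lemma fs_of_ne {s : ℝ} {x : 𝓞 K} (hx : x ≠ 0) :
    fs s x = Fw (lam K) (fun v => mult v) s (lg K (x : K)) := by simp [fs, hx]

lemma fs_nonneg (s : ℝ) (x : 𝓞 K) : 0 ≤ fs s x := by
  by_cases hx : x = 0
  · rw [hx, fs_zero]
  · rw [fs_of_ne hx]; exact Fw_nonneg _ _ _ _

lemma one_le_abs_norm {x : 𝓞 K} (hx : x ≠ 0) : 1 ≤ |((Algebra.norm ℚ (x : K) : ℚ) : ℝ)| := by
  rw [← Algebra.coe_norm_int]
  push_cast
  have h1 : Algebra.norm ℤ x ≠ 0 := Algebra.norm_ne_zero_iff.2 hx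
  exact_mod_cast Int.one_le_abs h1

lemma fs_le_one {s : ℝ} (hs : 0 ≤ s) (x : 𝓞 K) : fs s x ≤ 1 := by
  by_cases hx : x = 0
  · rw [hx, fs_zero]; exact zero_le_one
  · rw [fs_of_ne hx, Fw, sum_lg (by simpa using hx)]
    have h1 : Real.exp (-(s * Real.log |((Algebra.norm ℚ (x : K) : ℚ) : ℝ)|)) ≤ 1 := by
      apply Real.exp_le_one_iff.2
      have := Real.log_nonneg (one_le_abs_norm hx)
      nlinarith
    exact mul_le_one₀ (wprod_le_one _) (Real.exp_pos _).le h1

/-- the sup norm of the absolute values -/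
noncomputable def nrm (x : K) : ℝ := univ.sup' univ_nonempty fun v : InfinitePlace K => v x

lemma place_le_nrm (v : InfinitePlace K) (x : K) : v x ≤ nrm x :=
  Finset.le_sup' (fun v : InfinitePlace K => v x) (mem_univ v)

lemma exists_place_eq_nrm (x : K) : ∃ v : InfinitePlace K, v x = nrm x := by
  obtain ⟨v, -, hv⟩ := Finset.exists_mem_eq_sup' (univ_nonempty (α := InfinitePlace K))
    (fun v : InfinitePlace K => v x)
  exact ⟨v, hv.symm⟩

lemma nrm_pos {x : K} (hx : x ≠ 0) : 0 < nrm x :=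
  (pos_iff.2 hx).trans_le (place_le_nrm (Classical.arbitrary _) x)

lemma nrm_nonneg (x : K) : 0 ≤ nrm x :=
  (apply_nonneg _ _).trans (place_le_nrm (Classical.arbitrary _) x)

lemma nrm_neg (x : K) : nrm (-x) = nrm x := by
  unfold nrm
  congr 1
  ext v
  exact v.1.map_neg x

omit [NumberField K] in
lemma place_sub_le (v : InfinitePlace K) (x y : K) : |v x - v y| ≤ v (x - y) :=
  v.1.abs_abv_sub_le_abv_sub x y

open scoped Classical in
lemma nrm_eq (x : K) : nrm x = ‖mixedEmbedding K x‖ := by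
  rw [norm_eq_sup'_normAtPlace]
  unfold nrm
  congr 1
  ext v
  rw [normAtPlace_apply]

open scoped Classical in
lemma summable_norm_inv_pow :
    Summable (fun x : 𝓞 K => (nrm (x : K))⁻¹ ^ (finrank ℚ K + 1)) := by
  have h1 : finrank ℤ (mixedEmbedding.integerLattice K) = finrank ℚ K := by
    rw [ZLattice.rank ℝ, mixedEmbedding.finrank]
  have h2 := ZLattice.summable_norm_pow_inv (mixedEmbedding.integerLattice K) (finrank ℚ K + 1)
    (by rw [h1]; omega)
  have h3 : Function.Injective (fun x : 𝓞 K => (⟨mixedEmbedding K (x : K), ⟨x, rfl⟩⟩ :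
      mixedEmbedding.integerLattice K)) := by
    intro x y hxy
    have := congrArg Subtype.val hxy
    exact RingOfIntegers.coe_injective (mixedEmbedding_injective K this)
  have h4 := h2.comp_injective h3
  refine h4.congr fun x => ?_
  rw [nrm_eq]
  rfl

theorem exists_shift_bound (c : 𝓞 K) : ∃ g : 𝓞 K → ℝ, Summable g ∧
    ∀ s : ℝ, 1 ≤ s → s ≤ 2 → ∀ x, |fs s (x + c) - fs s x| ≤ g x := by
  classical
  obtain ⟨D, hD⟩ := exists_D (K := K)
  obtain ⟨R, C, hR1, hRΓ, hbound⟩ := exists_Fw_bound (lam K) (fun v => mult v) D hD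
    (nrm (c : K)) ((apply_nonneg _ _).trans (place_le_nrm (Classical.arbitrary _) _))
  rw [sum_mult_eq] at hbound
  refine ⟨fun x => (|C| + R ^ (finrank ℚ K + 1)) *
    ((nrm (x : K))⁻¹ ^ (finrank ℚ K + 1)) + if x = 0 then 1 else 0,
    (summable_norm_inv_pow.mul_left _).add ?_, ?_⟩
  · exact (hasSum_ite_eq 0 (1 : ℝ)).summable
  intro s hs1 hs2 x
  have hdiff : |fs s (x + c) - fs s x| ≤ 1 := by
    have h1 := fs_nonneg s x
    have h2 := fs_nonneg s (x + c)
    have h3 := fs_le_one (by linarith : 0 ≤ s) x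
    have h4 := fs_le_one (by linarith : 0 ≤ s) (x + c)
    rw [abs_le]
    constructor <;> linarith
  by_cases hx : x = 0
  · simp only [hx, if_true]
    rw [hx] at hdiff
    have : 0 ≤ (|C| + R ^ (finrank ℚ K + 1)) *
      ((nrm ((0 : 𝓞 K) : K))⁻¹ ^ (finrank ℚ K + 1)) := by
        have := nrm_nonneg ((0 : 𝓞 K) : K)
        positivity
    linarith
  simp only [hx, if_false, add_zero]
  set M := nrm (x : K) with hM
  have hM0 : 0 < M := nrm_pos (by simpa using hx)
  by_cases hMR : M < R
  · refine hdiff.trans ?_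
    have h1 : 1 ≤ R * M⁻¹ := by
      rw [← div_eq_mul_inv, one_le_div hM0]; exact hMR.le
    have h2 : 1 ≤ R ^ (finrank ℚ K + 1) * (M⁻¹ ^ (finrank ℚ K + 1)) := by
      rw [← mul_pow]; exact one_le_pow₀ h1
    have h3 : 0 ≤ |C| * (M⁻¹ ^ (finrank ℚ K + 1)) := by positivity
    rw [add_mul]
    linarith
  · rw [not_lt] at hMR
    have hxc : x + c ≠ 0 := by
      intro h0
      have h1 : (x : K) = -(c : K) := by
        have : ((x + c : 𝓞 K) : K) = 0 := by rw [h0]; simp
        push_cast at this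
        exact eq_neg_of_add_eq_zero_left this
      have h2 : M = nrm (c : K) := by rw [hM, h1, nrm_neg]
      linarith
    rw [fs_of_ne hx, fs_of_ne hxc, abs_sub_comm]
    have h1 := hbound (fun v => v (x : K)) (fun v => v ((x + c : 𝓞 K) : K)) M
      (fun v => pos_iff.2 (RingOfIntegers.coe_ne_zero_iff.2 hx))
      (fun v => pos_iff.2 (RingOfIntegers.coe_ne_zero_iff.2 hxc))
      (fun v => place_le_nrm v _) (exists_place_eq_nrm _)
      (fun v => (place_sub_le v _ _).trans (by
        have h2 : (x : K) - ((x + c : 𝓞 K) : K) = -(c : K) := by push_cast; ring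
        have h3 : v (-(c : K)) = v (c : K) := v.1.map_neg _
        rw [h2, h3]
        exact place_le_nrm v _)) hMR s hs1 hs2
    refine h1.trans ?_
    rw [inv_pow, add_mul]
    have h3 : 0 ≤ R ^ (finrank ℚ K + 1) * (M ^ (finrank ℚ K + 1))⁻¹ := by positivity
    have h4 : C * (M ^ (finrank ℚ K + 1))⁻¹ ≤ |C| * (M ^ (finrank ℚ K + 1))⁻¹ :=
      mul_le_mul_of_nonneg_right (le_abs_self C) (by positivity)
    linarith

end Fermat.Agent.ExtVan
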