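import Fermat.Agent.ExtVan.Finite
import Fermat.Agent.Mink.Minkowski

set_option autoImplicit false
set_option linter.style.haveILetI false
set_option linter.unusedSectionVars false

/-!
# Places of `Qbar` above a prime of a finite layer; lifting decomposition elements
-/

namespace Fermat.Agent.ExtVan

open Fermat.Agent.Frob Fermat.Agent.Mink
open scoped Pointwise

section

variable {L : Type} [Field L] [CharZero L] [Algebra ℚ L]

set_option maxHeartbeats 1000000 in
theorem exists_mul_mem_decomposition [IsGalois ℚ L] (A : ValuationSubring L) {ℓ : ℕ}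
    (hℓ : ℓ.Prime) (hA : A.LiesOverPrime ℓ) (H : Subgroup (L ≃ₐ[ℚ] L)) [H.Normal]
    (hH : IsOpen (H : Set (L ≃ₐ[ℚ] L))) (g : L ≃ₐ[ℚ] L)
    (hg : ∀ b : integralClosure ℤ L, (∀ h ∈ H, h • b = b) → (g • b ∈ center A ↔ b ∈ center A)) :
    ∃ h ∈ H, h * g ∈ A.decompositionSubgroup ℚ := by
  letI : TopologicalSpace (integralClosure ℤ L) := ⊥
  haveI : DiscreteTopology (integralClosure ℤ L) := ⟨rfl⟩
  haveI : ContinuousSMul (L ≃ₐ[ℚ] L) (integralClosure ℤ L) := continuousSMul_integralClosure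
  haveI : ContinuousSMul H (integralClosure ℤ L) :=
    ⟨(continuous_smul (M := L ≃ₐ[ℚ] L) (X := integralClosure ℤ L)).comp
      (continuous_subtype_val.prodMap continuous_id)⟩
  have hHc : IsClosed (H : Set (L ≃ₐ[ℚ] L)) := H.isClosed_of_isOpen hH
  haveI : CompactSpace H := isCompact_iff_compactSpace.mp hHc.isCompact
  let A' := FixedPoints.subalgebra ℤ (integralClosure ℤ L) H
  have hmem : ∀ b : (integralClosure ℤ L), b ∈ A' ↔ ∀ h ∈ H, h • b = b := by
    intro b
    constructor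
    · intro hb h hh; exact hb ⟨h, hh⟩
    · intro hb h; exact hb h h.2
  have hnorm : ∀ (k : L ≃ₐ[ℚ] L) (b : (integralClosure ℤ L)), b ∈ A' → k • b ∈ A' := by
    intro k b hb
    rw [hmem] at hb ⊢
    intro h hh
    have h1 : k⁻¹ * h * k ∈ H := by
      have := (inferInstance : H.Normal).conj_mem h hh k⁻¹
      simpa using this
    have h2 := hb _ h1
    rw [mul_smul, mul_smul] at h2
    have h3 := congrArg (fun z => k • z) h2
    simpa only [smul_inv_smul] using h3
  haveI : Algebra.IsInvariant A' (integralClosure ℤ L) H := ⟨fun b hb => ⟨⟨b, hb⟩, rfl⟩⟩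
  haveI : SMulCommClass H A' (integralClosure ℤ L) := ⟨fun h a b => by
    rw [Algebra.smul_def, Algebra.smul_def, smul_mul']
    congr 1
    exact a.2 h⟩
  have h1 : (g • center A).under A' = (center A).under A' := by
    ext ⟨b, hb⟩
    rw [Ideal.mem_comap, Ideal.mem_comap]
    show b ∈ g • center A ↔ b ∈ center A
    rw [Ideal.mem_pointwise_smul_iff_inv_smul_mem]
    have h2 := hg (g⁻¹ • b) ((hmem _).mp (hnorm g⁻¹ b hb))
    rw [smul_inv_smul] at h2
    exact h2.symm
  obtain ⟨⟨h, hh⟩, hgh⟩ := Algebra.IsInvariant.exists_smul_of_under_eq_of_profinite (A := A')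
    (G := H) (g • center A) (center A) h1
  have hgh' : (h * g) • center A = center A := by
    rw [mul_smul]; exact hgh.symm
  exact ⟨h, hh, mem_decomposition_of_mem_stabilizer_center A hℓ hA hgh'⟩

end

section

variable {L : Type} [Field L] [CharZero L] [Algebra ℚ L]

open NumberField IsDedekindDomain

/-- places above a prime of a finite layer -/
theorem exists_place (M : IntermediateField ℚ L) [NumberField M]
    (w : HeightOneSpectrum (𝓞 M)) : ∃ A : ValuationSubring L,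
      ∀ x : 𝓞 M, incl M x ∈ center A ↔ x ∈ w.asIdeal := by
  set f : 𝓞 M →+* L := (algebraMap M L).comp (algebraMap (𝓞 M) M) with hf
  have hfinj : Function.Injective f := (algebraMap M L).injective.comp RingOfIntegers.coe_injective
  have hbij : Function.Bijective f.rangeRestrict :=
    ⟨fun x y h => hfinj (congrArg (fun a : f.range => (a : L)) h), f.rangeRestrict_surjective⟩
  have hI : Ideal.map f.rangeRestrict w.asIdeal ≠ ⊤ := by
    intro h
    have h1 := Ideal.comap_map_of_bijective f.rangeRestrict hbij (I := w.asIdeal)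
    rw [h, Ideal.comap_top] at h1
    exact w.isPrime.ne_top h1.symm
  obtain ⟨B, hB1, hB2⟩ := Ideal.image_subset_nonunits_valuationSubring _ hI
  refine ⟨B, ?_⟩
  have h1 : ∀ x : 𝓞 M, x ∈ w.asIdeal → B.valuation (f x) < 1 := by
    intro x hx
    rw [← mem_nonunits_iff_valuation]
    apply hB2
    exact ⟨f.rangeRestrict x, Ideal.mem_map_of_mem _ hx, rfl⟩
  intro x
  rw [mem_center_iff]
  show B.valuation (f x) < 1 ↔ x ∈ w.asIdeal
  constructor
  · intro hx
    by_contra hxw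
    have hmax := w.isMaximal
    obtain ⟨y, i, hi, hy⟩ := hmax.exists_inv hxw
    have h2 : B.valuation (f (y * x + i)) < 1 := by
      rw [map_add]
      refine (B.valuation.map_add _ _).trans_lt (max_lt ?_ (h1 i hi))
      rw [map_mul, map_mul]
      refine mul_lt_one_of_nonneg_of_lt_one_right ?_ zero_le hx
      rw [B.valuation_le_one_iff]
      exact hB1 ⟨y, rfl⟩
    rw [hy, map_one, map_one] at h2
    exact lt_irrefl _ h2
  · exact h1 x

end

section

open NumberField IsDedekindDomain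

theorem finite_level' {p : ℕ} [hp : Fact p.Prime] (M : Type) [Field M] [CharZero M]
    [inst : Algebra ℚ M] [FiniteDimensional ℚ M] [IsGalois ℚ M] {z : M} (hz : IsPrimitiveRoot z p)
    (hp3 : 3 ≤ p) (s : (M ≃ₐ[ℚ] M) → ZMod p)
    (s1 : ∀ t t' : M ≃ₐ[ℚ] M, t z = z → t' z = z → s (t * t') = s t + s t')
    (s2 : ∀ (g : M ≃ₐ[ℚ] M) (a : (ZMod p)ˣ) (t : M ≃ₐ[ℚ] M), g z = z ^ (a : ZMod p).val →
      t z = z → (a : ZMod p) * s (g * t * g⁻¹) = s t)
    (s3 : ∀ t : M ≃ₐ[ℚ] M, t z = z → s t = 0 → t = 1)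
    (r1 : ∀ ℓ : ℕ, ℓ.Prime → ℓ ≠ p → ∀ w : HeightOneSpectrum (𝓞 M), (ℓ : 𝓞 M) ∈ w.asIdeal →
      ∀ g : M ≃ₐ[ℚ] M, (∀ x : 𝓞 M, g • x - x ∈ w.asIdeal) → g = 1)
    (r2 : ∀ w : HeightOneSpectrum (𝓞 M), (p : 𝓞 M) ∈ w.asIdeal →
      ∀ t : M ≃ₐ[ℚ] M, t z = z → (∀ x : 𝓞 M, t • x ∈ w.asIdeal ↔ x ∈ w.asIdeal) → t = 1) :
    (∀ t : M ≃ₐ[ℚ] M, t z = z → t = 1) ∧ ∃ g : M ≃ₐ[ℚ] M, g z = z ^ ((-1 : (ZMod p)ˣ) : ZMod p).val := by
  have hinst : inst = DivisionRing.toRatAlgebra := Subsingleton.elim _ _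
  subst hinst
  haveI : NumberField M := ⟨⟩
  refine ⟨finite_level hz hp3 s s1 s2 s3 r1 ?_, exists_gal hz (cyc_Kz hz) (-1)⟩
  intro w hpw t ht htw
  apply r2 w hpw t ht
  intro x
  conv_lhs => rw [← htw]
  exact Ideal.smul_mem_pointwise_smul_iff

end

end Fermat.Agent.ExtVan
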