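import Fermat.Agent.ExtVan.Ell2
import Fermat.Agent.ExtVan.KummerField
import Fermat.Agent.ExtVan.Density

set_option autoImplicit false

/-!
# No class group characters of order `p` in the `ω²`-part
-/

namespace Fermat.Agent.ExtVan

open NumberField Finset Module IsDedekindDomain Polynomial Fermat.Agent.FrobDens
open scoped nonZeroDivisors

lemma exists_hom_of_absNorm {K : Type*} [Field K] [NumberField K] {ℓ : ℕ} [hℓ : Fact ℓ.Prime]
    (q : HeightOneSpectrum (𝓞 K)) (hq : Ideal.absNorm q.asIdeal = ℓ) :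
    ∃ R : 𝓞 K →+* ZMod ℓ, kerV R = q := by
  have hcard : Nat.card (𝓞 K ⧸ q.asIdeal) = ℓ := by
    rw [Ideal.absNorm_apply, Submodule.cardQuot_apply] at hq
    exact hq
  haveI : Finite (𝓞 K ⧸ q.asIdeal) :=
    Nat.finite_of_card_ne_zero (by rw [hcard]; exact hℓ.out.ne_zero)
  letI : Fintype (𝓞 K ⧸ q.asIdeal) := Fintype.ofFinite _
  let e : ZMod ℓ ≃+* (𝓞 K ⧸ q.asIdeal) := ZMod.ringEquivOfPrime (𝓞 K ⧸ q.asIdeal) hℓ.out
    (by rw [← Nat.card_eq_fintype_card, hcard])
  refine ⟨(e.symm : (𝓞 K ⧸ q.asIdeal) →+* ZMod ℓ).comp (Ideal.Quotient.mk q.asIdeal),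
    HeightOneSpectrum.ext ?_⟩
  ext x
  rw [mem_kerV, RingHom.comp_apply, RingHom.coe_coe, map_eq_zero_iff _ e.symm.injective,
    Ideal.Quotient.eq_zero_iff_mem]

variable {p : ℕ} [hp : Fact p.Prime] {K : Type} [Field K] [NumberField K]
  [hK : IsCyclotomicExtension {p} ℚ K] {ζ : K} (hζ : IsPrimitiveRoot ζ p)

include hζ in
theorem no_char (hp5 : 5 ≤ p) (χ : ClassGroup (𝓞 K) →* ℂ) (hχp : ∀ C, χ C ^ p = 1)
    (hχeq : ∀ (a : (ZMod p)ˣ) C, χ (cg K a C) = χ C ^ ((a ^ 2 : (ZMod p)ˣ) : ZMod p).val) :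
    χ = 1 := by
  classical
  have hNZ : NeZero p := ⟨hp.out.ne_zero⟩
  by_contra hχ
  obtain ⟨L, iL1, iL2, j, m, hm0, hm⟩ := exists_kummer_field (K := K) hp.out
    (EE_not_pow hζ hp5)
  have hp0 : (0 : ℝ) < p := by exact_mod_cast hp.out.pos
  refine density_false hχ {q | χ (ClassGroup.mk0 (pI q)) ≠ 1} (fun q hq => not_not.1 hq) L
    (1 / p) (by positivity) ?_ (m.primeFactors ∪ {2, p}) ?_
  · rw [one_div_lt_one_div hp0 (by norm_num)]
    have : (5 : ℝ) ≤ p := by exact_mod_cast hp5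
    linarith
  intro ℓ hℓ hℓS
  haveI : Fact ℓ.Prime := ⟨hℓ⟩
  have hℓm : ¬ ℓ ∣ m := by
    intro h
    exact hℓS (mem_union_left _ (Nat.mem_primeFactors.2 ⟨hℓ, h, hm0⟩))
  have hℓ2 : ℓ ≠ 2 := by
    rintro rfl
    exact hℓS (mem_union_right _ (by simp))
  have hpl : p ≠ ℓ := by
    rintro rfl
    exact hℓS (mem_union_right _ (by simp))
  rw [one_div, inv_mul_eq_div, le_div_iff₀ hp0]
  have hgoal : bZ {q : HeightOneSpectrum (𝓞 K) | χ (ClassGroup.mk0 (pI q)) ≠ 1} ℓ * p ≤
      cnt L ℓ := by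
    by_cases hempty : IsEmpty {q : {q : HeightOneSpectrum (𝓞 K) |
        χ (ClassGroup.mk0 (pI q)) ≠ 1} // Ideal.absNorm q.1.asIdeal = ℓ}
    · have : bZ {q : HeightOneSpectrum (𝓞 K) | χ (ClassGroup.mk0 (pI q)) ≠ 1} ℓ = 0 := by
        rw [bZ, Nat.card_eq_zero]
        exact Or.inl hempty
      rw [this, zero_mul]
      exact Nat.zero_le _
    · rw [not_isEmpty_iff] at hempty
      obtain ⟨⟨⟨q, hq1⟩, hq2⟩⟩ := hempty
      obtain ⟨R, rfl⟩ := exists_hom_of_absNorm q hq2
      have hR1 : χ (ClassGroup.mk0 (pI (kerV R))) ≠ 1 := hq1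
      set ξ := χ (ClassGroup.mk0 (pI (kerV R))) with hξ
      have hr := R_zeta_primitive hζ R hpl
      set r := R hζ.toInteger with hrdef
      -- the powers
      have hRa : ∀ a : (ZMod p)ˣ, ∃ y : ZMod ℓ, (R.comp (sg K a : 𝓞 K →+* 𝓞 K)) (EE hζ) = y ^ p := by
        intro a
        apply thaine_pow hζ _ (by omega) hpl hℓ2 χ hχp hχeq
        rw [mk0_kerV_comp, hχeq, ← hξ]
        intro h1
        have h2 : orderOf ξ = p := orderOf_eq_prime (hχp _) hR1
        have h3 := orderOf_dvd_of_pow_eq_one h1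
        rw [h2] at h3
        have h4 : (((a⁻¹ ^ 2 : (ZMod p)ˣ) : ZMod p)).val < p := ZMod.val_lt _
        have h5 := Nat.eq_zero_of_dvd_of_lt h3 h4
        rw [ZMod.val_eq_zero] at h5
        exact (a⁻¹ ^ 2 : (ZMod p)ˣ).ne_zero h5
      choose y hy using hRa
      have hEu : ∀ a : (ZMod p)ˣ, y a ≠ 0 := by
        intro a h0
        have h1 := hy a
        rw [h0, zero_pow hp.out.ne_zero] at h1
        have h2 : IsUnit (EE hζ) := by
          unfold EE
          refine IsUnit.prod_univ_iff.2 fun b => IsUnit.pow _ ?_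
          have h3 : IsPrimitiveRoot (hζ.toInteger ^ (b : ZMod p).val) p := by
            refine hζ.toInteger_isPrimitiveRoot.pow_of_coprime _ ?_
            exact ZMod.val_coe_unit_coprime b
          have h4 := h3.geom_sum_isUnit hp.out.two_le (j := 2)
            ((Nat.coprime_primes Nat.prime_two hp.out).2 (by omega))
          rw [Finset.sum_range_succ, Finset.sum_range_one, pow_zero, pow_one] at h4
          exact h4
        have h3 := h2.map (R.comp (sg K a : 𝓞 K →+* 𝓞 K))
        rw [h1] at h3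
        exact not_isUnit_zero h3
      -- the homs
      have hf : ∀ ai : (ZMod p)ˣ × Fin p, ∃ g : 𝓞 L →+* ZMod ℓ,
          g (j (AdjoinRoot.of _ hζ.toInteger)) = r ^ (ai.1 : ZMod p).val ∧
          g (j (AdjoinRoot.root _)) = y ai.1 * r ^ (ai.2 : ℕ) := by
        intro ⟨a, i⟩
        have hroot : eval₂ (R.comp (sg K a : 𝓞 K →+* 𝓞 K)) (y a * r ^ (i : ℕ))
            (X ^ p - C (EE hζ) : (𝓞 K)[X]) = 0 := by
          rw [eval₂_sub, eval₂_X_pow, eval₂_C, hy, mul_pow, ← pow_mul, mul_comm (i : ℕ) p, pow_mul,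
            hr.pow_eq_one, one_pow, mul_one, sub_self]
        obtain ⟨g, hg⟩ := hm ℓ hℓm (AdjoinRoot.lift (R.comp (sg K a : 𝓞 K →+* 𝓞 K))
          (y a * r ^ (i : ℕ)) hroot)
        refine ⟨g, ?_, ?_⟩
        · have h1 := DFunLike.congr_fun hg (AdjoinRoot.of _ hζ.toInteger)
          rw [RingHom.comp_apply] at h1
          rw [h1, AdjoinRoot.lift_of]
          show R (sg K a hζ.toInteger) = _
          rw [sg_zeta, map_pow]
        · have h1 := DFunLike.congr_fun hg (AdjoinRoot.root _)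
          rw [RingHom.comp_apply] at h1
          rw [h1, AdjoinRoot.lift_root]
      choose g hg1 hg2 using hf
      have hginj : Function.Injective g := by
        rintro ⟨a, i⟩ ⟨b, k⟩ hab
        have h1 := hg1 (a, i)
        rw [hab, hg1 (b, k)] at h1
        have h2 : b = a := Units.ext (ZMod.val_injective p
          (hr.pow_inj (ZMod.val_lt _) (ZMod.val_lt _) h1))
        subst h2
        have h3 := hg2 (b, i)
        rw [hab, hg2 (b, k)] at h3
        have h4 := mul_left_cancel₀ (hEu b) h3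
        have h5 := hr.pow_inj k.2 i.2 h4
        rw [Prod.mk.injEq]
        exact ⟨rfl, (Fin.ext h5).symm⟩
      have hcard1 : (p - 1) * p ≤ cnt L ℓ := by
        rw [cnt_eq_card_ringHom]
        haveI := finite_ringHom L ℓ
        have h1 := Nat.card_le_card_of_injective g hginj
        rw [Nat.card_prod, Nat.card_eq_fintype_card, Nat.card_eq_fintype_card,
          ZMod.card_units_eq_totient, Nat.totient_prime hp.out, Fintype.card_fin] at h1
        exact h1
      refine le_trans (Nat.mul_le_mul_right p ?_) hcard1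
      -- the bound for the number of primes
      have h1 : ∀ q : {q : {q : HeightOneSpectrum (𝓞 K) |
        χ (ClassGroup.mk0 (pI q)) ≠ 1} // Ideal.absNorm q.1.asIdeal = ℓ}, ∃ a : (ZMod p)ˣ,
          q.1.1 = kerV (R.comp (sg K a : 𝓞 K →+* 𝓞 K)) := by
        intro q
        apply exists_eq_kerV_comp
        have h2 := Ideal.absNorm_mem q.1.1.asIdeal
        rwa [q.2] at h2
      choose a ha using h1
      have h2 : Function.Injective a := by
        intro q q' hqq'
        apply Subtype.ext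
        apply Subtype.ext
        rw [ha q, ha q', hqq']
      have h3 := Nat.card_le_card_of_injective a h2
      rw [Nat.card_eq_fintype_card (α := (ZMod p)ˣ), ZMod.card_units_eq_totient,
        Nat.totient_prime hp.out] at h3
      exact h3
  exact_mod_cast hgoal

end Fermat.Agent.ExtVan
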