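import Fermat.Agent.ExtVan.ClassSum

set_option autoImplicit false

/-!
# Removing Euler factors and the lower bound for `∑ N𝔮^{-s}` over primes with `χ(𝔮) ≠ 1`
-/

namespace Fermat.Agent.ExtVan

open NumberField Finset Module Fermat.Agent.FrobDens IsDedekindDomain Filter Topology
open scoped nonZeroDivisors

variable {K : Type*} [Field K] [NumberField K]

/-- a prime as a nonzero ideal -/
def pI (q : HeightOneSpectrum (𝓞 K)) : (Ideal (𝓞 K))⁰ :=
  ⟨q.asIdeal, mem_nonZeroDivisors_iff_ne_zero.2 q.ne_bot⟩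

lemma pI_injective : Function.Injective (pI (K := K)) := fun q q' h =>
  HeightOneSpectrum.ext (congrArg Subtype.val h)

/-- `I` is not divisible by the primes of `F` -/
def Cop (F : Set (HeightOneSpectrum (𝓞 K))) (I : (Ideal (𝓞 K))⁰) : Prop :=
  ∀ q ∈ F, ¬ q.asIdeal ∣ (I : Ideal (𝓞 K))

open scoped Classical in
/-- the sum over ideals prime to `F` -/
noncomputable def DF (g : (Ideal (𝓞 K))⁰ →* ℂ) (F : Set (HeightOneSpectrum (𝓞 K))) : ℂ :=
  ∑' I, if Cop F I then g I else 0

open scoped Classical in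
lemma summable_DF {g : (Ideal (𝓞 K))⁰ →* ℂ} (hg : Summable g)
    (F : Set (HeightOneSpectrum (𝓞 K))) : Summable (fun I => if Cop F I then g I else 0) := by
  have h := hg.indicator {I | Cop F I}
  refine h.congr fun I => ?_
  by_cases hI : Cop F I
  · rw [if_pos hI, Set.indicator_of_mem (by exact hI)]
  · rw [if_neg hI, Set.indicator_of_notMem (by exact hI)]

lemma cop_mul {F : Set (HeightOneSpectrum (𝓞 K))} {q : HeightOneSpectrum (𝓞 K)} (hq : q ∉ F)
    (I : (Ideal (𝓞 K))⁰) : Cop F (pI q * I) ↔ Cop F I := by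
  constructor
  · intro h q' hq' hd
    exact h q' hq' (hd.trans (Dvd.intro_left _ rfl))
  · intro h q' hq' hd
    have h1 : q'.asIdeal ∣ q.asIdeal * (I : Ideal (𝓞 K)) := hd
    rcases (q'.prime.dvd_mul).1 h1 with h2 | h2
    · have h3 : q'.asIdeal = q.asIdeal := by
        have h4 := Ideal.dvd_iff_le.1 h2
        exact ((q.isMaximal.eq_of_le q'.isPrime.ne_top h4)).symm
      exact hq (by rw [← HeightOneSpectrum.ext h3]; exact hq')
    · exact h q' hq' h2

theorem DF_insert {g : (Ideal (𝓞 K))⁰ →* ℂ} (hg : Summable g)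
    {F : Set (HeightOneSpectrum (𝓞 K))} {q : HeightOneSpectrum (𝓞 K)} (hq : q ∉ F) :
    DF g (insert q F) = (1 - g (pI q)) * DF g F := by
  classical
  have h1 : DF g F = DF g (insert q F) + g (pI q) * DF g F := by
    have hinj : Function.Injective (fun J : (Ideal (𝓞 K))⁰ => pI q * J) := by
      intro J J' h
      have h2 : q.asIdeal * (J : Ideal (𝓞 K)) = q.asIdeal * (J' : Ideal (𝓞 K)) :=
        congrArg Subtype.val h
      exact Subtype.ext (mul_left_cancel₀ q.ne_bot h2)
    have h2 : g (pI q) * DF g F =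
        ∑' I : (Ideal (𝓞 K))⁰, if Cop F I ∧ q.asIdeal ∣ (I : Ideal (𝓞 K)) then g I else 0 := by
      have h3 : Function.support (fun I : (Ideal (𝓞 K))⁰ =>
          if Cop F I ∧ q.asIdeal ∣ (I : Ideal (𝓞 K)) then g I else 0) ⊆
          Set.range (fun J : (Ideal (𝓞 K))⁰ => pI q * J) := by
        intro I hI
        rw [Function.mem_support] at hI
        have hI' : Cop F I ∧ q.asIdeal ∣ (I : Ideal (𝓞 K)) := by
          by_contra hc
          exact hI (if_neg hc)
        obtain ⟨J, hJ⟩ := hI'.2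
        have hJ0 : J ≠ 0 := by
          rintro rfl
          rw [mul_zero] at hJ
          exact mem_nonZeroDivisors_iff_ne_zero.1 I.2 hJ
        exact ⟨⟨J, mem_nonZeroDivisors_iff_ne_zero.2 hJ0⟩, Subtype.ext hJ.symm⟩
      rw [← hinj.tsum_eq h3, DF, ← tsum_mul_left]
      refine tsum_congr fun J => ?_
      have h4 : q.asIdeal ∣ ((pI q * J : (Ideal (𝓞 K))⁰) : Ideal (𝓞 K)) := Dvd.intro _ rfl
      by_cases hJ : Cop F J
      · rw [if_pos hJ, if_pos ⟨(cop_mul hq J).2 hJ, h4⟩, map_mul]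
      · rw [if_neg hJ, if_neg (fun h => hJ ((cop_mul hq J).1 h.1)), mul_zero]
    have h5 : Summable (fun I : (Ideal (𝓞 K))⁰ =>
        if Cop F I ∧ q.asIdeal ∣ (I : Ideal (𝓞 K)) then g I else 0) := by
      have h := hg.indicator {I | Cop F I ∧ q.asIdeal ∣ (I : Ideal (𝓞 K))}
      refine h.congr fun I => ?_
      by_cases hI : Cop F I ∧ q.asIdeal ∣ (I : Ideal (𝓞 K))
      · rw [if_pos hI, Set.indicator_of_mem (by exact hI)]
      · rw [if_neg hI, Set.indicator_of_notMem (by exact hI)]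
    rw [h2, DF, DF, ← (summable_DF hg _).tsum_add h5]
    refine tsum_congr fun I => ?_
    by_cases hI : Cop F I
    · by_cases hqI : q.asIdeal ∣ (I : Ideal (𝓞 K))
      · have h6 : ¬ Cop (insert q F) I := fun h => h q (Set.mem_insert _ _) hqI
        rw [if_pos hI, if_neg h6, if_pos ⟨hI, hqI⟩, zero_add]
      · have h6 : Cop (insert q F) I := by
          intro q' hq'
          rcases Set.mem_insert_iff.1 hq' with rfl | h
          · exact hqI
          · exact hI q' h
        rw [if_pos hI, if_pos h6, if_neg (fun h => hqI h.2), add_zero]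
    · have h6 : ¬ Cop (insert q F) I := fun h => hI fun q' hq' => h q' (Set.mem_insert_of_mem _ hq')
      rw [if_neg hI, if_neg h6, if_neg (fun h => hI h.1), add_zero]
  linear_combination (-1 : ℂ) * h1

lemma DF_empty (g : (Ideal (𝓞 K))⁰ →* ℂ) : DF g ∅ = ∑' I, g I := by
  unfold DF
  refine tsum_congr fun I => ?_
  rw [if_pos]
  intro q hq
  exact absurd hq (Set.notMem_empty q)

theorem DF_finset {g : (Ideal (𝓞 K))⁰ →* ℂ} (hg : Summable g)
    (F : Finset (HeightOneSpectrum (𝓞 K))) :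
    DF g (F : Set (HeightOneSpectrum (𝓞 K))) = (∏ q ∈ F, (1 - g (pI q))) * ∑' I, g I := by
  classical
  induction F using Finset.induction_on with
  | empty => rw [Finset.coe_empty, DF_empty, Finset.prod_empty, one_mul]
  | insert q F hq ih =>
    rw [Finset.coe_insert, DF_insert hg (by simpa using hq), ih, Finset.prod_insert hq, mul_assoc]

lemma finite_primes_dvd (I : (Ideal (𝓞 K))⁰) :
    {q : HeightOneSpectrum (𝓞 K) | q.asIdeal ∣ (I : Ideal (𝓞 K))}.Finite :=
  Ideal.finite_factors (mem_nonZeroDivisors_iff_ne_zero.1 I.2)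

/-- the limit over finite subsets of `Z` -/
theorem tendsto_DF {g : (Ideal (𝓞 K))⁰ →* ℂ} (hg : Summable g)
    (Z : Set (HeightOneSpectrum (𝓞 K))) :
    Tendsto (fun F : Finset Z => DF g ((F.map (Function.Embedding.subtype _) :
      Finset (HeightOneSpectrum (𝓞 K))) : Set (HeightOneSpectrum (𝓞 K)))) atTop (𝓝 (DF g Z)) := by
  classical
  unfold DF
  refine tendsto_tsum_of_dominated_convergence (bound := fun I => ‖g I‖) hg.norm ?_ ?_
  · intro I
    have hfin : (Subtype.val ⁻¹' {q : HeightOneSpectrum (𝓞 K) |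
        q.asIdeal ∣ (I : Ideal (𝓞 K))} : Set Z).Finite :=
      (finite_primes_dvd I).preimage Subtype.val_injective.injOn
    refine tendsto_nhds_of_eventually_eq ?_
    filter_upwards [eventually_ge_atTop hfin.toFinset] with F hF
    have h1 : Cop ((F.map (Function.Embedding.subtype _) :
      Finset (HeightOneSpectrum (𝓞 K))) : Set (HeightOneSpectrum (𝓞 K))) I ↔ Cop Z I := by
      constructor
      · intro h q hq hd
        refine h q ?_ hd
        rw [Finset.mem_coe, Finset.mem_map]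
        exact ⟨⟨q, hq⟩, hF (by rw [Set.Finite.mem_toFinset]; exact hd), rfl⟩
      · intro h q hq
        rw [Finset.mem_coe, Finset.mem_map] at hq
        obtain ⟨q', -, rfl⟩ := hq
        exact h _ q'.2
    simp only [h1]
  · filter_upwards with F I
    split_ifs
    · exact le_rfl
    · rw [norm_zero]; exact norm_nonneg _

/-- the completely multiplicative function `χ(I) N(I)^{-s}` -/
noncomputable def gchi (χ : ClassGroup (𝓞 K) →* ℂ) (s : ℝ) : (Ideal (𝓞 K))⁰ →* ℂ where
  toFun I := χ (ClassGroup.mk0 I) * (nz s I : ℂ)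
  map_one' := by
    have h2 : nz s (1 : (Ideal (𝓞 K))⁰) = 1 := by
      unfold nz
      rw [Submonoid.coe_one, Ideal.one_eq_top, Ideal.absNorm_top, Nat.cast_one, Real.one_rpow]
    rw [map_one, map_one, h2]
    simp
  map_mul' I J := by
    rw [map_mul, map_mul, nz_mul]
    push_cast
    ring

lemma gchi_apply (χ : ClassGroup (𝓞 K) →* ℂ) (s : ℝ) (I : (Ideal (𝓞 K))⁰) :
    gchi χ s I = χ (ClassGroup.mk0 I) * (nz s I : ℂ) := rfl

lemma norm_gchi (χ : ClassGroup (𝓞 K) →* ℂ) (s : ℝ) (I : (Ideal (𝓞 K))⁰) :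
    ‖gchi χ s I‖ = nz s I := by
  rw [gchi_apply, norm_mul, norm_chi, one_mul, Complex.norm_real, Real.norm_of_nonneg (nz_nonneg s I)]

lemma summable_primes {s : ℝ} (hs : 1 < s) (Z : Set (HeightOneSpectrum (𝓞 K))) :
    Summable (fun q : Z => nz s (pI q.1)) :=
  (summable_nz hs).comp_injective (pI_injective.comp Subtype.val_injective)

lemma nz_le_half {s : ℝ} (hs : 1 < s) (q : HeightOneSpectrum (𝓞 K)) : nz s (pI q) ≤ 1 / 2 := by
  unfold nz
  have h1 : 2 ≤ Ideal.absNorm q.asIdeal := by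
    have h2 : Ideal.absNorm q.asIdeal ≠ 0 := fun h => q.ne_bot (Ideal.absNorm_eq_zero_iff.1 h)
    have h3 : Ideal.absNorm q.asIdeal ≠ 1 := fun h =>
      q.isPrime.ne_top (Ideal.absNorm_eq_one_iff.1 h)
    omega
  have h2 : (2 : ℝ) ≤ ((Ideal.absNorm ((pI q : (Ideal (𝓞 K))⁰) : Ideal (𝓞 K)) : ℕ) : ℝ) := by
    exact_mod_cast h1
  calc _ ≤ ((Ideal.absNorm ((pI q : (Ideal (𝓞 K))⁰) : Ideal (𝓞 K)) : ℕ) : ℝ) ^ (-1 : ℝ) :=
        Real.rpow_le_rpow_of_exponent_le (by linarith) (by linarith)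
    _ ≤ 1 / 2 := by
        rw [Real.rpow_neg_one, one_div]
        exact inv_anti₀ (by norm_num) h2

lemma one_sub_ge {x : ℝ} (hx0 : 0 ≤ x) (hx : x ≤ 1 / 2) : Real.exp (-(x + 2 * x ^ 2)) ≤ 1 - x := by
  have h1 : 0 < 1 - x := by linarith
  have h2 := Real.log_le_sub_one_of_pos (inv_pos.2 h1)
  rw [Real.log_inv] at h2
  have h3 : (1 - x)⁻¹ - 1 ≤ x + 2 * x ^ 2 := by
    have : (1 - x)⁻¹ ≤ 1 + x + 2 * x ^ 2 := by
      rw [inv_le_comm₀ h1 (by positivity)]
      rw [inv_le_iff_one_le_mul₀ (by positivity)]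
      nlinarith [sq_nonneg x]
    linarith
  rw [← Real.le_log_iff_exp_le h1]
  linarith

/-- the main inequality at a fixed `s > 1` -/
theorem zval_le {χ : ClassGroup (𝓞 K) →* ℂ} {Z : Set (HeightOneSpectrum (𝓞 K))}
    (hZ : ∀ q, q ∉ Z → χ (ClassGroup.mk0 (pI q)) = 1) {s : ℝ} (hs : 1 < s) :
    zval K s * Real.exp (-((∑' q : Z, nz s (pI q.1)) + 2 * ∑' q : Z, nz s (pI q.1) ^ 2)) ≤
      Real.exp (∑' q : Z, nz s (pI q.1)) * ‖Lc χ s‖ := by
  classical
  have hg : Summable (gchi χ s) := summable_Lc χ hs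
  have hg1 : Summable (gchi (1 : ClassGroup (𝓞 K) →* ℂ) s) := summable_Lc 1 hs
  have hsq : Summable (fun q : Z => nz s (pI q.1) ^ 2) := by
    refine Summable.of_nonneg_of_le (fun q => sq_nonneg _) (fun q => ?_) (summable_primes hs Z)
    have h1 := nz_le_half hs q.1
    have h2 := nz_nonneg s (pI q.1)
    nlinarith
  -- the two sums agree over ideals prime to `Z`
  have heq : DF (gchi χ s) Z = DF (gchi (1 : ClassGroup (𝓞 K) →* ℂ) s) Z := by
    unfold DF
    refine tsum_congr fun I => ?_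
    by_cases hI : Cop Z I
    · rw [if_pos hI, if_pos hI, gchi_apply, gchi_apply]
      congr 1
      rw [MonoidHom.one_apply]
      -- χ I = 1 by multiplicativity
      have key : ∀ J : Ideal (𝓞 K), ∀ hJ : J ≠ 0, (∀ q ∈ Z, ¬ q.asIdeal ∣ J) →
          χ (ClassGroup.mk0 ⟨J, mem_nonZeroDivisors_iff_ne_zero.2 hJ⟩) = 1 := by
        intro J
        induction J using UniqueFactorizationMonoid.induction_on_prime with
        | h₁ => intro h; exact absurd rfl h
        | h₂ J hJu =>
          intro hJ _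
          have h1 : (⟨J, mem_nonZeroDivisors_iff_ne_zero.2 hJ⟩ : (Ideal (𝓞 K))⁰) = 1 :=
            Subtype.ext (by
              rw [Submonoid.coe_one]
              exact isUnit_iff_eq_one.1 hJu)
          rw [h1, map_one, map_one]
        | h₃ J Q hJ0 hQ ih =>
          intro hJ hcop
          have hQ0 : Q ≠ 0 := hQ.ne_zero
          set q : HeightOneSpectrum (𝓞 K) := ⟨Q, Ideal.isPrime_of_prime hQ, hQ0⟩ with hq
          have h1 : (⟨Q * J, mem_nonZeroDivisors_iff_ne_zero.2 hJ⟩ : (Ideal (𝓞 K))⁰) =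
              pI q * ⟨J, mem_nonZeroDivisors_iff_ne_zero.2 hJ0⟩ := rfl
          rw [h1, map_mul, map_mul, ih hJ0 (fun q' hq' hd => hcop q' hq' (Dvd.dvd.mul_left hd _)),
            mul_one]
          exact hZ q fun hqZ => hcop q hqZ (Dvd.intro _ rfl)
      exact key I (mem_nonZeroDivisors_iff_ne_zero.1 I.2) hI
    · rw [if_neg hI, if_neg hI]
  have hzv : ∑' I, gchi (1 : ClassGroup (𝓞 K) →* ℂ) s I = (zval K s : ℂ) := by
    rw [← (hasSum_nz hs).tsum_eq, Complex.ofReal_tsum]
    refine tsum_congr fun I => ?_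
    rw [gchi_apply, MonoidHom.one_apply, one_mul]
  have hz1 := one_le_zval K hs
  -- upper bound
  have hup : ‖DF (gchi χ s) Z‖ ≤ Real.exp (∑' q : Z, nz s (pI q.1)) * ‖Lc χ s‖ := by
    refine le_of_tendsto (tendsto_DF hg Z).norm (Eventually.of_forall fun F => ?_)
    rw [DF_finset hg, norm_mul, Finset.prod_map, norm_prod]
    refine mul_le_mul_of_nonneg_right ?_ (norm_nonneg _)
    have h1 : ∏ q ∈ F, ‖1 - gchi χ s (pI (Function.Embedding.subtype _ q))‖ ≤
        ∏ q ∈ F, Real.exp (nz s (pI q.1)) := by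
      refine Finset.prod_le_prod (fun q _ => norm_nonneg _) fun q _ => ?_
      refine (norm_sub_le _ _).trans ?_
      rw [norm_one, norm_gchi]
      have := Real.add_one_le_exp (nz s (pI q.1))
      have h2 : (Function.Embedding.subtype (fun x => x ∈ Z)) q = q.1 := rfl
      rw [h2]
      linarith
    refine h1.trans ?_
    rw [← Real.exp_sum]
    exact Real.exp_le_exp.2 ((summable_primes hs Z).sum_le_tsum F fun q _ => nz_nonneg _ _)
  -- lower bound
  have hlow : zval K s * Real.exp (-((∑' q : Z, nz s (pI q.1)) +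
      2 * ∑' q : Z, nz s (pI q.1) ^ 2)) ≤ ‖DF (gchi (1 : ClassGroup (𝓞 K) →* ℂ) s) Z‖ := by
    refine ge_of_tendsto (tendsto_DF hg1 Z).norm (Eventually.of_forall fun F => ?_)
    rw [DF_finset hg1, norm_mul, Finset.prod_map, norm_prod, hzv, Complex.norm_real,
      Real.norm_of_nonneg (by linarith), mul_comm]
    refine mul_le_mul_of_nonneg_right ?_ (by linarith)
    have h1 : ∏ q ∈ F, Real.exp (-(nz s (pI q.1) + 2 * nz s (pI q.1) ^ 2)) ≤
        ∏ q ∈ F, ‖1 - gchi (1 : ClassGroup (𝓞 K) →* ℂ) s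
          (pI (Function.Embedding.subtype _ q))‖ := by
      refine Finset.prod_le_prod (fun q _ => (Real.exp_pos _).le) fun q _ => ?_
      have h2 : (Function.Embedding.subtype (fun x => x ∈ Z)) q = q.1 := rfl
      rw [h2, gchi_apply, MonoidHom.one_apply, one_mul]
      have h3 := nz_le_half hs q.1
      have h4 := nz_nonneg s (pI q.1)
      have h5 : ‖(1 : ℂ) - (nz s (pI q.1) : ℂ)‖ = 1 - nz s (pI q.1) := by
        have : (1 : ℂ) - (nz s (pI q.1) : ℂ) = ((1 - nz s (pI q.1) : ℝ) : ℂ) := by push_cast; ring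
        rw [this, Complex.norm_real, Real.norm_of_nonneg (by linarith)]
      rw [h5]
      exact one_sub_ge h4 h3
    refine le_trans ?_ h1
    rw [← Real.exp_sum]
    apply Real.exp_le_exp.2
    rw [Finset.sum_neg_distrib, neg_le_neg_iff, Finset.sum_add_distrib, ← Finset.mul_sum]
    have h6 := (summable_primes hs Z).sum_le_tsum F fun q _ => nz_nonneg _ _
    have h7 := hsq.sum_le_tsum F fun q _ => sq_nonneg _
    linarith
  rw [← heq] at hlow
  exact hlow.trans hup

/-- primes with `χ(𝔮) ≠ 1` have (lower, logarithmic) density at least `1/2` -/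
theorem log_le_sum {χ : ClassGroup (𝓞 K) →* ℂ} (hχ : χ ≠ 1) {Z : Set (HeightOneSpectrum (𝓞 K))}
    (hZ : ∀ q, q ∉ Z → χ (ClassGroup.mk0 (pI q)) = 1) :
    ∃ B : ℝ, ∀ᶠ s in 𝓝[>] (1 : ℝ), -Real.log (s - 1) ≤ 2 * (∑' q : Z, nz s (pI q.1)) + B := by
  obtain ⟨B₁, hB₁⟩ := exists_Lc_bound χ hχ
  obtain ⟨B₂, hB₂⟩ := exists_bound_log_zval K
  have hB₁' : 0 < |B₁| + 1 := by positivity
  set A : ℝ := ∑' I : (Ideal (𝓞 K))⁰, nz 2 I with hA
  refine ⟨Real.log (|B₁| + 1) + B₂ + 2 * A, ?_⟩
  filter_upwards [hB₁, hB₂, self_mem_nhdsWithin] with s h1 h2 hs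
  have hs' : 1 < s := hs
  have h3 := zval_le hZ hs'
  have hz := one_le_zval K hs'
  set S := ∑' q : Z, nz s (pI q.1) with hS
  set T := ∑' q : Z, nz s (pI q.1) ^ 2 with hT
  have hTA : T ≤ A := by
    have h4 : ∀ q : Z, nz s (pI q.1) ^ 2 ≤ nz 2 (pI q.1) := by
      intro q
      unfold nz
      rw [← Real.rpow_natCast, ← Real.rpow_mul (Nat.cast_nonneg _)]
      refine Real.rpow_le_rpow_of_exponent_le ?_ ?_
      · exact_mod_cast absNorm_pos (pI q.1)
      · push_cast
        linarith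
    have hsq : Summable (fun q : Z => nz s (pI q.1) ^ 2) :=
      Summable.of_nonneg_of_le (fun q => sq_nonneg _) h4 (summable_primes (by norm_num) Z)
    have h5 : T ≤ ∑' q : Z, nz 2 (pI q.1) := hsq.tsum_le_tsum h4 (summable_primes (by norm_num) Z)
    refine h5.trans ?_
    exact _root_.tsum_comp_le_tsum_of_inj (summable_nz (by norm_num)) (fun I => nz_nonneg _ _)
      (pI_injective.comp Subtype.val_injective)
  have h4 : zval K s * Real.exp (-(S + 2 * T)) ≤ Real.exp S * (|B₁| + 1) := by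
    refine h3.trans (mul_le_mul_of_nonneg_left ?_ (Real.exp_pos _).le)
    exact h1.trans ((le_abs_self _).trans (by linarith))
  have h5 := Real.log_le_log (by positivity) h4
  rw [Real.log_mul (by linarith) (Real.exp_pos _).ne', Real.log_mul (Real.exp_pos _).ne' hB₁'.ne',
    Real.log_exp, Real.log_exp] at h5
  have h6 := (abs_le.1 h2).1
  linarith

end Fermat.Agent.ExtVan
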