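import Mathlib

set_option autoImplicit false

/-!
# Tent functions and a Lipschitz estimate for homogeneous weights
-/

namespace Fermat.Agent.ExtVan

open Finset

/-- the tent function -/
noncomputable def tent (y : ℝ) : ℝ := max 0 (1 - |y|)

lemma tent_nonneg (y : ℝ) : 0 ≤ tent y := le_max_left _ _

lemma tent_le_one (y : ℝ) : tent y ≤ 1 := by
  unfold tent
  exact max_le zero_le_one (by have := abs_nonneg y; linarith)

lemma tent_eq_zero {y : ℝ} (h : 1 ≤ |y|) : tent y = 0 := by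
  unfold tent
  exact max_eq_left (by linarith)

lemma abs_lt_one_of_tent_ne_zero {y : ℝ} (h : tent y ≠ 0) : |y| < 1 := by
  by_contra hc
  exact h (tent_eq_zero (not_lt.1 hc))

lemma abs_tent_sub_le (x y : ℝ) : |tent x - tent y| ≤ |x - y| := by
  unfold tent
  refine (abs_max_sub_max_le_max 0 (1 - |x|) 0 (1 - |y|)).trans ?_
  have h : 1 - |x| - (1 - |y|) = |y| - |x| := by ring
  rw [h, sub_self, abs_zero, max_eq_right (abs_nonneg _), abs_sub_comm]
  exact abs_abs_sub_abs_le x y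

lemma tent_two (y : ℝ) : tent (y - ⌊y⌋) + tent (y - ⌊y⌋ - 1) = 1 := by
  have h0 := Int.fract_nonneg y
  have h1 := Int.fract_lt_one y
  have h2 : y - ⌊y⌋ = Int.fract y := rfl
  rw [h2]
  unfold tent
  rw [abs_of_nonneg h0, abs_of_nonpos (by linarith), max_eq_right (by linarith),
    max_eq_right (by linarith)]
  ring

/-- the two integers `m` with `tent (y + m)` possibly nonzero -/
noncomputable def tset (y : ℝ) : Finset ℤ := {-⌊y⌋, -⌊y⌋ - 1}

lemma sum_tset (y : ℝ) : ∑ m ∈ tset y, tent (y + m) = 1 := by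
  unfold tset
  rw [Finset.sum_pair (by omega)]
  push_cast
  have e1 : y + -(⌊y⌋ : ℝ) = y - ⌊y⌋ := by ring
  have e2 : y + (-(⌊y⌋ : ℝ) - 1) = y - ⌊y⌋ - 1 := by ring
  rw [e1, e2]
  exact tent_two y

lemma tent_eq_zero_of_notMem {y : ℝ} {m : ℤ} (h : m ∉ tset y) : tent (y + m) = 0 := by
  unfold tset at h
  rw [Finset.mem_insert, Finset.mem_singleton, not_or] at h
  have h0 := Int.floor_le y
  have h1 := Int.lt_floor_add_one y
  apply tent_eq_zero
  rcases lt_trichotomy m (-⌊y⌋ - 1) with hlt | heq | hgt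
  · have h2 : m ≤ -⌊y⌋ - 2 := by omega
    have h3 : (m : ℝ) ≤ -⌊y⌋ - 2 := by exact_mod_cast h2
    rw [abs_of_nonpos (by linarith)]
    linarith
  · exact absurd heq h.2
  · have h2 : -⌊y⌋ + 1 ≤ m := by omega
    have h3 : (-⌊y⌋ + 1 : ℝ) ≤ m := by exact_mod_cast h2
    rw [abs_of_nonneg (by linarith)]
    linarith

/-- product weight -/
noncomputable def wprod {r : ℕ} (y : Fin r → ℝ) : ℝ := ∏ i, tent (y i)

lemma wprod_nonneg {r : ℕ} (y : Fin r → ℝ) : 0 ≤ wprod y := prod_nonneg fun _ _ => tent_nonneg _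

lemma wprod_le_one {r : ℕ} (y : Fin r → ℝ) : wprod y ≤ 1 :=
  prod_le_one (fun _ _ => tent_nonneg _) fun _ _ => tent_le_one _

lemma abs_prod_sub_prod_le {ι : Type*} (s : Finset ι) (f g : ι → ℝ) (hf : ∀ i, 0 ≤ f i)
    (hf1 : ∀ i, f i ≤ 1) (hg : ∀ i, 0 ≤ g i) (hg1 : ∀ i, g i ≤ 1) :
    |∏ i ∈ s, f i - ∏ i ∈ s, g i| ≤ ∑ i ∈ s, |f i - g i| := by
  classical
  induction s using Finset.induction_on with
  | empty => simp
  | insert a s ha ih =>
    rw [prod_insert ha, prod_insert ha, sum_insert ha]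
    have h1 : f a * ∏ i ∈ s, f i - g a * ∏ i ∈ s, g i =
        (f a - g a) * ∏ i ∈ s, f i + g a * (∏ i ∈ s, f i - ∏ i ∈ s, g i) := by ring
    rw [h1]
    refine (abs_add_le _ _).trans ?_
    rw [abs_mul, abs_mul]
    have h2 : |∏ i ∈ s, f i| ≤ 1 := by
      rw [abs_of_nonneg (prod_nonneg fun i _ => hf i)]
      exact prod_le_one (fun i _ => hf i) fun i _ => hf1 i
    have h3 : |g a| ≤ 1 := by rw [abs_of_nonneg (hg a)]; exact hg1 a
    have h4 := abs_nonneg (f a - g a)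
    have h5 := abs_nonneg (∏ i ∈ s, f i - ∏ i ∈ s, g i)
    have h6 : |f a - g a| * |∏ i ∈ s, f i| ≤ |f a - g a| * 1 := mul_le_mul_of_nonneg_left h2 h4
    have h7 : |g a| * |∏ i ∈ s, f i - ∏ i ∈ s, g i| ≤ 1 * |∏ i ∈ s, f i - ∏ i ∈ s, g i| :=
      mul_le_mul_of_nonneg_right h3 h5
    linarith

lemma abs_wprod_sub_le {r : ℕ} (y z : Fin r → ℝ) : |wprod y - wprod z| ≤ ∑ i, |y i - z i| := by
  unfold wprod
  refine (abs_prod_sub_prod_le _ _ _ (fun _ => tent_nonneg _) (fun _ => tent_le_one _)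
    (fun _ => tent_nonneg _) (fun _ => tent_le_one _)).trans ?_
  exact Finset.sum_le_sum fun i _ => abs_tent_sub_le _ _

/-- partition of unity -/
lemma hasSum_wprod {r : ℕ} (y : Fin r → ℝ) :
    HasSum (fun m : Fin r → ℤ => wprod (fun i => y i + m i)) 1 := by
  classical
  have h1 : ∑ m ∈ Fintype.piFinset (fun i => tset (y i)), wprod (fun i => y i + m i) = 1 := by
    unfold wprod
    rw [← Finset.prod_univ_sum (fun i => tset (y i)) (fun i (m : ℤ) => tent (y i + m))]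
    exact prod_eq_one fun i _ => sum_tset (y i)
  rw [← h1]
  refine hasSum_sum_of_ne_finset_zero fun m hm => ?_
  rw [Fintype.mem_piFinset, not_forall] at hm
  obtain ⟨i, hi⟩ := hm
  exact prod_eq_zero (mem_univ i) (tent_eq_zero_of_notMem hi)

lemma abs_log_sub_log_le {a b m : ℝ} (hm : 0 < m) (ha : m ≤ a) (hb : m ≤ b) :
    |Real.log a - Real.log b| ≤ |a - b| / m := by
  wlog h : b ≤ a generalizing a b
  · rw [abs_sub_comm, abs_sub_comm a b]
    exact this hb ha (le_of_not_ge h)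
  have hb0 : 0 < b := hm.trans_le hb
  have ha0 : 0 < a := hm.trans_le ha
  rw [abs_of_nonneg (sub_nonneg.2 (Real.log_le_log hb0 h)), abs_of_nonneg (sub_nonneg.2 h),
    ← Real.log_div ha0.ne' hb0.ne']
  have h1 := Real.log_le_sub_one_of_pos (div_pos ha0 hb0)
  have h2 : a / b - 1 = (a - b) / b := by field_simp
  rw [h2] at h1
  exact h1.trans (div_le_div_of_nonneg_left (sub_nonneg.2 h) hm hb)

lemma abs_exp_sub_exp_le {x y B : ℝ} (hx : x ≤ B) (hy : y ≤ B) :
    |Real.exp x - Real.exp y| ≤ |x - y| * Real.exp B := by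
  wlog h : y ≤ x generalizing x y
  · rw [abs_sub_comm, abs_sub_comm x y]
    exact this hy hx (le_of_not_ge h)
  rw [abs_of_nonneg (sub_nonneg.2 (Real.exp_le_exp.2 h)), abs_of_nonneg (sub_nonneg.2 h)]
  have h1 := Real.add_one_le_exp (y - x)
  have h2 : Real.exp x - Real.exp y = Real.exp x * (1 - Real.exp (y - x)) := by
    rw [mul_sub, mul_one, ← Real.exp_add]
    congr 2
    ring
  rw [h2]
  have h3 : 1 - Real.exp (y - x) ≤ x - y := by linarith
  have h4 : Real.exp x ≤ Real.exp B := Real.exp_le_exp.2 hx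
  have h5 : 0 ≤ x - y := sub_nonneg.2 h
  calc Real.exp x * (1 - Real.exp (y - x)) ≤ Real.exp x * (x - y) :=
        mul_le_mul_of_nonneg_left h3 (Real.exp_pos _).le
    _ ≤ Real.exp B * (x - y) := mul_le_mul_of_nonneg_right h4 h5
    _ = (x - y) * Real.exp B := mul_comm _ _

section Lipschitz

variable {ι : Type*} [Fintype ι] {r : ℕ}

/-- the basic homogeneous weight function in logarithmic coordinates -/
noncomputable def Fw (lam : Fin r → (ι → ℝ) →ₗ[ℝ] ℝ) (m : ι → ℕ) (s : ℝ) (X : ι → ℝ) : ℝ :=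
  wprod (fun i => lam i X) * Real.exp (-(s * ∑ v, m v * X v))

lemma Fw_nonneg (lam : Fin r → (ι → ℝ) →ₗ[ℝ] ℝ) (m : ι → ℕ) (s : ℝ) (X : ι → ℝ) :
    0 ≤ Fw lam m s X := mul_nonneg (wprod_nonneg _) (Real.exp_pos _).le

lemma exists_bound_linear [Nonempty ι] (lam : Fin r → (ι → ℝ) →ₗ[ℝ] ℝ) :
    ∃ A : ℝ, 0 ≤ A ∧ ∀ (X : ι → ℝ) (η : ℝ), (∀ v, |X v| ≤ η) → ∀ i, |lam i X| ≤ A * η := by
  classical
  refine ⟨∑ i, ∑ v, |lam i (Pi.single v 1)|,
    sum_nonneg fun i _ => sum_nonneg fun v _ => abs_nonneg _, fun X η hX i => ?_⟩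
  have hη : 0 ≤ η := (abs_nonneg _).trans (hX (Classical.arbitrary ι))
  have h1 : lam i X = ∑ v, X v * lam i (Pi.single v 1) := by
    conv_lhs => rw [← Finset.univ_sum_single X]
    rw [map_sum]
    refine Finset.sum_congr rfl fun v _ => ?_
    have : (Pi.single v (X v) : ι → ℝ) = X v • Pi.single v 1 := by
      rw [← Pi.single_smul, smul_eq_mul, mul_one]
    rw [this, map_smul, smul_eq_mul]
  rw [h1]
  refine (abs_sum_le_sum_abs _ _).trans ?_
  have h2 : ∑ v, |X v * lam i (Pi.single v 1)| ≤ ∑ v, η * |lam i (Pi.single v 1)| :=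
    Finset.sum_le_sum fun v _ => by
      rw [abs_mul]; exact mul_le_mul_of_nonneg_right (hX v) (abs_nonneg _)
  refine h2.trans ?_
  rw [← Finset.mul_sum, mul_comm]
  refine mul_le_mul_of_nonneg_right ?_ hη
  exact Finset.single_le_sum (f := fun i => ∑ v, |lam i (Pi.single v 1)|)
    (fun i _ => sum_nonneg fun v _ => abs_nonneg _) (mem_univ i)

theorem exists_Fw_bound [Nonempty ι] (lam : Fin r → (ι → ℝ) →ₗ[ℝ] ℝ) (m : ι → ℕ) (D : ℝ)
    (hD : ∀ X : ι → ℝ, (∀ i, |lam i X| < 1) → ∀ v v', |X v - X v'| ≤ D) (Γ : ℝ) (hΓ : 0 ≤ Γ) :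
    ∃ R C : ℝ, 1 ≤ R ∧ Γ < R ∧ ∀ (a b : ι → ℝ) (M : ℝ), (∀ v, 0 < a v) → (∀ v, 0 < b v) →
      (∀ v, a v ≤ M) → (∃ v, a v = M) → (∀ v, |a v - b v| ≤ Γ) → R ≤ M → ∀ s : ℝ, 1 ≤ s → s ≤ 2 →
      |Fw lam m s (fun v => Real.log (a v)) - Fw lam m s (fun v => Real.log (b v))| ≤
        C * (M ^ (∑ v, m v + 1))⁻¹ := by
  classical
  obtain ⟨A, hA0, hA⟩ := exists_bound_linear lam
  set n := ∑ v, m v with hn
  set δ : ℝ := Real.exp (-D) / 4 with hδ
  have hD0 : 0 ≤ D ∨ ∀ X : ι → ℝ, ¬ (∀ i, |lam i X| < 1) := by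
    by_cases h : ∃ X : ι → ℝ, ∀ i, |lam i X| < 1
    · obtain ⟨X, hX⟩ := h
      left
      have := hD X hX (Classical.arbitrary ι) (Classical.arbitrary ι)
      exact (abs_nonneg _).trans this
    · right
      push Not at h ⊢
      exact h
  have hD0' : 0 ≤ D := by
    rcases hD0 with h | h
    · exact h
    · exact absurd (fun i => by simp) (h 0)
  have hδ0 : 0 < δ := by positivity
  have hδ1 : δ ≤ 1 / 4 := by
    rw [hδ]
    have : Real.exp (-D) ≤ 1 := Real.exp_le_one_iff.2 (by linarith)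
    linarith
  refine ⟨max (max 1 (2 * Γ + 1)) (4 * Γ * Real.exp D),
    (r * A + 2 * n) * (Γ / δ) * (Real.exp (-(2 * n * Real.log δ))), ?_, ?_, ?_⟩
  · exact (le_max_left _ _).trans (le_max_left _ _)
  · have : Γ < 2 * Γ + 1 := by linarith
    exact this.trans_le ((le_max_right _ _).trans (le_max_left _ _))
  intro a b M ha hb haM haM' hab hRM s hs1 hs2
  have hM1 : 1 ≤ M := ((le_max_left _ _).trans (le_max_left _ _)).trans hRM
  have hM2 : 2 * Γ + 1 ≤ M := ((le_max_right _ _).trans (le_max_left _ _)).trans hRM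
  have hM3 : 4 * Γ * Real.exp D ≤ M := (le_max_right _ _).trans hRM
  have hM0 : 0 < M := by linarith
  have hM3' : 4 * Γ ≤ Real.exp (-D) * M := by
    have h := mul_le_mul_of_nonneg_left hM3 (Real.exp_pos (-D)).le
    have h' : Real.exp (-D) * (4 * Γ * Real.exp D) = 4 * Γ := by
      rw [Real.exp_neg]
      field_simp
    linarith
  have hRHS0 : 0 ≤ (r * A + 2 * n) * (Γ / δ) * (Real.exp (-(2 * n * Real.log δ))) *
      (M ^ (n + 1))⁻¹ := by positivity
  -- comparability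
  have key : ∀ c : ι → ℝ, (∀ v, 0 < c v) → (∀ i, |lam i (fun v => Real.log (c v))| < 1) →
      ∀ v v', Real.exp (-D) * c v' ≤ c v := by
    intro c hc h v v'
    have h1 := hD _ h v v'
    have h2 : Real.log (c v') - D ≤ Real.log (c v) := by
      have := (abs_le.1 h1).1
      linarith
    have h3 := Real.exp_le_exp.2 h2
    rw [Real.exp_log (hc v), sub_eq_add_neg, Real.exp_add, Real.exp_log (hc v')] at h3
    linarith
  by_cases hw : wprod (fun i => lam i (fun v => Real.log (a v))) = 0 ∧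
      wprod (fun i => lam i (fun v => Real.log (b v))) = 0
  · unfold Fw
    rw [hw.1, hw.2, zero_mul, zero_mul, sub_zero, abs_zero]
    exact hRHS0
  have hne : ∀ c : ι → ℝ, wprod (fun i => lam i (fun v => Real.log (c v))) ≠ 0 →
      ∀ i, |lam i (fun v => Real.log (c v))| < 1 := by
    intro c hc i
    unfold wprod at hc
    exact abs_lt_one_of_tent_ne_zero (Finset.prod_ne_zero_iff.1 hc i (mem_univ i))
  have hcomp : ∀ v, δ * M ≤ a v ∧ δ * M ≤ b v := by
    rw [not_and_or] at hw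
    obtain ⟨v₀, hv₀⟩ := haM'
    rcases hw with hw | hw
    · intro v
      have h1 := key a ha (hne a hw) v v₀
      rw [hv₀] at h1
      have h2 := (abs_le.1 (hab v)).2
      constructor <;> rw [hδ] <;> nlinarith [Real.exp_pos (-D)]
    · intro v
      have h1 := key b hb (hne b hw) v v₀
      have h3 := (abs_le.1 (hab v₀)).2
      rw [hv₀] at h3
      have h4 : M / 2 ≤ b v₀ := by linarith
      have h5 : Real.exp (-D) * (M / 2) ≤ b v :=
        (mul_le_mul_of_nonneg_left h4 (Real.exp_pos _).le).trans h1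
      have h2 := (abs_le.1 (hab v)).1
      constructor <;> rw [hδ] <;> nlinarith [Real.exp_pos (-D)]
  have hδM : 0 < δ * M := by positivity
  set X : ι → ℝ := fun v => Real.log (a v) with hX
  set Y : ι → ℝ := fun v => Real.log (b v) with hY
  have hXY : ∀ v, |X v - Y v| ≤ Γ / (δ * M) := fun v =>
    (abs_log_sub_log_le hδM (hcomp v).1 (hcomp v).2).trans
      (div_le_div_of_nonneg_right (hab v) hδM.le)
  have hη0 : 0 ≤ Γ / (δ * M) := by positivity
  have h1 : |wprod (fun i => lam i X) - wprod (fun i => lam i Y)| ≤ r * A * (Γ / (δ * M)) := by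
    refine (abs_wprod_sub_le _ _).trans ?_
    have h2 : ∀ i ∈ (univ : Finset (Fin r)), |lam i X - lam i Y| ≤ A * (Γ / (δ * M)) := by
      intro i _
      rw [← map_sub]
      exact hA (X - Y) _ (fun v => hXY v) i
    refine (Finset.sum_le_card_nsmul _ _ _ h2).trans ?_
    rw [Finset.card_univ, Fintype.card_fin, nsmul_eq_mul, mul_assoc]
  have hlogδ : Real.log δ ≤ 0 := Real.log_nonpos hδ0.le (by linarith)
  have hlogM : 0 ≤ Real.log M := Real.log_nonneg hM1
  have hlow : ∀ c : ι → ℝ, (∀ v, δ * M ≤ c v) →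
      -(s * ∑ v, (m v : ℝ) * Real.log (c v)) ≤ -(2 * n * Real.log δ) + -(n * Real.log M) := by
    intro c hc
    have h2 : ∑ v, (m v : ℝ) * Real.log (δ * M) ≤ ∑ v, (m v : ℝ) * Real.log (c v) :=
      Finset.sum_le_sum fun v _ => mul_le_mul_of_nonneg_left
        (Real.log_le_log hδM (hc v)) (Nat.cast_nonneg _)
    rw [← Finset.sum_mul, ← Nat.cast_sum, ← hn, Real.log_mul hδ0.ne' hM0.ne'] at h2
    have h3 : s * ((n : ℝ) * (Real.log δ + Real.log M)) ≤
        s * ∑ v, (m v : ℝ) * Real.log (c v) := mul_le_mul_of_nonneg_left h2 (by linarith)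
    have hn0 : (0 : ℝ) ≤ n := Nat.cast_nonneg _
    have h4 : (2 - s) * ((n : ℝ) * Real.log δ) ≤ 0 :=
      mul_nonpos_of_nonneg_of_nonpos (by linarith) (mul_nonpos_of_nonneg_of_nonpos hn0 hlogδ)
    have h5 : 0 ≤ (s - 1) * ((n : ℝ) * Real.log M) :=
      mul_nonneg (by linarith) (mul_nonneg hn0 hlogM)
    nlinarith
  set B : ℝ := -(2 * n * Real.log δ) + -(n * Real.log M) with hB
  have hαβ : |(-(s * ∑ v, (m v : ℝ) * X v)) - (-(s * ∑ v, (m v : ℝ) * Y v))| ≤
      2 * n * (Γ / (δ * M)) := by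
    have h2 : (-(s * ∑ v, (m v : ℝ) * X v)) - (-(s * ∑ v, (m v : ℝ) * Y v)) =
        -(s * ∑ v, (m v : ℝ) * (X v - Y v)) := by
      simp only [mul_sub, Finset.sum_sub_distrib]
      ring
    rw [h2, abs_neg, abs_mul, abs_of_nonneg (by linarith : (0 : ℝ) ≤ s)]
    have h3 : |∑ v, (m v : ℝ) * (X v - Y v)| ≤ ∑ v, (m v : ℝ) * (Γ / (δ * M)) := by
      refine (abs_sum_le_sum_abs _ _).trans (Finset.sum_le_sum fun v _ => ?_)
      rw [abs_mul, abs_of_nonneg (Nat.cast_nonneg (m v) : (0 : ℝ) ≤ m v)]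
      exact mul_le_mul_of_nonneg_left (hXY v) (Nat.cast_nonneg _)
    rw [← Finset.sum_mul, ← Nat.cast_sum, ← hn] at h3
    calc s * |∑ v, (m v : ℝ) * (X v - Y v)| ≤ 2 * (n * (Γ / (δ * M))) :=
          mul_le_mul hs2 h3 (abs_nonneg _) (by norm_num)
      _ = 2 * n * (Γ / (δ * M)) := by ring
  have h6 := abs_exp_sub_exp_le (hlow a fun v => (hcomp v).1) (hlow b fun v => (hcomp v).2)
  have h7 : |Fw lam m s X - Fw lam m s Y| ≤
      (r * A * (Γ / (δ * M)) + 2 * n * (Γ / (δ * M))) * Real.exp B := by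
    unfold Fw
    have h8 : wprod (fun i => lam i X) * Real.exp (-(s * ∑ v, (m v : ℝ) * X v)) -
        wprod (fun i => lam i Y) * Real.exp (-(s * ∑ v, (m v : ℝ) * Y v)) =
        (wprod (fun i => lam i X) - wprod (fun i => lam i Y)) *
          Real.exp (-(s * ∑ v, (m v : ℝ) * X v)) + wprod (fun i => lam i Y) *
          (Real.exp (-(s * ∑ v, (m v : ℝ) * X v)) - Real.exp (-(s * ∑ v, (m v : ℝ) * Y v))) := by
      ring
    rw [h8]
    refine (abs_add_le _ _).trans ?_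
    rw [abs_mul, abs_mul, add_mul]
    refine add_le_add ?_ ?_
    · rw [abs_of_pos (Real.exp_pos _)]
      exact mul_le_mul h1 (Real.exp_le_exp.2 (hlow a fun v => (hcomp v).1))
        (Real.exp_pos _).le (by positivity)
    · have h9 : |wprod (fun i => lam i Y)| ≤ 1 := by
        rw [abs_of_nonneg (wprod_nonneg _)]; exact wprod_le_one _
      have h10 : |Real.exp (-(s * ∑ v, (m v : ℝ) * X v)) -
          Real.exp (-(s * ∑ v, (m v : ℝ) * Y v))| ≤ 2 * n * (Γ / (δ * M)) * Real.exp B :=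
        h6.trans (mul_le_mul_of_nonneg_right hαβ (Real.exp_pos _).le)
      calc _ ≤ 1 * (2 * n * (Γ / (δ * M)) * Real.exp B) :=
            mul_le_mul h9 h10 (abs_nonneg _) zero_le_one
        _ = _ := one_mul _
  refine h7.trans (le_of_eq ?_)
  have h11 : Real.exp (-(n * Real.log M)) = (M ^ n)⁻¹ := by
    rw [Real.exp_neg, mul_comm, Real.exp_mul, Real.exp_log hM0, Real.rpow_natCast]
  rw [hB, Real.exp_add, h11, pow_succ, mul_inv]
  field_simp

end Lipschitz

end Fermat.Agent.ExtVan
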