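import Mathlib

set_option autoImplicit false

/-!
# The Thaine–Kolyvagin relation from the unit `1 + ζ_p ζ_ℓ`
-/

namespace Fermat.Agent.ExtVan

open NumberField Finset Module IsDedekindDomain Polynomial
open scoped nonZeroDivisors

section General

variable {R : Type*} [CommRing R] [IsDedekindDomain R]

lemma exists_mul_eq_mul (v : HeightOneSpectrum R) {x y : R} (hx : x ≠ 0) (hy : y ≠ 0)
    (h : v.intValuation x = v.intValuation y) :
    ∃ b c : R, b ∉ v.asIdeal ∧ c ∉ v.asIdeal ∧ b * x = c * y := by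
  classical
  have hy' : Ideal.span {y} ≠ ⊥ := by rwa [Ne, Ideal.span_singleton_eq_bot]
  have := v.isMaximal
  obtain ⟨Q, hQ1, hQ2⟩ := Ideal.eq_prime_pow_mul_coprime hy' v.asIdeal
  set m := Multiset.count v.asIdeal (UniqueFactorizationMonoid.normalizedFactors (Ideal.span {y}))
  have hQv : ¬ Q ≤ v.asIdeal := by
    intro hle
    rw [sup_eq_left.2 hle] at hQ1
    exact v.isPrime.ne_top hQ1
  obtain ⟨b, hbQ, hbv⟩ := SetLike.not_le_iff_exists.1 hQv
  have hvb : v.intValuation b = 1 := (v.intValuation_eq_one_iff_mem_primeCompl b).2 hbv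
  have hym : y ∈ v.asIdeal ^ m := by
    have h1 : y ∈ Ideal.span {y} := Ideal.mem_span_singleton_self y
    rw [hQ2] at h1
    have h2 : v.asIdeal ^ m * Q ≤ v.asIdeal ^ m := Ideal.mul_le_left
    exact h2 h1
  have hxm : x ∈ v.asIdeal ^ m := by
    rw [← v.intValuation_le_pow_iff_mem, h, v.intValuation_le_pow_iff_mem]
    exact hym
  have hbx : b * x ∈ Ideal.span {y} := by
    rw [hQ2, mul_comm (v.asIdeal ^ m) Q]
    exact Ideal.mul_mem_mul hbQ hxm
  obtain ⟨c, hc⟩ := Ideal.mem_span_singleton'.1 hbx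
  refine ⟨b, c, hbv, ?_, hc.symm⟩
  intro hcv
  have h1 : v.intValuation c < 1 := (v.intValuation_lt_one_iff_mem c).2 hcv
  have h2 : v.intValuation (c * y) = v.intValuation (b * x) := by rw [hc]
  rw [map_mul, map_mul, hvb, one_mul, h] at h2
  have h3 : v.intValuation y ≠ 0 := v.intValuation_ne_zero y hy
  have h4 : v.intValuation c = 1 := mul_right_cancel₀ h3 (by rw [h2, one_mul])
  exact h1.ne h4

/-- multiplicity of a prime in a principal ideal -/
noncomputable def mv (v : HeightOneSpectrum R) (x : R) : ℕ := multiplicity v.asIdeal (Ideal.span {x})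

lemma intValuation_eq_mv (v : HeightOneSpectrum R) {x : R} (hx : x ≠ 0) :
    v.intValuation x = WithZero.exp (-(mv v x : ℤ)) := v.intValuation_eq_exp_neg_multiplicity hx

lemma mv_eq_of_intValuation_eq {v : HeightOneSpectrum R} {x y : R} (hx : x ≠ 0) (hy : y ≠ 0)
    (h : v.intValuation x = v.intValuation y) : mv v x = mv v y := by
  rw [intValuation_eq_mv v hx, intValuation_eq_mv v hy, WithZero.exp_inj] at h
  omega

lemma mv_pow (v : HeightOneSpectrum R) {x : R} (hx : x ≠ 0) (n : ℕ) : mv v (x ^ n) = n * mv v x := by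
  have h1 := intValuation_eq_mv v (pow_ne_zero n hx)
  rw [map_pow, intValuation_eq_mv v hx, ← WithZero.exp_nsmul, WithZero.exp_inj] at h1
  simp only [nsmul_eq_mul] at h1
  have h2 : (n : ℤ) * (mv v x : ℤ) = (mv v (x ^ n) : ℤ) := by linarith
  exact_mod_cast h2.symm

lemma mv_mul (v : HeightOneSpectrum R) {x y : R} (hx : x ≠ 0) (hy : y ≠ 0) :
    mv v (x * y) = mv v x + mv v y := by
  have h1 := intValuation_eq_mv v (mul_ne_zero hx hy)
  rw [map_mul, intValuation_eq_mv v hx, intValuation_eq_mv v hy, ← WithZero.exp_add,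
    WithZero.exp_inj] at h1
  omega

lemma mv_unit (v : HeightOneSpectrum R) (u : Rˣ) : mv v (u : R) = 0 := by
  have h1 : mv v (u : R) + mv v ((u⁻¹ : Rˣ) : R) = mv v (1 : R) := by
    rw [← mv_mul v u.ne_zero (u⁻¹).ne_zero, Units.mul_inv]
  have h2 : mv v (1 : R) = 0 := by
    have := mv_mul v (one_ne_zero (α := R)) (one_ne_zero (α := R))
    rw [one_mul] at this
    omega
  omega

lemma mv_of_associated {v : HeightOneSpectrum R} {x y : R} (hx : x ≠ 0) (h : Associated x y) :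
    mv v x = mv v y := by
  obtain ⟨u, rfl⟩ := h
  rw [mv_mul v hx u.ne_zero, mv_unit, add_zero]

lemma mv_liesOver {S : Type*} [CommRing S] [IsDedekindDomain S] [Algebra R S]
    [Module.IsTorsionFree R S] (v : HeightOneSpectrum R) (w : HeightOneSpectrum S)
    [w.asIdeal.LiesOver v.asIdeal] {x : R} (hx : x ≠ 0) :
    mv w (algebraMap R S x) = v.asIdeal.ramificationIdx' w.asIdeal * mv v x := by
  have h1 := HeightOneSpectrum.intValuation_liesOver v w x
  have hinj : Function.Injective (algebraMap R S) := FaithfulSMul.algebraMap_injective R S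
  have hx' : algebraMap R S x ≠ 0 := (map_ne_zero_iff _ hinj).2 hx
  rw [← map_pow, intValuation_eq_mv v (pow_ne_zero _ hx), mv_pow v hx, intValuation_eq_mv w hx',
    WithZero.exp_inj] at h1
  omega

end General

section Fields

variable {p ℓ : ℕ} [hp : Fact p.Prime] [hℓ : Fact ℓ.Prime] {K M : Type} [Field K] [NumberField K]
  [Field M] [NumberField M] [Algebra K M] [hK : IsCyclotomicExtension {p} ℚ K]
  [hM : IsCyclotomicExtension {ℓ} K M] {ζ : K} (hζ : IsPrimitiveRoot ζ p)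
  {z : M} (hz : IsPrimitiveRoot z ℓ) (hpl : p ≠ ℓ)

include hζ hz hpl in
lemma primitive_mul : IsPrimitiveRoot (algebraMap K M ζ * z) (p * ℓ) := by
  have h1 : IsPrimitiveRoot (algebraMap K M ζ) p :=
    hζ.map_of_injective (algebraMap K M).injective
  have hcop : Nat.Coprime p ℓ := (Nat.coprime_primes hp.out hℓ.out).2 hpl
  rw [h1.eq_orderOf, hz.eq_orderOf] at hcop
  have h2 := (Commute.all (algebraMap K M ζ) z).orderOf_mul_eq_mul_orderOf_of_coprime hcop
  rw [← h1.eq_orderOf, ← hz.eq_orderOf] at h2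
  rw [← h2]
  exact IsPrimitiveRoot.orderOf _

include hζ hz hpl in
lemma cyc_pl : IsCyclotomicExtension {p * ℓ} ℚ M := by
  have h1 : IsCyclotomicExtension ({p} ∪ {ℓ}) ℚ M :=
    IsCyclotomicExtension.trans {p} {ℓ} ℚ K M (algebraMap K M).injective
  have h2 : IsCyclotomicExtension (({p} ∪ {ℓ}) ∪ {p * ℓ}) ℚ M :=
    IsCyclotomicExtension.union_of_isPrimitiveRoot _ ℚ M (primitive_mul hζ hz hpl)
  have h3 : (({p} ∪ {ℓ}) ∪ {p * ℓ} : Set ℕ) = ({p * ℓ} ∪ {p}) ∪ {ℓ} := by
    ext x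
    simp only [Set.mem_union, Set.mem_singleton_iff]
    tauto
  rw [h3] at h2
  have hne : p * ℓ ≠ 0 := mul_ne_zero hp.out.ne_zero hℓ.out.ne_zero
  have h4 : IsCyclotomicExtension ({p * ℓ} ∪ {p}) ℚ M :=
    (IsCyclotomicExtension.iff_union_of_dvd ℚ M (n := ℓ)
      ⟨p * ℓ, by simp, hne, Dvd.intro_left _ rfl⟩).2 h2
  exact (IsCyclotomicExtension.iff_union_of_dvd ℚ M (n := p)
    ⟨p * ℓ, by simp, hne, Dvd.intro _ rfl⟩).2 h4

include hζ hz hpl in
lemma finrank_KM : finrank K M = ℓ - 1 := by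
  have h1 := cyc_pl hζ hz hpl
  have h2 : finrank ℚ M = (p * ℓ).totient := by
    have : NeZero (p * ℓ) := ⟨mul_ne_zero hp.out.ne_zero hℓ.out.ne_zero⟩
    exact IsCyclotomicExtension.Rat.finrank (p * ℓ) M
  have h3 : finrank ℚ K = p.totient := IsCyclotomicExtension.Rat.finrank p K
  have h4 := finrank_mul_finrank ℚ K M
  have hcop : Nat.Coprime p ℓ := (Nat.coprime_primes hp.out hℓ.out).2 hpl
  rw [h2, h3, Nat.totient_mul hcop, Nat.totient_prime hℓ.out] at h4
  have h5 : 0 < p.totient := Nat.totient_pos.2 hp.out.pos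
  exact Nat.eq_of_mul_eq_mul_left h5 h4

include hζ hz hpl in
lemma irreducible_cyc : Irreducible (cyclotomic ℓ K) := by
  have h1 : minpoly K z ∣ cyclotomic ℓ K := by
    refine minpoly.dvd K z ?_
    rw [aeval_def, ← eval_map, map_cyclotomic]
    exact (isRoot_cyclotomic_iff.2 hz)
  have hint : IsIntegral K z := Algebra.IsIntegral.isIntegral z
  have h2 : (minpoly K z).natDegree = ℓ - 1 := by
    rw [← finrank_KM hζ hz hpl]
    have := (hz.powerBasis K).natDegree_minpoly
    rw [IsPrimitiveRoot.powerBasis_gen, ← (hz.powerBasis K).finrank] at this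
    exact this
  have h3 : (cyclotomic ℓ K).natDegree = ℓ - 1 := by
    rw [natDegree_cyclotomic, Nat.totient_prime hℓ.out]
  have h4 : minpoly K z = cyclotomic ℓ K :=
    (eq_of_monic_of_dvd_of_natDegree_le (minpoly.monic hint) (cyclotomic.monic ℓ K) h1
      (by rw [h2, h3])).symm
  rw [← h4]
  exact minpoly.irreducible hint

include hζ hpl in
lemma autToPow_bijective : Function.Bijective (hz.autToPow K : (M ≃ₐ[K] M) →* (ZMod ℓ)ˣ) := by
  have hinj := hz.autToPow_injective K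
  have hfin : Finite (M ≃ₐ[K] M) := inferInstance
  have hgal : IsGalois K M := IsCyclotomicExtension.isGalois {ℓ} K M
  refine (Nat.bijective_iff_injective_and_card _).2 ⟨hinj, ?_⟩
  rw [IsGalois.card_aut_eq_finrank, finrank_KM hζ hz hpl, Nat.card_eq_fintype_card,
    ZMod.card_units_eq_totient, Nat.totient_prime hℓ.out]

include hζ hz hpl in
lemma exists_tau : ∃ (τ : M ≃ₐ[K] M) (s : ℕ), τ z = z ^ s ∧ (∀ g, g ∈ Subgroup.zpowers τ) ∧
    ∃ u : (ZMod ℓ)ˣ, (u : ZMod ℓ) = s ∧ ∀ x : (ZMod ℓ)ˣ, x ∈ Subgroup.zpowers u := by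
  obtain ⟨u, hu⟩ := IsCyclic.exists_generator (α := (ZMod ℓ)ˣ)
  obtain ⟨τ, hτ⟩ := (autToPow_bijective hζ hz hpl).2 u
  refine ⟨τ, (u : ZMod ℓ).val, ?_, ?_, u, by simp, hu⟩
  · rw [← hτ]
    exact (hz.autToPow_spec K τ).symm
  · intro g
    obtain ⟨k, hk⟩ := hu (hz.autToPow K g)
    refine ⟨k, (autToPow_bijective hζ hz hpl).1 ?_⟩
    simp only [map_zpow, hτ]
    exact hk

include hζ hz hpl in
lemma gz_injective : Function.Injective (fun g : M ≃ₐ[K] M => g z) := by
  intro g g' hgg'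
  apply (autToPow_bijective hζ hz hpl).1
  have hgg'' : g z = g' z := hgg'
  rw [← hz.autToPow_spec K g, ← hz.autToPow_spec K g'] at hgg''
  have := hz.pow_inj (ZMod.val_lt _) (ZMod.val_lt _) hgg''
  exact Units.ext (ZMod.val_injective ℓ this)

omit [NumberField K] in
include hζ in
lemma one_add_zeta_ne_zero (hp2 : p ≠ 2) : 1 + ζ ≠ 0 := by
  intro h
  have h2 : ζ = -1 := by linear_combination h
  have h3 : ζ ^ 2 = 1 := by rw [h2]; norm_num
  have h4 := hζ.dvd_of_pow_eq_one 2 h3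
  have h5 := (Nat.dvd_prime Nat.prime_two).1 h4
  rcases h5 with h5 | h5
  · exact hp.out.ne_one h5
  · exact hp2 h5

include hζ hz hpl in
lemma norm_unit_eq_one (hp2 : p ≠ 2) (hodd : ℓ ≠ 2) (h1 : ζ ^ ℓ = ζ) :
    Algebra.norm K (1 + algebraMap K M ζ * z) = 1 := by
  classical
  have hgal : IsGalois K M := IsCyclotomicExtension.isGalois {ℓ} K M
  have hζ1 : (1 : M) + algebraMap K M ζ ≠ 0 := by
    rw [← map_one (algebraMap K M), ← map_add]
    exact (_root_.map_ne_zero _).2 (one_add_zeta_ne_zero hζ hp2)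
  apply (algebraMap K M).injective
  rw [Algebra.norm_eq_prod_automorphisms, map_one]
  have h2 := hz.pow_add_pow_eq_prod_add_mul (1 : M) (algebraMap K M ζ)
    (hℓ.out.odd_of_ne_two hodd)
  have hnot : (1 : M) ∉ (univ.image fun g : M ≃ₐ[K] M => g z) := by
    rw [Finset.mem_image]
    rintro ⟨g, -, hg⟩
    have : z = 1 := g.injective (by rw [hg, map_one])
    exact hz.ne_one hℓ.out.one_lt this
  have h3 : nthRootsFinset ℓ (1 : M) = insert 1 (univ.image fun g : M ≃ₐ[K] M => g z) := by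
    symm
    apply Finset.eq_of_subset_of_card_le
    · intro x hx
      rw [mem_nthRootsFinset hℓ.out.pos]
      rw [Finset.mem_insert, Finset.mem_image] at hx
      rcases hx with rfl | ⟨g, -, rfl⟩
      · exact one_pow _
      · rw [← map_pow, hz.pow_eq_one, map_one]
    · rw [hz.card_nthRootsFinset, Finset.card_insert_of_notMem hnot,
        Finset.card_image_of_injective _ (gz_injective hζ hz hpl),
        Finset.card_univ, ← Nat.card_eq_fintype_card, IsGalois.card_aut_eq_finrank,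
        finrank_KM hζ hz hpl]
      have := hℓ.out.pos
      omega
  rw [h3, Finset.prod_insert hnot,
    Finset.prod_image (fun a _ b _ h => gz_injective hζ hz hpl h)] at h2
  have h4 : ∏ g : M ≃ₐ[K] M, g (1 + algebraMap K M ζ * z) =
      ∏ g : M ≃ₐ[K] M, (1 + g z * algebraMap K M ζ) := by
    refine Finset.prod_congr rfl fun g _ => ?_
    rw [map_add, map_one, map_mul, g.commutes, mul_comm]
  rw [h4]
  rw [one_pow, ← map_pow, h1, one_mul] at h2
  exact (mul_left_cancel₀ hζ1 (by rw [mul_one]; exact h2)).symm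

/-- the action on integers -/
noncomputable def TT (g : M ≃ₐ[K] M) : 𝓞 M ≃ₐ[𝓞 K] 𝓞 M := galRestrict (𝓞 K) K M (𝓞 M) g

lemma coe_TT (g : M ≃ₐ[K] M) (x : 𝓞 M) :
    algebraMap (𝓞 M) M (TT g x) = g (algebraMap (𝓞 M) M x) :=
  algebraMap_galRestrict_apply (𝓞 K) g x

lemma TT_mul (g g' : M ≃ₐ[K] M) (x : 𝓞 M) : TT (g * g') x = TT g (TT g' x) := by
  apply RingOfIntegers.coe_injective
  rw [coe_TT, coe_TT, coe_TT, AlgEquiv.mul_apply]

lemma TT_one (x : 𝓞 M) : TT (1 : M ≃ₐ[K] M) x = x := by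
  apply RingOfIntegers.coe_injective
  rw [coe_TT, AlgEquiv.one_apply]

/-- `1 + ζ z` as an integer of `M` -/
noncomputable def xiM : 𝓞 M := 1 + algebraMap (𝓞 K) (𝓞 M) hζ.toInteger * hz.toInteger

omit [NumberField K] [NumberField M] hK hM in
lemma coe_xiM : ((xiM hζ hz : 𝓞 M) : M) = 1 + algebraMap K M ζ * z := by
  unfold xiM
  push_cast
  rfl

include hpl in
lemma isUnit_xiM (hp2 : p ≠ 2) (hodd : ℓ ≠ 2) (h1 : ζ ^ ℓ = ζ) : IsUnit (xiM hζ hz) := by
  have hgal : IsGalois K M := IsCyclotomicExtension.isGalois {ℓ} K M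
  rw [← RingOfIntegers.isUnit_norm_of_isGalois (K := K)]
  have h2 : RingOfIntegers.norm K (xiM hζ hz) = 1 := by
    apply RingOfIntegers.coe_injective
    have h3 : ((RingOfIntegers.norm K (xiM hζ hz) : 𝓞 K) : K) =
        Algebra.norm K ((xiM hζ hz : 𝓞 M) : M) := rfl
    refine h3.trans ?_
    rw [coe_xiM, norm_unit_eq_one hζ hz hpl hp2 hodd h1]
    simp
  rw [h2]
  exact isUnit_one

lemma associated_TT {g : M ≃ₐ[K] M} {x y : 𝓞 M} (h : Associated x y) :
    Associated (TT g x) (TT g y) := by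
  obtain ⟨u, rfl⟩ := h
  exact ⟨Units.map (TT g : 𝓞 M ≃ₐ[𝓞 K] 𝓞 M).toRingEquiv.toMonoidHom u, by
    rw [map_mul]; rfl⟩

lemma associated_zpowers {τ : M ≃ₐ[K] M} {ε : 𝓞 M} (h : Associated (TT τ ε) ε)
    {g : M ≃ₐ[K] M} (hg : g ∈ Subgroup.zpowers τ) : Associated (TT g ε) ε := by
  have hfin : IsOfFinOrder τ := isOfFinOrder_of_finite τ
  rw [← hfin.mem_powers_iff_mem_zpowers] at hg
  obtain ⟨n, rfl⟩ := hg
  induction n with
  | zero =>
    simp only [pow_zero]
    rw [TT_one]
  | succ n ih =>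
    simp only
    rw [pow_succ', TT_mul]
    exact (associated_TT ih).trans h

lemma liesOver_int {F : Type} [Field F] [NumberField F] (v : HeightOneSpectrum (𝓞 F)) {q : ℕ}
    (hq : q.Prime) (hqv : (q : 𝓞 F) ∈ v.asIdeal) :
    v.asIdeal.LiesOver (Ideal.span {(q : ℤ)}) := by
  have := v.isPrime
  rw [Ideal.liesOver_iff]
  have hmax : (Ideal.span {(q : ℤ)}).IsMaximal := by
    have : Fact q.Prime := ⟨hq⟩
    exact Int.ideal_span_isMaximal_of_prime q
  refine hmax.eq_of_le Ideal.IsPrime.ne_top' ?_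
  rw [Ideal.span_singleton_le_iff_mem, Ideal.mem_comap]
  simpa using hqv

lemma exists_prime_mem {F : Type} [Field F] [NumberField F] (v : HeightOneSpectrum (𝓞 F)) :
    ∃ q : ℕ, q.Prime ∧ (q : 𝓞 F) ∈ v.asIdeal := by
  have := v.isPrime
  have hn : Ideal.absNorm v.asIdeal ≠ 0 := fun h => v.ne_bot (Ideal.absNorm_eq_zero_iff.1 h)
  have h1 : ((Ideal.absNorm v.asIdeal : ℕ) : 𝓞 F) ∈ v.asIdeal := Ideal.absNorm_mem _
  have h2 : ((Ideal.absNorm v.asIdeal).primeFactorsList.map (fun n : ℕ => (n : 𝓞 F))).prod ∈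
      v.asIdeal := by
    have h3 := Nat.prod_primeFactorsList hn
    rw [← h3, Nat.cast_list_prod] at h1
    exact h1
  have h3 := (Ideal.IsPrime.multiset_prod_mem_iff_exists_mem (inferInstance : v.asIdeal.IsPrime)
    ((Ideal.absNorm v.asIdeal).primeFactorsList.map (fun n : ℕ => (n : 𝓞 F)) : Multiset (𝓞 F))).1
    (by simpa using h2)
  obtain ⟨x, hx, hxv⟩ := h3
  rw [Multiset.mem_coe, List.mem_map] at hx
  obtain ⟨q, hq, rfl⟩ := hx
  exact ⟨q, Nat.prime_of_mem_primeFactorsList hq, hxv⟩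

include hζ hz hpl in
theorem thaine_kappa (hp2 : p ≠ 2) (hodd : ℓ ≠ 2) (h1 : ζ ^ ℓ = ζ) :
    ∃ (κ : 𝓞 K) (s : ℕ) (u : (ZMod ℓ)ˣ), κ ≠ 0 ∧ (u : ZMod ℓ) = s ∧
      (∀ x, x ∈ Subgroup.zpowers u) ∧
      (∀ v : HeightOneSpectrum (𝓞 K), (p : 𝓞 K) ∉ v.asIdeal → (ℓ : 𝓞 K) ∉ v.asIdeal →
        (ℓ - 1) ∣ mv v κ) ∧
      (∀ v : HeightOneSpectrum (𝓞 K), (ℓ : 𝓞 K) ∈ v.asIdeal →
        (1 + hζ.toInteger) * (s : 𝓞 K) ^ (mv v κ) - 1 ∈ v.asIdeal) := by
  classical
  have hgal : IsGalois K M := IsCyclotomicExtension.isGalois {ℓ} K M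
  have hcyc := cyc_pl hζ hz hpl
  obtain ⟨τ, s, hτ, hgen, u, hus, hu⟩ := exists_tau hζ hz hpl
  have hcycl : IsCyclic (M ≃ₐ[K] M) := ⟨⟨τ, hgen⟩⟩
  have hnorm : Algebra.norm K (algebraMap (𝓞 M) M (xiM hζ hz)) = 1 := by
    have h2 : algebraMap (𝓞 M) M (xiM hζ hz) = 1 + algebraMap K M ζ * z := coe_xiM hζ hz
    rw [h2]
    exact norm_unit_eq_one hζ hz hpl hp2 hodd h1
  obtain ⟨ε, hε0, hε⟩ := groupCohomology.exists_mul_galRestrict_of_norm_eq_one (A := 𝓞 K)
    (K := K) (L := M) (B := 𝓞 M) hgen hnorm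
  have hε' : xiM hζ hz * TT τ ε = ε := hε
  have hxiu := isUnit_xiM hζ hz hpl hp2 hodd h1
  have hass : Associated (TT τ ε) ε := by
    refine ⟨hxiu.unit, ?_⟩
    rw [IsUnit.unit_spec, mul_comm]
    exact hε'
  -- the norm
  set κ : 𝓞 K := RingOfIntegers.norm K ε with hκ
  have hκprod : algebraMap (𝓞 K) (𝓞 M) κ = ∏ g : M ≃ₐ[K] M, TT g ε := by
    apply RingOfIntegers.coe_injective
    rw [map_prod]
    show ((algebraMap (𝓞 K) (𝓞 M) (RingOfIntegers.norm K ε) : 𝓞 M) : M) = _
    rw [RingOfIntegers.coe_algebraMap_norm, Algebra.norm_eq_prod_automorphisms]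
    exact Finset.prod_congr rfl fun g _ => (coe_TT g ε).symm
  have hκass : Associated (algebraMap (𝓞 K) (𝓞 M) κ) (ε ^ (ℓ - 1)) := by
    rw [hκprod]
    have h2 : Associated (∏ g : M ≃ₐ[K] M, TT g ε) (∏ _g : M ≃ₐ[K] M, ε) :=
      Associated.prod _ _ _ fun g _ => associated_zpowers hass (hgen g)
    rw [Finset.prod_const, Finset.card_univ, ← Nat.card_eq_fintype_card,
      IsGalois.card_aut_eq_finrank, finrank_KM hζ hz hpl] at h2
    exact h2
  have hκ0 : κ ≠ 0 := by
    intro h0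
    rw [h0, map_zero] at hκass
    have := hκass.eq_zero_iff.1 rfl
    exact pow_ne_zero _ hε0 this
  have hκM0 : algebraMap (𝓞 K) (𝓞 M) κ ≠ 0 := by
    intro h0
    exact hκ0 ((FaithfulSMul.algebraMap_injective (𝓞 K) (𝓞 M)) (by rw [h0, map_zero]))
  have hℓ1 : 0 < ℓ - 1 := by have := hℓ.out.two_le; omega
  -- places above
  have habove : ∀ v : HeightOneSpectrum (𝓞 K), ∃ w : HeightOneSpectrum (𝓞 M),
      w.asIdeal.LiesOver v.asIdeal := by
    intro v
    have := v.isMaximal
    obtain ⟨P, hP, hPv⟩ := Ideal.exists_maximal_ideal_liesOver_of_isIntegral (S := 𝓞 M) v.asIdeal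
    have hP0 : P ≠ ⊥ := Ideal.ne_bot_of_liesOver_of_ne_bot v.ne_bot P
    exact ⟨⟨P, hP.isPrime, hP0⟩, hPv⟩
  have hmvw : ∀ (v : HeightOneSpectrum (𝓞 K)) (w : HeightOneSpectrum (𝓞 M))
      [w.asIdeal.LiesOver v.asIdeal], v.asIdeal.ramificationIdx' w.asIdeal * mv v κ =
      (ℓ - 1) * mv w ε := by
    intro v w _
    rw [← mv_liesOver v w hκ0, mv_of_associated hκM0 hκass, mv_pow w hε0]
  refine ⟨κ, s, u, hκ0, hus, hu, ?_, ?_⟩
  · intro v hpv hℓv
    obtain ⟨w, hw⟩ := habove v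
    have he : v.asIdeal.ramificationIdx' w.asIdeal = 1 := by
      have hwp := w.isPrime
      have hvp := v.isPrime
      obtain ⟨q, hq, hqv⟩ := exists_prime_mem v
      have hqf : Fact q.Prime := ⟨hq⟩
      have hqw : (q : 𝓞 M) ∈ w.asIdeal := by
        have h2 : algebraMap (𝓞 K) (𝓞 M) (q : 𝓞 K) ∈ w.asIdeal := by
          rw [← Ideal.mem_comap, ← Ideal.under_def, ← Ideal.over_def w.asIdeal v.asIdeal]
          exact hqv
        simpa using h2
      have := liesOver_int v hq hqv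
      have := liesOver_int w hq hqw
      have hnd : ¬ q ∣ p * ℓ := by
        intro hd
        rcases (Nat.Prime.dvd_mul hq).1 hd with hd | hd
        · rw [(Nat.prime_dvd_prime_iff_eq hq hp.out).1 hd] at hqv
          exact hpv hqv
        · rw [(Nat.prime_dvd_prime_iff_eq hq hℓ.out).1 hd] at hqv
          exact hℓv hqv
      have : NeZero (p * ℓ) := ⟨mul_ne_zero hp.out.ne_zero hℓ.out.ne_zero⟩
      have h3 := IsCyclotomicExtension.Rat.ramificationIdx_eq_of_not_dvd q M w.asIdeal hnd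
      have h4 := Ideal.ramificationIdx_tower (R := ℤ) v.asIdeal w.asIdeal
      rw [h3] at h4
      rw [Ideal.ramificationIdx'_eq_ramificationIdx v.asIdeal w.asIdeal v.ne_bot]
      exact Nat.eq_one_of_mul_eq_one_left h4.symm
    have h2 := hmvw v w
    rw [he, one_mul] at h2
    exact ⟨_, h2⟩
  · intro v hℓv
    obtain ⟨w, hw⟩ := habove v
    have hwp := w.isPrime
    have hvp := v.isPrime
    have hℓw : (ℓ : 𝓞 M) ∈ w.asIdeal := by
      have h2 : algebraMap (𝓞 K) (𝓞 M) (ℓ : 𝓞 K) ∈ w.asIdeal := by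
        rw [← Ideal.mem_comap, ← Ideal.under_def, ← Ideal.over_def w.asIdeal v.asIdeal]
        exact hℓv
      simpa using h2
    have hov := liesOver_int v hℓ.out hℓv
    have how := liesOver_int w hℓ.out hℓw
    have hewℓ : w.asIdeal.ramificationIdx ℤ = ℓ - 1 := by
      have hnd : ¬ ℓ ∣ p := fun hd => hpl ((Nat.prime_dvd_prime_iff_eq hℓ.out hp.out).1 hd).symm
      have h3 := IsCyclotomicExtension.Rat.ramificationIdx_eq (p := ℓ) (k := 0) (m := p) (p * ℓ) M
        w.asIdeal (by rw [zero_add, pow_one, mul_comm]) hnd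
      rw [h3, pow_zero, one_mul]
    have he : v.asIdeal.ramificationIdx' w.asIdeal = ℓ - 1 := by
      have hnd : ¬ ℓ ∣ p := fun hd => hpl ((Nat.prime_dvd_prime_iff_eq hℓ.out hp.out).1 hd).symm
      have h3 := IsCyclotomicExtension.Rat.ramificationIdx_eq_of_not_dvd ℓ K v.asIdeal hnd
      have h4 := Ideal.ramificationIdx_tower (R := ℤ) v.asIdeal w.asIdeal
      rw [h3, hewℓ, one_mul] at h4
      rw [Ideal.ramificationIdx'_eq_ramificationIdx v.asIdeal w.asIdeal v.ne_bot, ← h4]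
    have h2 := hmvw v w
    rw [he] at h2
    have h3 : mv v κ = mv w ε := Nat.eq_of_mul_eq_mul_left hℓ1 h2
    set n := mv v κ with hn
    -- the uniformizer
    set π : 𝓞 M := 1 - hz.toInteger with hπ
    have hzi := hz.toInteger_isPrimitiveRoot
    have hπ0 : π ≠ 0 := by
      intro h0
      exact hzi.ne_one hℓ.out.one_lt (sub_eq_zero.1 h0).symm
    have hℓM0 : (ℓ : 𝓞 M) ≠ 0 := by exact_mod_cast hℓ.out.ne_zero
    have hπ1 : mv w π = 1 := by
      have h4 : Associated (ℓ : 𝓞 M) (π ^ (ℓ - 1)) := by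
        have hℓs : ℓ - 1 + 1 = ℓ := Nat.sub_add_cancel hℓ.out.one_le
        have h5 : IsPrimitiveRoot hz.toInteger (ℓ - 1 + 1) := by rw [hℓs]; exact hzi
        have h6 := h5.prod_one_sub_pow_eq_order
        have h7 : ((ℓ - 1 : ℕ) : 𝓞 M) + 1 = (ℓ : 𝓞 M) := by
          rw [← Nat.cast_succ, Nat.succ_eq_add_one, hℓs]
        rw [h7] at h6
        rw [← h6]
        have h8 : Associated (∏ k ∈ range (ℓ - 1), (1 - hz.toInteger ^ (k + 1)))
            (∏ _k ∈ range (ℓ - 1), π) := by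
          refine Associated.prod _ _ _ fun k hk => ?_
          have hk' := Finset.mem_range.1 hk
          have hcop : (k + 1).Coprime ℓ := by
            refine Nat.Coprime.symm ((Nat.Prime.coprime_iff_not_dvd hℓ.out).2 fun hd => ?_)
            have := Nat.le_of_dvd (Nat.succ_pos k) hd
            omega
          have h9 := hzi.associated_sub_one_pow_sub_one_of_coprime hcop
          have h10 : Associated (1 - hz.toInteger ^ (k + 1)) (hz.toInteger ^ (k + 1) - 1) := by
            rw [← neg_sub]; exact (Associated.refl _).neg_left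
          have h11 : Associated (hz.toInteger - 1) π := by
            rw [hπ, ← neg_sub]; exact (Associated.refl _).neg_left
          exact h10.trans (h9.symm.trans h11)
        rwa [Finset.prod_const, Finset.card_range] at h8
      have h5 : mv w (ℓ : 𝓞 M) = ℓ - 1 := by
        have h6 := Ideal.IsDedekindDomain.ramificationIdx_eq_multiplicity (R := ℤ)
          (Ideal.span {(ℓ : ℤ)}) w.asIdeal (by
            rw [Ideal.map_span, Set.image_singleton]
            simpa using hℓ.out.ne_zero)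
        rw [hewℓ, Ideal.map_span, Set.image_singleton] at h6
        unfold mv
        rw [h6]
        simp
      have h6 := mv_of_associated (v := w) hℓM0 h4
      rw [mv_pow w hπ0, h5] at h6
      exact (Nat.eq_of_mul_eq_mul_left hℓ1 (by rw [mul_one]; exact h6)).symm
    have h4 : w.intValuation ε = w.intValuation (π ^ n) := by
      rw [intValuation_eq_mv w hε0, intValuation_eq_mv w (pow_ne_zero _ hπ0), mv_pow w hπ0, hπ1,
        ← h3, mul_one]
    obtain ⟨b, c, hb, hc, hbc⟩ := exists_mul_eq_mul w hε0 (pow_ne_zero n hπ0) h4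
    -- `τ` acts trivially modulo `w`
    have hπw : π ∈ w.asIdeal := by
      rw [← w.intValuation_lt_one_iff_mem, intValuation_eq_mv w hπ0, hπ1]
      decide
    set φ := Ideal.Quotient.mk w.asIdeal with hφ
    have hφz : φ hz.toInteger = 1 := by
      have h5 : φ π = 0 := Ideal.Quotient.eq_zero_iff_mem.2 hπw
      rw [hπ, map_sub, map_one] at h5
      exact (sub_eq_zero.1 h5).symm
    have hTz : TT τ hz.toInteger = hz.toInteger ^ s := by
      apply RingOfIntegers.coe_injective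
      rw [coe_TT]
      push_cast
      exact hτ
    have htriv : ∀ x : 𝓞 M, φ (TT τ x) = φ x := by
      have hμ := primitive_mul hζ hz hpl
      have : NeZero (p * ℓ) := ⟨mul_ne_zero hp.out.ne_zero hℓ.out.ne_zero⟩
      have htop := IsCyclotomicExtension.Rat.adjoin_singleton_eq_top hμ
      have hμe : hμ.toInteger = algebraMap (𝓞 K) (𝓞 M) hζ.toInteger * hz.toInteger := by
        apply RingOfIntegers.coe_injective
        push_cast
        rfl
      intro x
      have hx : x ∈ (Algebra.adjoin ℤ {hμ.toInteger} : Subalgebra ℤ (𝓞 M)) := by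
        rw [htop]; trivial
      induction hx using Algebra.adjoin_induction with
      | mem x hx =>
        rw [Set.mem_singleton_iff] at hx
        rw [hx, hμe, map_mul, map_mul, map_mul, AlgEquiv.commutes, hTz, map_pow, hφz, one_pow]
      | algebraMap r => simp
      | add x y _ _ hx hy => rw [map_add, map_add, map_add, hx, hy]
      | mul x y _ _ hx hy => rw [map_mul, map_mul, map_mul, hx, hy]
    -- the residue relation
    set g : 𝓞 M := ∑ i ∈ range s, hz.toInteger ^ i with hg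
    have hTπ : TT τ π = π * g := by
      rw [hπ, map_sub, map_one, hTz, hg, mul_neg_geom_sum]
    have h5 : TT τ b * c = b * (xiM hζ hz) * (TT τ c) * g ^ n := by
      apply mul_right_cancel₀ (pow_ne_zero n hπ0)
      have h6 : TT τ b * TT τ ε = TT τ c * (π * g) ^ n := by
        rw [← map_mul, hbc, map_mul, map_pow, hTπ]
      calc TT τ b * c * π ^ n = TT τ b * (b * ε) := by rw [hbc]; ring
        _ = TT τ b * (b * (xiM hζ hz * TT τ ε)) := by rw [hε']
        _ = b * (xiM hζ hz) * (TT τ b * TT τ ε) := by ring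
        _ = _ := by rw [h6, mul_pow]; ring
    have h6 := congrArg φ h5
    rw [map_mul, map_mul, map_mul, map_mul, htriv, htriv, map_pow] at h6
    have hgs : φ g = (s : 𝓞 M ⧸ w.asIdeal) := by
      rw [hg, map_sum]
      simp only [map_pow, hφz, one_pow, Finset.sum_const, Finset.card_range, nsmul_eq_mul, mul_one]
    rw [hgs] at h6
    have hb0 : φ b ≠ 0 := fun h0 => hb (Ideal.Quotient.eq_zero_iff_mem.1 h0)
    have hc0 : φ c ≠ 0 := fun h0 => hc (Ideal.Quotient.eq_zero_iff_mem.1 h0)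
    have hdom : IsDomain (𝓞 M ⧸ w.asIdeal) := Ideal.Quotient.isDomain _
    have h7 : φ (xiM hζ hz) * (s : 𝓞 M ⧸ w.asIdeal) ^ n = 1 := by
      apply mul_left_cancel₀ (mul_ne_zero hb0 hc0)
      rw [mul_one]
      linear_combination (-1 : 𝓞 M ⧸ w.asIdeal) * h6
    have h8 : φ (xiM hζ hz) = φ (algebraMap (𝓞 K) (𝓞 M) (1 + hζ.toInteger)) := by
      unfold xiM
      rw [map_add, map_mul, hφz, mul_one, map_add, map_add, map_one, map_one, map_one]
    rw [h8] at h7
    have h9 : algebraMap (𝓞 K) (𝓞 M) ((1 + hζ.toInteger) * (s : 𝓞 K) ^ n - 1) ∈ w.asIdeal := by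
      rw [← Ideal.Quotient.eq_zero_iff_mem, map_sub, map_mul, map_pow, map_natCast, map_one]
      show φ _ = 0
      rw [map_sub, map_mul, map_pow, map_natCast, map_one, h7, sub_self]
    rw [Ideal.over_def w.asIdeal v.asIdeal, Ideal.under_def, Ideal.mem_comap]
    exact h9

end Fields

end Fermat.Agent.ExtVan
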