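import Fermat.Agent.ExtVan.Thaine
import Fermat.Agent.ExtVan.Removal
import Fermat.Agent.Kummer.PrincipalPrimes
import Fermat.Prelude.Def_ClassGroup_GaloisAction

set_option autoImplicit false

/-!
# Conclusion of the Thaine argument
-/

namespace Fermat.Agent.ExtVan

open NumberField Finset Module IsDedekindDomain Polynomial
open scoped nonZeroDivisors

section General

variable {K : Type*} [Field K] [NumberField K]

lemma maxPowDividing_eq (v : HeightOneSpectrum (𝓞 K)) {x : 𝓞 K} (hx : x ≠ 0) :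
    v.maxPowDividing (Ideal.span {x}) = v.asIdeal ^ (mv v x) := by
  have h1 := v.intValuation_if_neg hx
  rw [intValuation_eq_mv v hx, WithZero.exp_inj] at h1
  have h2 : mv v x = (Associates.mk v.asIdeal).count (Associates.mk (Ideal.span {x})).factors := by
    omega
  rw [h2]
  rfl

lemma prod_chi {G : Type*} [CommMonoid G] (χ : ClassGroup (𝓞 K) →* G) {x : 𝓞 K} (hx : x ≠ 0) :
    ∃ T : Finset (HeightOneSpectrum (𝓞 K)), (∀ v, v ∉ T → mv v x = 0) ∧
      ∏ v ∈ T, χ (ClassGroup.mk0 (pI v)) ^ (mv v x) = 1 := by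
  classical
  have hx' : Ideal.span {x} ≠ 0 := by
    rwa [Ne, Ideal.zero_eq_bot, Ideal.span_singleton_eq_bot]
  have hfin : (Function.mulSupport fun v : HeightOneSpectrum (𝓞 K) =>
      v.maxPowDividing (Ideal.span {x})).Finite := Ideal.hasFiniteMulSupport hx'
  refine ⟨Set.Finite.toFinset hfin, ?_, ?_⟩
  · intro v hv
    rw [Set.Finite.mem_toFinset, Function.notMem_mulSupport, maxPowDividing_eq v hx] at hv
    by_contra h0
    have h1 : v.asIdeal ^ (mv v x) ≤ v.asIdeal := Ideal.pow_le_self h0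
    rw [hv, Ideal.one_eq_top, top_le_iff] at h1
    exact v.isPrime.ne_top h1
  · have h1 := Ideal.finprod_heightOneSpectrum_factorization hx'
    rw [finprod_eq_prod_of_mulSupport_subset _ (s := Set.Finite.toFinset hfin)
      (by rw [Set.Finite.coe_toFinset])] at h1
    have h2 : (⟨Ideal.span {x}, mem_nonZeroDivisors_of_ne_zero hx'⟩ : (Ideal (𝓞 K))⁰) =
        ∏ v ∈ Set.Finite.toFinset hfin, (pI v) ^ (mv v x) := by
      apply Subtype.ext
      rw [Submonoid.coe_finsetProd]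
      show Ideal.span {x} = _
      conv_lhs => rw [← h1]
      refine Finset.prod_congr rfl fun v _ => ?_
      rw [maxPowDividing_eq v hx]
      rfl
    have h3 : ClassGroup.mk0 (⟨Ideal.span {x}, mem_nonZeroDivisors_of_ne_zero hx'⟩ :
        (Ideal (𝓞 K))⁰) = 1 := by
      rw [ClassGroup.mk0_eq_one_iff]
      exact ⟨⟨x, rfl⟩⟩
    rw [h2, map_prod] at h3
    have h4 := congrArg χ h3
    rw [map_prod, map_one] at h4
    rw [← h4]
    refine Finset.prod_congr rfl fun v _ => ?_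
    rw [map_pow, map_pow]

/-- the kernel of a hom to `ZMod ℓ` -/
noncomputable def kerV {ℓ : ℕ} [hℓ : Fact ℓ.Prime] (R : 𝓞 K →+* ZMod ℓ) :
    HeightOneSpectrum (𝓞 K) where
  asIdeal := RingHom.ker R
  isPrime := RingHom.ker_isPrime R
  ne_bot := by
    intro h
    have h1 : (ℓ : 𝓞 K) ∈ RingHom.ker R := by
      rw [RingHom.mem_ker, map_natCast, ZMod.natCast_self]
    rw [h, Ideal.mem_bot] at h1
    exact hℓ.out.ne_zero (by exact_mod_cast h1)

lemma mem_kerV {ℓ : ℕ} [hℓ : Fact ℓ.Prime] {R : 𝓞 K →+* ZMod ℓ} {x : 𝓞 K} :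
    x ∈ (kerV R).asIdeal ↔ R x = 0 := Iff.rfl

end General

section Cyc

open JacobiSumStickelberger

variable {p : ℕ} [hp : Fact p.Prime] {K : Type} [Field K] [NumberField K]
  [hK : IsCyclotomicExtension {p} ℚ K] {ζ : K} (hζ : IsPrimitiveRoot ζ p)

/-- the Galois action on integers -/
noncomputable abbrev sg (K : Type*) [Field K] [NumberField K] {p : ℕ} [hp : Fact p.Prime]
    [hK : IsCyclotomicExtension {p} ℚ K] (a : (ZMod p)ˣ) : 𝓞 K ≃+* 𝓞 K :=
  haveI : NeZero p := ⟨hp.out.ne_zero⟩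
  clRingAction p K a

lemma sg_zeta (a : (ZMod p)ˣ) : sg K a hζ.toInteger = hζ.toInteger ^ (a : ZMod p).val := by
  have : NeZero p := ⟨hp.out.ne_zero⟩
  apply RingOfIntegers.coe_injective
  have h1 : algebraMap (𝓞 K) K (sg K a hζ.toInteger) =
      ((cycloGalEquiv p K).symm a) (algebraMap (𝓞 K) K hζ.toInteger) :=
    algebraMap_galRestrict_apply ℤ ((cycloGalEquiv p K).symm a) hζ.toInteger
  rw [h1]
  push_cast
  have h2 := IsCyclotomicExtension.Rat.galEquivZMod_apply_of_pow_eq p K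
    ((cycloGalEquiv p K).symm a) (x := ζ) hζ.pow_eq_one
  have h3 : IsCyclotomicExtension.Rat.galEquivZMod p K ((cycloGalEquiv p K).symm a) = a :=
    (cycloGalEquiv p K).apply_symm_apply a
  rw [h3] at h2
  exact h2

lemma sg_mul (a b : (ZMod p)ˣ) (x : 𝓞 K) : sg K (a * b) x = sg K a (sg K b x) := by
  have : NeZero p := ⟨hp.out.ne_zero⟩
  exact DFunLike.congr_fun (map_mul (clRingAction p K) a b) x

lemma sg_one (x : 𝓞 K) : sg K (1 : (ZMod p)ˣ) x = x := by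
  have : NeZero p := ⟨hp.out.ne_zero⟩
  exact DFunLike.congr_fun (map_one (clRingAction p K)) x

/-- two homs agreeing at `ζ` agree -/
lemma hom_ext_zeta {A : Type*} [Ring A] {f g : 𝓞 K →+* A}
    (h : f hζ.toInteger = g hζ.toInteger) : f = g := by
  ext x
  have hx : x ∈ Algebra.adjoin ℤ {hζ.toInteger} := by rw [Kummer.adjoin_zeta hζ]; trivial
  induction hx using Algebra.adjoin_induction with
  | mem x hx => rw [Set.mem_singleton_iff.1 hx, h]
  | algebraMap k => simp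
  | add x y _ _ hx hy => rw [map_add, map_add, hx, hy]
  | mul x y _ _ hx hy => rw [map_mul, map_mul, hx, hy]

/-- the class action -/
noncomputable abbrev cg (K : Type*) [Field K] [NumberField K] {p : ℕ} [hp : Fact p.Prime]
    [hK : IsCyclotomicExtension {p} ℚ K] (a : (ZMod p)ˣ) : ClassGroup (𝓞 K) ≃* ClassGroup (𝓞 K) :=
  ClassGroup.mulEquiv (sg K a)

variable {ℓ : ℕ} [hℓ : Fact ℓ.Prime] (R : 𝓞 K →+* ZMod ℓ)

lemma mk0_kerV_comp (a : (ZMod p)ˣ) :
    ClassGroup.mk0 (pI (kerV (R.comp (sg K a : 𝓞 K →+* 𝓞 K)))) =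
      cg K a⁻¹ (ClassGroup.mk0 (pI (kerV R))) := by
  rw [ClassGroup.mulEquiv_mk0]
  congr 1
  apply Subtype.ext
  rw [Ideal.coe_mapNonZero]
  show RingHom.ker (R.comp (sg K a : 𝓞 K →+* 𝓞 K)) =
    Ideal.map (sg K a⁻¹ : 𝓞 K →+* 𝓞 K) (RingHom.ker R)
  ext x
  constructor
  · intro hx
    have h1 : sg K a x ∈ RingHom.ker R := hx
    have h2 := Ideal.mem_map_of_mem (sg K a⁻¹ : 𝓞 K →+* 𝓞 K) h1
    have h3 : (sg K a⁻¹ : 𝓞 K →+* 𝓞 K) (sg K a x) = x := by
      show sg K a⁻¹ (sg K a x) = x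
      rw [← sg_mul, inv_mul_cancel, sg_one]
    rwa [h3] at h2
  · intro hx
    have h1 : Ideal.map (sg K a⁻¹ : 𝓞 K →+* 𝓞 K) (RingHom.ker R) ≤
        RingHom.ker (R.comp (sg K a : 𝓞 K →+* 𝓞 K)) := by
      rw [Ideal.map_le_iff_le_comap]
      intro y hy
      rw [Ideal.mem_comap, RingHom.mem_ker, RingHom.comp_apply]
      show R (sg K a (sg K a⁻¹ y)) = 0
      rw [← sg_mul, mul_inv_cancel, sg_one]
      exact hy
    exact h1 hx

section

variable (hpl : p ≠ ℓ)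

include hζ hpl in
lemma R_zeta_primitive : IsPrimitiveRoot (R hζ.toInteger) p := by
  have h1 : R hζ.toInteger ^ p = 1 := by
    rw [← map_pow, hζ.toInteger_isPrimitiveRoot.pow_eq_one, map_one]
  refine IsPrimitiveRoot.iff_orderOf.2 (orderOf_eq_prime h1 ?_)
  intro h2
  have h3 := congrArg R (Kummer.sum_zeta hζ)
  rw [map_sum] at h3
  simp only [map_pow, h2, one_pow, sum_const, card_range, map_zero, nsmul_eq_mul, mul_one] at h3
  rw [ZMod.natCast_eq_zero_iff] at h3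
  exact hpl ((Nat.prime_dvd_prime_iff_eq hℓ.out hp.out).1 h3).symm

include hζ hpl R in
lemma p_dvd_sub_one : p ∣ ℓ - 1 := by
  have h1 := R_zeta_primitive hζ R hpl
  have h2 : R hζ.toInteger ≠ 0 := h1.ne_zero hp.out.ne_zero
  have h3 := ZMod.pow_card_sub_one_eq_one h2
  exact h1.dvd_of_pow_eq_one _ h3

include hζ hpl in
lemma kerV_comp_injective : Function.Injective
    (fun a : (ZMod p)ˣ => kerV (R.comp (sg K a : 𝓞 K →+* 𝓞 K))) := by
  have : NeZero p := ⟨hp.out.ne_zero⟩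
  intro a b hab
  have h0 : kerV (R.comp (sg K a : 𝓞 K →+* 𝓞 K)) = kerV (R.comp (sg K b : 𝓞 K →+* 𝓞 K)) := hab
  have hr := R_zeta_primitive hζ R hpl
  set r := R hζ.toInteger with hrdef
  have h1 : (R.comp (sg K a : 𝓞 K →+* 𝓞 K)) hζ.toInteger = r ^ (a : ZMod p).val := by
    show R (sg K a hζ.toInteger) = _
    rw [sg_zeta, map_pow]
  have h2 : (R.comp (sg K b : 𝓞 K →+* 𝓞 K)) hζ.toInteger = r ^ (b : ZMod p).val := by
    show R (sg K b hζ.toInteger) = _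
    rw [sg_zeta, map_pow]
  have h3 : hζ.toInteger - (((r ^ (a : ZMod p).val : ZMod ℓ).val : ℕ) : 𝓞 K) ∈
      (kerV (R.comp (sg K a : 𝓞 K →+* 𝓞 K))).asIdeal := by
    rw [mem_kerV, map_sub, h1, map_natCast, ZMod.natCast_val, ZMod.cast_id, sub_self]
  rw [h0, mem_kerV, map_sub, h2, map_natCast, ZMod.natCast_val, ZMod.cast_id, sub_eq_zero] at h3
  have h4 := hr.pow_inj (ZMod.val_lt _) (ZMod.val_lt _) h3
  exact (Units.ext (ZMod.val_injective p h4)).symm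

lemma exists_eq_kerV_comp (v : HeightOneSpectrum (𝓞 K)) (hv : (ℓ : 𝓞 K) ∈ v.asIdeal) :
    ∃ a : (ZMod p)ˣ, v = kerV (R.comp (sg K a : 𝓞 K →+* 𝓞 K)) := by
  have : NeZero p := ⟨hp.out.ne_zero⟩
  have hvp := v.isPrime
  have hgal : IsGalois ℚ K := IsCyclotomicExtension.isGalois {p} ℚ K
  have h1 := liesOver_int v hℓ.out hv
  have h2 : ((ℓ : ℕ) : 𝓞 K) ∈ (kerV R).asIdeal := by
    rw [mem_kerV, map_natCast, ZMod.natCast_self]
  have h3 := liesOver_int (kerV R) hℓ.out h2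
  have hkp := (kerV R).isPrime
  obtain ⟨σ, hσ⟩ := Ideal.exists_smul_eq_of_isGaloisGroup (Ideal.span {(ℓ : ℤ)}) v.asIdeal
    (kerV R).asIdeal (K ≃ₐ[ℚ] K)
  refine ⟨cycloGalEquiv p K σ, ?_⟩
  apply HeightOneSpectrum.ext
  ext x
  have h4 : sg K (cycloGalEquiv p K σ) x = σ • x := by
    apply RingOfIntegers.coe_injective
    have h5 : algebraMap (𝓞 K) K (sg K (cycloGalEquiv p K σ) x) =
        ((cycloGalEquiv p K).symm (cycloGalEquiv p K σ)) (algebraMap (𝓞 K) K x) :=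
      algebraMap_galRestrict_apply ℤ ((cycloGalEquiv p K).symm (cycloGalEquiv p K σ)) x
    rw [h5, MulEquiv.symm_apply_apply]
    rfl
  rw [mem_kerV]
  show x ∈ v.asIdeal ↔ R (sg K (cycloGalEquiv p K σ) x) = 0
  rw [h4, ← mem_kerV (R := R), ← hσ, Ideal.smul_mem_pointwise_smul_iff]

/-- the product of conjugates of `1 + ζ` -/
noncomputable def EE : 𝓞 K :=
  ∏ a : (ZMod p)ˣ, (1 + hζ.toInteger ^ (a : ZMod p).val) ^ (((a⁻¹ ^ 2 : (ZMod p)ˣ) : ZMod p)).val

lemma thaine_pow (hp2 : p ≠ 2) (hpl : p ≠ ℓ) (hodd : ℓ ≠ 2) (χ : ClassGroup (𝓞 K) →* ℂ)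
    (hχp : ∀ C, χ C ^ p = 1)
    (hχeq : ∀ (a : (ZMod p)ˣ) C, χ (cg K a C) = χ C ^ ((a ^ 2 : (ZMod p)ˣ) : ZMod p).val)
    (hR : χ (ClassGroup.mk0 (pI (kerV R))) ≠ 1) : ∃ y : ZMod ℓ, R (EE hζ) = y ^ p := by
  classical
  have : NeZero p := ⟨hp.out.ne_zero⟩
  have hdvd := p_dvd_sub_one hζ R hpl
  have hℓ1 : ζ ^ ℓ = ζ := by
    have h1 : ℓ = (ℓ - 1) + 1 := (Nat.sub_add_cancel hℓ.out.one_le).symm
    obtain ⟨k, hk⟩ := hdvd
    rw [h1, pow_succ, hk, pow_mul, hζ.pow_eq_one, one_pow, one_mul]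
  have hz := IsCyclotomicExtension.zeta_spec ℓ K (CyclotomicField ℓ K)
  obtain ⟨κ, s, u, hκ0, -, -, hκ1, hκ2⟩ := thaine_kappa (M := CyclotomicField ℓ K) hζ hz hpl hp2
    hodd hℓ1
  obtain ⟨T, hT0, hT⟩ := prod_chi χ hκ0
  set ξ := χ (ClassGroup.mk0 (pI (kerV R))) with hξ
  have hξp : ξ ^ p = 1 := hχp _
  set Ra : (ZMod p)ˣ → HeightOneSpectrum (𝓞 K) := fun a => kerV (R.comp (sg K a : 𝓞 K →+* 𝓞 K))
    with hRa
  have hRainj : Function.Injective Ra := kerV_comp_injective hζ R hpl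
  set T' : Finset (HeightOneSpectrum (𝓞 K)) := T ∪ univ.image Ra with hT'
  have hT2 : ∏ v ∈ T', χ (ClassGroup.mk0 (pI v)) ^ (mv v κ) = 1 := by
    rw [← hT]
    symm
    refine Finset.prod_subset subset_union_left fun v _ hv => ?_
    rw [hT0 v hv, pow_zero]
  have hmemRa : ∀ a, (ℓ : 𝓞 K) ∈ (Ra a).asIdeal := by
    intro a
    rw [hRa, mem_kerV, map_natCast, ZMod.natCast_self]
  have hone : ∀ v : HeightOneSpectrum (𝓞 K), (ℓ : 𝓞 K) ∉ v.asIdeal →
      χ (ClassGroup.mk0 (pI v)) ^ (mv v κ) = 1 := by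
    intro v hv
    by_cases hpv : (p : 𝓞 K) ∈ v.asIdeal
    · have h1 : ClassGroup.mk0 (pI v) = 1 := by
        rw [ClassGroup.mk0_eq_one_iff]
        show Submodule.IsPrincipal v.asIdeal
        have h2 := liesOver_int v hp.out hpv
        have h3 := v.isPrime
        rw [IsCyclotomicExtension.Rat.eq_span_zeta_sub_one_of_liesOver' p K hζ v.asIdeal]
        exact ⟨⟨_, rfl⟩⟩
      rw [h1, map_one, one_pow]
    · obtain ⟨k, hk⟩ := (hdvd.trans (hκ1 v hpv hv))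
      rw [hk, pow_mul, hχp, one_pow]
  have hT3 : ∏ a : (ZMod p)ˣ, χ (ClassGroup.mk0 (pI (Ra a))) ^ (mv (Ra a) κ) = 1 := by
    rw [← hT2, ← Finset.prod_image (f := fun v => χ (ClassGroup.mk0 (pI v)) ^ (mv v κ))
      (fun a _ b _ h => hRainj h)]
    refine Finset.prod_subset subset_union_right fun v _ hv => ?_
    apply hone
    intro hlv
    obtain ⟨a, ha⟩ := exists_eq_kerV_comp (p := p) R v hlv
    exact hv (Finset.mem_image.2 ⟨a, mem_univ _, ha.symm⟩)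
  have hT4 : ξ ^ (∑ a : (ZMod p)ˣ, (((a⁻¹ ^ 2 : (ZMod p)ˣ) : ZMod p)).val * mv (Ra a) κ) = 1 := by
    rw [← hT3, ← Finset.prod_pow_eq_pow_sum]
    refine Finset.prod_congr rfl fun a _ => ?_
    rw [hRa, mk0_kerV_comp, hχeq, pow_mul]
  have hpd : p ∣ ∑ a : (ZMod p)ˣ, (((a⁻¹ ^ 2 : (ZMod p)ˣ) : ZMod p)).val * mv (Ra a) κ := by
    have h1 : orderOf ξ = p := orderOf_eq_prime hξp hR
    have h2 := orderOf_dvd_of_pow_eq_one hT4
    rwa [h1] at h2
  obtain ⟨N, hN⟩ := hpd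
  have hRa1 : ∀ a : (ZMod p)ˣ, R (1 + hζ.toInteger ^ (a : ZMod p).val) * (s : ZMod ℓ) ^
      (mv (Ra a) κ) = 1 := by
    intro a
    have h1 := hκ2 (Ra a) (hmemRa a)
    rw [hRa, mem_kerV, map_sub, map_mul, map_pow, map_natCast, map_one, sub_eq_zero] at h1
    rw [← h1]
    congr 1
    show _ = R (sg K a (1 + hζ.toInteger))
    rw [map_add (sg K a), map_one, sg_zeta]
  have hRE : R (EE hζ) * ((s : ZMod ℓ) ^ N) ^ p = 1 := by
    have h1 : ((s : ZMod ℓ) ^ N) ^ p = ∏ a : (ZMod p)ˣ, ((s : ZMod ℓ) ^ (mv (Ra a) κ)) ^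
        (((a⁻¹ ^ 2 : (ZMod p)ˣ) : ZMod p)).val := by
      rw [← pow_mul, mul_comm N p, ← hN, ← Finset.prod_pow_eq_pow_sum]
      refine Finset.prod_congr rfl fun a _ => ?_
      rw [← pow_mul, mul_comm]
    rw [h1, EE, map_prod, ← Finset.prod_mul_distrib]
    refine Finset.prod_eq_one fun a _ => ?_
    rw [map_pow, ← mul_pow, hRa1, one_pow]
  refine ⟨((s : ZMod ℓ) ^ N)⁻¹, ?_⟩
  have hne : ((s : ZMod ℓ) ^ N) ^ p ≠ 0 := right_ne_zero_of_mul_eq_one hRE
  rw [inv_pow]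
  exact eq_inv_of_mul_eq_one_left hRE

end

end Cyc

end Fermat.Agent.ExtVan
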