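import Fermat.Agent.ExtVan.UnitRank
import Fermat.Agent.ExtVan.Ell2

set_option autoImplicit false

/-!
# Units in the `ω²`-part which are locally `p`-th powers are `p`-th powers
-/

namespace Fermat.Agent.ExtVan

open NumberField Finset Module Polynomial
open NumberField.Units

variable {p : ℕ} [hp : Fact p.Prime] {K : Type} [Field K] [NumberField K]
  [hK : IsCyclotomicExtension {p} ℚ K] {ζ : K} (hζ : IsPrimitiveRoot ζ p)

lemma exists_mul_pow_of_modEq {G : Type*} [CommGroup G] (x : G) {m m' : ℕ} (h : m ≡ m' [MOD p]) :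
    ∃ y : G, x ^ m = x ^ m' * y ^ p := by
  obtain ⟨q, hq⟩ := (Int.natCast_modEq_iff.2 h).symm.dvd
  refine ⟨x ^ q, ?_⟩
  rw [← zpow_natCast x m, ← zpow_natCast x m', ← zpow_natCast (x ^ q) p, ← zpow_mul, ← zpow_add]
  congr 1
  linarith

section EUnit

variable (hp5 : 5 ≤ p)

include hζ hp5 in
lemma isUnit_one_add : IsUnit (1 + hζ.toInteger) := by
  have h4 := hζ.toInteger_isPrimitiveRoot.geom_sum_isUnit hp.out.two_le (j := 2)
    ((Nat.coprime_primes Nat.prime_two hp.out).2 (by omega))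
  rw [Finset.sum_range_succ, Finset.sum_range_one, pow_zero, pow_one] at h4
  exact h4

/-- the unit `1 + ζ` -/
noncomputable def etaU : (𝓞 K)ˣ := (isUnit_one_add hζ hp5).unit

/-- the unit `E` -/
noncomputable def EU : (𝓞 K)ˣ :=
  ∏ a : (ZMod p)ˣ, (ug K a (etaU hζ hp5)) ^ (((a⁻¹ ^ 2 : (ZMod p)ˣ) : ZMod p)).val

lemma coe_EU : ((EU hζ hp5 : (𝓞 K)ˣ) : 𝓞 K) = EE hζ := by
  rw [EU, Units.coe_prod, EE_eq]
  refine Finset.prod_congr rfl fun a _ => ?_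
  rw [Units.val_pow_eq_pow_val, coe_ug]
  rfl

lemma ug_EU (b : (ZMod p)ˣ) : ∃ k : (𝓞 K)ˣ,
    ug K b (EU hζ hp5) = (EU hζ hp5) ^ ((b ^ 2 : (ZMod p)ˣ) : ZMod p).val * k ^ p := by
  have hNZ : NeZero p := ⟨hp.out.ne_zero⟩
  have h1 : ug K b (EU hζ hp5) = ∏ a : (ZMod p)ˣ, (ug K a (etaU hζ hp5)) ^
      (((a⁻¹ * b) ^ 2 : (ZMod p)ˣ) : ZMod p).val := by
    rw [EU, map_prod]
    refine Fintype.prod_equiv (Equiv.mulLeft b) _ _ fun a => ?_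
    rw [map_pow, ← ug_mul, Equiv.coe_mulLeft]
    congr 3
    rw [mul_inv, mul_comm b⁻¹, inv_mul_cancel_right]
  have h2 : ∀ a : (ZMod p)ˣ, (((a⁻¹ * b) ^ 2 : (ZMod p)ˣ) : ZMod p).val ≡
      ((a⁻¹ ^ 2 : (ZMod p)ˣ) : ZMod p).val * ((b ^ 2 : (ZMod p)ˣ) : ZMod p).val [MOD p] := by
    intro a
    rw [← ZMod.natCast_eq_natCast_iff]
    push_cast
    rw [ZMod.natCast_zmod_val, ZMod.natCast_zmod_val, ZMod.natCast_zmod_val, mul_pow]
  choose y hy using fun a => exists_mul_pow_of_modEq (p := p) (ug K a (etaU hζ hp5)) (h2 a)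
  refine ⟨∏ a : (ZMod p)ˣ, y a, ?_⟩
  rw [h1, EU, ← Finset.prod_pow, ← Finset.prod_pow, ← Finset.prod_mul_distrib]
  refine Finset.prod_congr rfl fun a _ => ?_
  rw [hy a, pow_mul]

lemma c3_unit (u : (𝓞 K)ˣ) : c3 hζ hp5 0 (u : 𝓞 K) ≠ 0 := by
  intro h
  have h1 := (c3_mul hζ hp5 (u : 𝓞 K) ((u⁻¹ : (𝓞 K)ˣ) : 𝓞 K)).1
  rw [Units.mul_inv, h, zero_mul] at h1
  have h2 := (c3_natCast hζ hp5 1).1
  rw [Nat.cast_one, h1, Nat.cast_one] at h2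
  exact zero_ne_one h2

lemma c3_neg (k : ℕ) (x : 𝓞 K) : c3 hζ hp5 k (-x) = -c3 hζ hp5 k x := by
  rw [c3, c3, map_neg, map_neg]

lemma L1_neg_zeta : L1 hζ hp5 (-hζ.toInteger) = 1 := by
  obtain ⟨h0, h1, h2⟩ := c3_zeta hζ hp5
  rw [L1, c3_neg, c3_neg, h0, h1]
  norm_num

lemma L2_neg_zeta : L2 hζ hp5 (-hζ.toInteger) = 0 := by
  obtain ⟨h0, h1, h2⟩ := c3_zeta hζ hp5
  have := two_ne_zero' hp5
  rw [L2, c3_neg, c3_neg, c3_neg, h0, h1, h2]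
  field_simp
  ring

include hp5 in
lemma torsion_eq (τ : (𝓞 K)ˣ) (hτ : τ ∈ torsion K) : ∃ r : ℕ, (τ : 𝓞 K) = (-hζ.toInteger) ^ r := by
  have hNZ : NeZero p := ⟨hp.out.ne_zero⟩
  have h1 : IsOfFinOrder (algebraMap (𝓞 K) K τ) := by
    have h2 : IsOfFinOrder τ := hτ
    have h3 := MonoidHom.isOfFinOrder
      (((algebraMap (𝓞 K) K : 𝓞 K →+* K) : 𝓞 K →* K).comp (Units.coeHom (𝓞 K))) h2
    exact h3
  obtain ⟨r, hr⟩ := IsPrimitiveRoot.exists_neg_pow_of_isOfFinOrder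
    (hp.out.odd_of_ne_two (by omega)) hζ h1
  refine ⟨r, ?_⟩
  apply RingOfIntegers.coe_injective
  rw [hr, map_pow, map_neg]
  rfl

lemma c3_neg_zeta : c3 hζ hp5 0 (-hζ.toInteger) ≠ 0 := by
  rw [c3_neg, (c3_zeta hζ hp5).1]
  norm_num

lemma L2_torsion (τ : (𝓞 K)ˣ) (hτ : τ ∈ torsion K) : L2 hζ hp5 (τ : 𝓞 K) = 0 := by
  obtain ⟨r, hr⟩ := torsion_eq hζ hp5 τ hτ
  rw [hr, L2_pow hζ hp5 (c3_neg_zeta hζ hp5), L2_neg_zeta, mul_zero]

lemma torsion_pow (τ : (𝓞 K)ˣ) (hτ : τ ∈ torsion K) (h : L1 hζ hp5 (τ : 𝓞 K) = 0) :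
    ∃ v : (𝓞 K)ˣ, τ = v ^ p := by
  obtain ⟨r, hr⟩ := torsion_eq hζ hp5 τ hτ
  rw [hr, L1_pow hζ hp5 (c3_neg_zeta hζ hp5), L1_neg_zeta, mul_one, ZMod.natCast_eq_zero_iff] at h
  obtain ⟨m, rfl⟩ := h
  have hu : IsUnit (-hζ.toInteger) := by
    rw [IsUnit.neg_iff]
    exact hζ.toInteger_isPrimitiveRoot.isUnit hp.out.ne_zero
  refine ⟨hu.unit ^ m, ?_⟩
  apply Units.ext
  rw [hr, ← pow_mul, mul_comm p m]
  push_cast
  rfl

lemma co_eigen {u k : (𝓞 K)ˣ} {g : (ZMod p)ˣ} {m : ℕ} (h : ug K g u = u ^ m * k ^ p) :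
    ((umat K g).map (Int.castRingHom (ZMod p))).mulVec
      (fun i => ((co K (Additive.ofMul u) i : ℤ) : ZMod p)) =
      (m : ZMod p) • (fun i => ((co K (Additive.ofMul u) i : ℤ) : ZMod p)) := by
  have h1 := umat_mulVec (K := K) g u
  rw [h, ofMul_mul, ofMul_pow, ofMul_pow, map_add, map_nsmul, map_nsmul] at h1
  funext i
  have h2 := congrFun h1 i
  have h3 := congrArg (Int.castRingHom (ZMod p)) h2
  have h4 : (Int.castRingHom (ZMod p)) (((umat K g).mulVec (co K (Additive.ofMul u))) i) =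
      ((umat K g).map (Int.castRingHom (ZMod p))).mulVec
      (fun i => ((co K (Additive.ofMul u) i : ℤ) : ZMod p)) i := by
    rw [RingHom.map_mulVec]
    rfl
  rw [← h4, h3]
  simp

include hζ hp5 in
theorem unit_is_pow (u : (𝓞 K)ˣ)
    (hu : ∀ a : (ZMod p)ˣ, ∃ k : (𝓞 K)ˣ, ug K a u = u ^ ((a ^ 2 : (ZMod p)ˣ) : ZMod p).val * k ^ p)
    (h1 : L1 hζ hp5 (u : 𝓞 K) = 0) (h2 : L2 hζ hp5 (u : 𝓞 K) = 0) :
    ∃ v : (𝓞 K)ˣ, u = v ^ p := by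
  classical
  have hNZ : NeZero p := ⟨hp.out.ne_zero⟩
  obtain ⟨g, hg⟩ := IsCyclic.exists_generator (α := (ZMod p)ˣ)
  obtain ⟨hrank, hchar⟩ := charpoly_umat hζ (by omega) g hg hp5
  have hn : (((p - 1) / 2 : ℕ) : ZMod p) ≠ 0 := by
    rw [Ne, ZMod.natCast_eq_zero_iff]
    intro h
    have := Nat.le_of_dvd (by omega) h
    omega
  obtain ⟨k, hk⟩ := hu g
  obtain ⟨k', hk'⟩ := ug_EU hζ hp5 g
  obtain ⟨s, t, hst, hdep⟩ := eigen_dep (umat K g) hchar hn _ _ _ (co_eigen hk) (co_eigen hk')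
  have h3 : ∃ v τ : (𝓞 K)ˣ, τ ∈ torsion K ∧ u ^ s.val * (EU hζ hp5) ^ t.val = τ * v ^ p := by
    apply exists_pow_of_co
    intro i
    rw [← ZMod.intCast_zmod_eq_zero_iff_dvd, ofMul_mul, ofMul_pow, ofMul_pow, map_add, map_nsmul,
      map_nsmul]
    have h4 := congrFun hdep i
    simp only [Pi.add_apply, Pi.smul_apply, smul_eq_mul, Pi.zero_apply] at h4
    rw [Pi.add_apply, Pi.smul_apply, Pi.smul_apply, nsmul_eq_mul, nsmul_eq_mul, Int.cast_add,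
      Int.cast_mul, Int.cast_mul, Int.cast_natCast, Int.cast_natCast, ZMod.natCast_zmod_val,
      ZMod.natCast_zmod_val]
    exact h4
  obtain ⟨v, τ, hτ, hv⟩ := h3
  have hcu := c3_unit hζ hp5 u
  have hcE := c3_unit hζ hp5 (EU hζ hp5)
  have hcv := c3_unit hζ hp5 v
  have hcτ := c3_unit hζ hp5 τ
  have hpow : ∀ (x : 𝓞 K) (n : ℕ), c3 hζ hp5 0 x ≠ 0 → c3 hζ hp5 0 (x ^ n) ≠ 0 := by
    intro x n hx
    rw [c3_zero_pow]
    exact pow_ne_zero _ hx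
  have ht : t = 0 := by
    have h4 := congrArg (fun x : (𝓞 K)ˣ => L2 hζ hp5 (x : 𝓞 K)) hv
    simp only [Units.val_mul, Units.val_pow_eq_pow_val] at h4
    rw [L2_mul hζ hp5 (hpow _ _ hcu) (hpow _ _ hcE), L2_mul hζ hp5 hcτ (hpow _ _ hcv),
      L2_pow hζ hp5 hcu, L2_pow hζ hp5 hcE, L2_pow hζ hp5 hcv, h2, mul_zero, zero_add,
      L2_torsion hζ hp5 τ hτ, CharP.cast_eq_zero (ZMod p) p, zero_mul, add_zero, coe_EU, (c3_EE hζ hp5).2,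
      ZMod.natCast_zmod_val] at h4
    rcases mul_eq_zero.1 h4 with h5 | h5
    · exact h5
    · exfalso
      have h6 : (4 : ZMod p) = 2 * 2 := by norm_num
      rw [h6] at h5
      exact neg_ne_zero.2 (one_div_ne_zero (mul_ne_zero (two_ne_zero' hp5) (two_ne_zero' hp5))) h5
  have hs : s ≠ 0 := by
    rcases hst with h | h
    · exact h
    · exact absurd ht h
  rw [ht, ZMod.val_zero, pow_zero, mul_one] at hv
  -- invert `s`
  have h4 : s.val * (s⁻¹).val ≡ 1 [MOD p] := by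
    rw [← ZMod.natCast_eq_natCast_iff]
    push_cast
    rw [ZMod.natCast_zmod_val, ZMod.natCast_zmod_val, mul_inv_cancel₀ hs]
  obtain ⟨y, hy⟩ := exists_mul_pow_of_modEq (p := p) u h4
  rw [pow_one, pow_mul, hv] at hy
  have h5 : u = τ ^ (s⁻¹).val * (v ^ (s⁻¹).val * y⁻¹) ^ p := by
    rw [mul_pow τ] at hy
    have h6 : u = τ ^ (s⁻¹).val * (v ^ p) ^ (s⁻¹).val * (y ^ p)⁻¹ := by
      rw [hy, mul_inv_cancel_right]
    rw [h6, mul_pow, ← pow_mul, ← pow_mul, mul_comm p, inv_pow, mul_assoc]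
  have hτ' : τ ^ (s⁻¹).val ∈ torsion K := pow_mem hτ _
  have h6 : L1 hζ hp5 ((τ ^ (s⁻¹).val : (𝓞 K)ˣ) : 𝓞 K) = 0 := by
    have h7 := h1
    rw [h5, Units.val_mul, Units.val_pow_eq_pow_val (v ^ (s⁻¹).val * y⁻¹),
      L1_mul hζ hp5 (c3_unit hζ hp5 _) (hpow _ _ (c3_unit hζ hp5 _)),
      L1_pow hζ hp5 (c3_unit hζ hp5 _), CharP.cast_eq_zero (ZMod p) p, zero_mul, add_zero] at h7
    exact h7
  obtain ⟨z, hz⟩ := torsion_pow hζ hp5 _ hτ' h6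
  exact ⟨z * (v ^ (s⁻¹).val * y⁻¹), by rw [mul_pow, ← hz, ← h5]⟩

end EUnit

end Fermat.Agent.ExtVan
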