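import Fermat.Agent.ExtVan.ThaineConcl

set_option autoImplicit false

/-!
# The Galois module structure of units modulo `p`-th powers: eigenspaces are at most lines
-/

namespace Fermat.Agent.ExtVan

open NumberField Finset Module Polynomial
open NumberField.Units NumberField.Units.dirichletUnitTheorem

section LinAlg

variable {p : ℕ} [hp : Fact p.Prime]

lemma eigen_dep {r n : ℕ} (A : Matrix (Fin r) (Fin r) ℤ)
    (hA : A.charpoly = ∑ i ∈ range n, X ^ i) (hn : (n : ZMod p) ≠ 0) (c : ZMod p)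
    (x y : Fin r → ZMod p) (hx : (A.map (Int.castRingHom (ZMod p))).mulVec x = c • x)
    (hy : (A.map (Int.castRingHom (ZMod p))).mulVec y = c • y) :
    ∃ s t : ZMod p, (s ≠ 0 ∨ t ≠ 0) ∧ s • x + t • y = 0 := by
  set φ : Module.End (ZMod p) (Fin r → ZMod p) :=
    Matrix.toLin' (A.map (Int.castRingHom (ZMod p))) with hφ
  have h1 : φ.charpoly = ∑ i ∈ range n, X ^ i := by
    rw [hφ, Matrix.charpoly_toLin', Matrix.charpoly_map, hA, Polynomial.map_sum]
    simp
  have h2 : φ.charpoly.Separable := by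
    have h3 : (X ^ n - 1 : (ZMod p)[X]).Separable := X_pow_sub_one_separable_iff.2 hn
    rw [h1]
    have h4 := mul_geom_sum (X : (ZMod p)[X]) n
    rw [← h4] at h3
    exact h3.of_mul_right
  have h3 : finrank (ZMod p) (φ.maxGenEigenspace c) ≤ 1 := by
    rw [LinearMap.finrank_maxGenEigenspace_eq]
    exact rootMultiplicity_le_one_of_separable h2 c
  have hxm : x ∈ φ.maxGenEigenspace c := by
    rw [Module.End.mem_maxGenEigenspace]
    refine ⟨1, ?_⟩
    rw [pow_one, LinearMap.sub_apply, LinearMap.smul_apply, Module.End.one_apply, hφ,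
      Matrix.toLin'_apply, hx, sub_self]
  have hym : y ∈ φ.maxGenEigenspace c := by
    rw [Module.End.mem_maxGenEigenspace]
    refine ⟨1, ?_⟩
    rw [pow_one, LinearMap.sub_apply, LinearMap.smul_apply, Module.End.one_apply, hφ,
      Matrix.toLin'_apply, hy, sub_self]
  obtain ⟨v, hv⟩ := finrank_le_one_iff.1 h3
  obtain ⟨α, hα⟩ := hv ⟨x, hxm⟩
  obtain ⟨β, hβ⟩ := hv ⟨y, hym⟩
  have hα' : α • (v : Fin r → ZMod p) = x := congrArg Subtype.val hα
  have hβ' : β • (v : Fin r → ZMod p) = y := congrArg Subtype.val hβ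
  by_cases h0 : α = 0
  · refine ⟨1, 0, Or.inl one_ne_zero, ?_⟩
    rw [← hα', h0]
    simp
  · refine ⟨β, -α, Or.inr (neg_ne_zero.2 h0), ?_⟩
    rw [← hα', ← hβ', smul_smul, smul_smul, ← add_smul]
    have : β * α + -α * β = 0 := by ring
    rw [this, zero_smul]

end LinAlg

section Places

variable {K : Type*} [Field K] [NumberField K]

open scoped Classical in
lemma functional_eq_zero (d : {w : InfinitePlace K // w ≠ w₀} → ℝ)
    (h : ∀ u : (𝓞 K)ˣ, ∑ w, d w * logEmbedding K (Additive.ofMul u) w = 0) : d = 0 := by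
  classical
  set F : logSpace K →ₗ[ℝ] ℝ := ∑ w, d w • LinearMap.proj w with hF
  have hFa : ∀ x, F x = ∑ w, d w * x w := by
    intro x
    rw [hF, LinearMap.sum_apply]
    rfl
  have h1 : Submodule.span ℝ (unitLattice K : Set (logSpace K)) ≤ LinearMap.ker F := by
    rw [Submodule.span_le]
    rintro x hx
    obtain ⟨u, -, hu⟩ := hx
    rw [SetLike.mem_coe, LinearMap.mem_ker, hFa, ← hu]
    exact h (Additive.toMul u)
  rw [unitLattice_span_eq_top, top_le_iff] at h1
  funext w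
  have h2 : (Pi.single w (1 : ℝ) : logSpace K) ∈ LinearMap.ker F := by rw [h1]; trivial
  rw [LinearMap.mem_ker, hFa] at h2
  simp only [Pi.single_apply, mul_ite, mul_one, mul_zero, Finset.sum_ite_eq', Finset.mem_univ,
    if_true] at h2
  exact h2

/-- if all places are complex, a relation between the logarithms has constant coefficients -/
lemma coeffs_eq (hc : ∀ w : InfinitePlace K, w.IsComplex) (d : InfinitePlace K → ℝ)
    (h : ∀ u : (𝓞 K)ˣ, ∑ w, d w * Real.log (w (algebraMap (𝓞 K) K u)) = 0) (w : InfinitePlace K) :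
    d w = d w₀ := by
  classical
  have h1 : ∀ u : (𝓞 K)ˣ, ∑ w : InfinitePlace K, Real.log (w (algebraMap (𝓞 K) K u)) = 0 := by
    intro u
    have h2 := sum_mult_mul_log u
    have h3 : ∀ w : InfinitePlace K, ((w.mult : ℕ) : ℝ) * Real.log (w (algebraMap (𝓞 K) K u)) =
        2 * Real.log (w (algebraMap (𝓞 K) K u)) := by
      intro w
      rw [InfinitePlace.mult_isComplex ⟨w, hc w⟩]
      norm_num
    rw [Finset.sum_congr rfl fun w _ => h3 w, ← Finset.mul_sum] at h2
    linarith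
  have h2 : (fun w : {w : InfinitePlace K // w ≠ w₀} => d w - d w₀) = 0 := by
    apply functional_eq_zero
    intro u
    have h3 : ∑ w : InfinitePlace K, (d w - d w₀) * Real.log (w (algebraMap (𝓞 K) K u)) = 0 := by
      simp only [sub_mul]
      rw [Finset.sum_sub_distrib, h u, ← Finset.mul_sum, h1 u, mul_zero, sub_zero]
    have h4 : ∑ w : {w : InfinitePlace K // w ≠ w₀}, (d w - d w₀) *
        Real.log (w.1 (algebraMap (𝓞 K) K u)) = 0 := by
      rw [← h3, Fintype.sum_eq_add_sum_subtype_ne (fun w : InfinitePlace K => (d w - d w₀) *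
        Real.log (w (algebraMap (𝓞 K) K u))) w₀, sub_self, zero_mul, zero_add]
    have h5 : ∀ w : {w : InfinitePlace K // w ≠ w₀}, (d w - d w₀) *
        logEmbedding K (Additive.ofMul u) w = 2 * ((d w - d w₀) *
        Real.log (w.1 (algebraMap (𝓞 K) K u))) := by
      intro w
      rw [logEmbedding_component, InfinitePlace.mult_isComplex ⟨w.1, hc w.1⟩]
      push_cast
      ring
    rw [Finset.sum_congr rfl fun w _ => h5 w, ← Finset.mul_sum, h4, mul_zero]
  by_cases hw : w = w₀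
  · rw [hw]
  · have := congrFun h2 ⟨w, hw⟩
    simp only [Pi.zero_apply] at this
    linarith

end Places

section Cyc

variable {p : ℕ} [hp : Fact p.Prime] {K : Type} [Field K] [NumberField K]
  [hK : IsCyclotomicExtension {p} ℚ K] {ζ : K} (hζ : IsPrimitiveRoot ζ p)

include hζ in
lemma place_sg_neg_one (w : InfinitePlace K) (x : 𝓞 K) :
    w (algebraMap (𝓞 K) K (sg K (-1 : (ZMod p)ˣ) x)) = w (algebraMap (𝓞 K) K x) := by
  have hNZ : NeZero p := ⟨hp.out.ne_zero⟩
  have h1 : (w.embedding.comp (algebraMap (𝓞 K) K)).comp (sg K (-1 : (ZMod p)ˣ) : 𝓞 K →+* 𝓞 K) =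
      (starRingEnd ℂ).comp (w.embedding.comp (algebraMap (𝓞 K) K)) := by
    apply hom_ext_zeta hζ
    show w.embedding (algebraMap (𝓞 K) K (sg K (-1 : (ZMod p)ˣ) hζ.toInteger)) =
      (starRingEnd ℂ) (w.embedding (algebraMap (𝓞 K) K hζ.toInteger))
    have h2 : algebraMap (𝓞 K) K hζ.toInteger = ζ := rfl
    rw [sg_zeta, map_pow, map_pow, h2]
    have h3 : (w.embedding ζ) ^ p = 1 := by rw [← map_pow, hζ.pow_eq_one, map_one]
    have h4 : ‖w.embedding ζ‖ = 1 := Complex.norm_eq_one_of_pow_eq_one h3 hp.out.ne_zero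
    have h5 : w.embedding ζ * (starRingEnd ℂ) (w.embedding ζ) = 1 := by
      rw [Complex.mul_conj, Complex.normSq_eq_norm_sq, h4]
      norm_num
    have h6 : w.embedding ζ ≠ 0 := left_ne_zero_of_mul_eq_one h5
    apply mul_left_cancel₀ h6
    rw [h5, ← pow_succ']
    have h7 : p ∣ ((-1 : (ZMod p)ˣ) : ZMod p).val + 1 := by
      rw [← ZMod.natCast_eq_zero_iff]
      push_cast
      rw [ZMod.natCast_zmod_val]
      simp
    obtain ⟨k, hk⟩ := h7
    rw [hk, pow_mul, h3, one_pow]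
  have h2 := DFunLike.congr_fun h1 x
  have h3 : w.embedding (algebraMap (𝓞 K) K (sg K (-1 : (ZMod p)ˣ) x)) =
    (starRingEnd ℂ) (w.embedding (algebraMap (𝓞 K) K x)) := h2
  rw [← InfinitePlace.norm_embedding_eq, h3, RCLike.norm_conj, InfinitePlace.norm_embedding_eq]

include hζ in
lemma exists_place_sg (w w' : InfinitePlace K) : ∃ a : (ZMod p)ˣ, ∀ x : 𝓞 K,
    w (algebraMap (𝓞 K) K x) = w' (algebraMap (𝓞 K) K (sg K a x)) := by
  have hNZ : NeZero p := ⟨hp.out.ne_zero⟩
  have h1 : IsPrimitiveRoot (w.embedding ζ) p := hζ.map_of_injective w.embedding.injective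
  have h2 : IsPrimitiveRoot (w'.embedding ζ) p := hζ.map_of_injective w'.embedding.injective
  obtain ⟨k, hk, hk2⟩ := h2.eq_pow_of_pow_eq_one h1.pow_eq_one
  have hcop : k.Coprime p := by
    rw [← h2.pow_iff_coprime hp.out.pos, hk2]
    exact h1
  refine ⟨ZMod.unitOfCoprime k hcop, fun x => ?_⟩
  have h3 : (w'.embedding.comp (algebraMap (𝓞 K) K)).comp
      (sg K (ZMod.unitOfCoprime k hcop) : 𝓞 K →+* 𝓞 K) =
      w.embedding.comp (algebraMap (𝓞 K) K) := by
    apply hom_ext_zeta hζ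
    show w'.embedding (algebraMap (𝓞 K) K (sg K (ZMod.unitOfCoprime k hcop) hζ.toInteger)) =
      w.embedding (algebraMap (𝓞 K) K hζ.toInteger)
    have h4 : algebraMap (𝓞 K) K hζ.toInteger = ζ := rfl
    rw [sg_zeta, map_pow, map_pow, h4, ZMod.coe_unitOfCoprime, ZMod.val_natCast_of_lt hk, hk2]
  have h4 := DFunLike.congr_fun h3 x
  have h5 : w'.embedding (algebraMap (𝓞 K) K (sg K (ZMod.unitOfCoprime k hcop) x)) =
    w.embedding (algebraMap (𝓞 K) K x) := h4
  rw [← InfinitePlace.norm_embedding_eq, ← h5, InfinitePlace.norm_embedding_eq]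

variable (hp2 : p ≠ 2) (g : (ZMod p)ˣ) (hg : ∀ x, x ∈ Subgroup.zpowers g)

include hp2 hg in
lemma g_pow_half : g ^ ((p - 1) / 2) = -1 := by
  have hNZ : NeZero p := ⟨hp.out.ne_zero⟩
  have hord : orderOf g = p - 1 := by
    rw [orderOf_eq_card_of_forall_mem_zpowers hg, Nat.card_eq_fintype_card,
      ZMod.card_units_eq_totient, Nat.totient_prime hp.out]
  have heven : Even (p - 1) := hp.out.even_sub_one hp2
  obtain ⟨n, hn⟩ := heven
  have hn2 : (p - 1) / 2 = n := by omega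
  have hp1 : 2 ≤ p := hp.out.two_le
  rw [hn2]
  have h1 : (g ^ n) ^ 2 = 1 := by
    rw [← pow_mul, mul_two, ← hn, ← hord, pow_orderOf_eq_one]
  have h2 : g ^ n ≠ 1 := by
    intro h
    have h3 := orderOf_dvd_of_pow_eq_one h
    rw [hord] at h3
    have := Nat.le_of_dvd (by omega) h3
    omega
  have h3 : ((g ^ n : (ZMod p)ˣ) : ZMod p) ^ 2 = 1 := by
    rw [← Units.val_pow_eq_pow_val, h1, Units.val_one]
  rw [pow_two, mul_self_eq_one_iff] at h3
  rcases h3 with h4 | h4
  · exact absurd (Units.ext h4) h2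
  · apply Units.ext
    rw [h4]
    simp

include hζ hp2 hg in
lemma exists_idx (w w' : InfinitePlace K) : ∃ i : Fin ((p - 1) / 2), ∀ x : 𝓞 K,
    w (algebraMap (𝓞 K) K x) = w' (algebraMap (𝓞 K) K (sg K (g ^ (i : ℕ)) x)) := by
  have hNZ : NeZero p := ⟨hp.out.ne_zero⟩
  obtain ⟨a, ha⟩ := exists_place_sg hζ w w'
  set n := (p - 1) / 2 with hn
  have hn0 : 0 < n := by
    have := hp.out.two_le
    omega
  have hfin : IsOfFinOrder g := isOfFinOrder_of_finite g
  obtain ⟨k, hk⟩ := hfin.mem_powers_iff_mem_zpowers.2 (hg a)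
  have hk' : g ^ k = a := hk
  refine ⟨⟨k % n, Nat.mod_lt _ hn0⟩, fun x => ?_⟩
  rw [ha x, ← hk']
  show _ = w' (algebraMap (𝓞 K) K (sg K (g ^ (k % n)) x))
  have h1 : g ^ k = (g ^ n) ^ (k / n) * g ^ (k % n) := by
    rw [← pow_mul, ← pow_add, Nat.div_add_mod]
  rw [h1, g_pow_half hp2 g hg, sg_mul]
  have h2 : ∀ m : ℕ, ∀ y : 𝓞 K, w' (algebraMap (𝓞 K) K (sg K ((-1 : (ZMod p)ˣ) ^ m) y)) =
      w' (algebraMap (𝓞 K) K y) := by
    intro m
    induction m with
    | zero => intro y; rw [pow_zero, sg_one]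
    | succ m ih => intro y; rw [pow_succ, sg_mul, ih, place_sg_neg_one hζ]
  exact h2 _ _

/-- action on units -/
noncomputable def ug (K : Type) [Field K] [NumberField K] {p : ℕ} [hp : Fact p.Prime]
    [hK : IsCyclotomicExtension {p} ℚ K] (a : (ZMod p)ˣ) : (𝓞 K)ˣ →* (𝓞 K)ˣ :=
  Units.map ((sg K a : 𝓞 K →+* 𝓞 K) : 𝓞 K →* 𝓞 K)

lemma coe_ug (a : (ZMod p)ˣ) (u : (𝓞 K)ˣ) : ((ug K a u : (𝓞 K)ˣ) : 𝓞 K) = sg K a (u : 𝓞 K) := rfl

lemma ug_mul (a b : (ZMod p)ˣ) (u : (𝓞 K)ˣ) : ug K (a * b) u = ug K a (ug K b u) := by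
  apply Units.ext
  rw [coe_ug, coe_ug, coe_ug, sg_mul]

lemma ug_one (u : (𝓞 K)ˣ) : ug K (1 : (ZMod p)ˣ) u = u := by
  apply Units.ext
  rw [coe_ug, sg_one]

lemma exists_co (K : Type*) [Field K] [NumberField K] :
    ∃ co : Additive (𝓞 K)ˣ →+ (Fin (rank K) → ℤ),
      (∀ u : (𝓞 K)ˣ, ∃ τ ∈ torsion K, u = τ * ∏ i, fundSystem K i ^ (co (Additive.ofMul u) i)) ∧
      ∀ τ ∈ torsion K, co (Additive.ofMul τ) = 0 := by
  have h := exist_unique_eq_mul_prod K
  choose te hte huniq using h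
  have h1 : ∀ (u τ : (𝓞 K)ˣ) (e : Fin (rank K) → ℤ), τ ∈ torsion K →
      u = τ * ∏ i, fundSystem K i ^ (e i) → (te u).2 = e := by
    intro u τ e hτ hu
    have h2 := huniq u ⟨⟨τ, hτ⟩, e⟩ hu
    rw [← h2]
  refine ⟨⟨⟨fun u => (te (Additive.toMul u)).2, ?_⟩, ?_⟩, ?_, ?_⟩
  · exact h1 _ 1 0 (one_mem _) (by simp)
  · intro u v
    refine h1 _ ((te (Additive.toMul u)).1 * (te (Additive.toMul v)).1) _
      (mul_mem (te (Additive.toMul u)).1.2 (te (Additive.toMul v)).1.2) ?_
    rw [toMul_add]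
    conv_lhs => rw [hte (Additive.toMul u), hte (Additive.toMul v)]
    simp only [Pi.add_apply, zpow_add]
    rw [Finset.prod_mul_distrib]
    exact mul_mul_mul_comm _ _ _ _
  · intro u
    exact ⟨(te u).1, (te u).1.2, hte u⟩
  · intro τ hτ
    exact h1 _ τ 0 hτ (by simp)

/-- coordinates of units -/
noncomputable def co (K : Type*) [Field K] [NumberField K] :
    Additive (𝓞 K)ˣ →+ (Fin (rank K) → ℤ) := (exists_co K).choose

lemma co_spec (K : Type*) [Field K] [NumberField K] (u : (𝓞 K)ˣ) :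
    ∃ τ ∈ torsion K, u = τ * ∏ i, fundSystem K i ^ (co K (Additive.ofMul u) i) :=
  (exists_co K).choose_spec.1 u

lemma co_torsion (K : Type*) [Field K] [NumberField K] {τ : (𝓞 K)ˣ} (hτ : τ ∈ torsion K) :
    co K (Additive.ofMul τ) = 0 := (exists_co K).choose_spec.2 τ hτ

lemma mem_torsion_of_co {K : Type*} [Field K] [NumberField K] {u : (𝓞 K)ˣ}
    (h : co K (Additive.ofMul u) = 0) : u ∈ torsion K := by
  obtain ⟨τ, hτ, hu⟩ := co_spec K u
  rw [h] at hu
  simp only [Pi.zero_apply, zpow_zero, Finset.prod_const_one, mul_one] at hu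
  rwa [hu]

lemma exists_pow_of_co {K : Type*} [Field K] [NumberField K] {u : (𝓞 K)ˣ} {m : ℕ}
    (h : ∀ i, (m : ℤ) ∣ co K (Additive.ofMul u) i) : ∃ v τ : (𝓞 K)ˣ, τ ∈ torsion K ∧
      u = τ * v ^ m := by
  obtain ⟨τ, hτ, hu⟩ := co_spec K u
  choose e he using h
  refine ⟨∏ i, fundSystem K i ^ (e i), τ, hτ, ?_⟩
  rw [← Finset.prod_pow]
  conv_lhs => rw [hu]
  congr 1
  refine Finset.prod_congr rfl fun i _ => ?_
  rw [he i, ← zpow_natCast, ← zpow_mul, mul_comm]

lemma log_torsion {K : Type*} [Field K] [NumberField K] {u : (𝓞 K)ˣ} (hu : u ∈ torsion K)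
    (w : InfinitePlace K) : Real.log (w (algebraMap (𝓞 K) K u)) = 0 := by
  rw [(mem_torsion K).1 hu w, Real.log_one]

/-- log as a hom -/
noncomputable def lw {K : Type*} [Field K] [NumberField K] (w : InfinitePlace K) :
    Additive (𝓞 K)ˣ →+ ℝ where
  toFun u := Real.log (w (algebraMap (𝓞 K) K ((Additive.toMul u : (𝓞 K)ˣ) : 𝓞 K)))
  map_zero' := by simp
  map_add' u v := by
    rw [toMul_add, Units.val_mul, map_mul, map_mul, Real.log_mul]
    · simp
    · simp

/-- the matrix of the action -/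
noncomputable def umat (K : Type) [Field K] [NumberField K] {p : ℕ} [hp : Fact p.Prime]
    [hK : IsCyclotomicExtension {p} ℚ K] (a : (ZMod p)ˣ) : Matrix (Fin (rank K)) (Fin (rank K)) ℤ :=
  fun j i => co K (Additive.ofMul (ug K a (fundSystem K i))) j

lemma torsion_ug (a : (ZMod p)ˣ) {τ : (𝓞 K)ˣ} (hτ : τ ∈ torsion K) : ug K a τ ∈ torsion K :=
  MonoidHom.isOfFinOrder (ug K a) hτ

lemma umat_mulVec (a : (ZMod p)ˣ) (u : (𝓞 K)ˣ) :
    (umat K a).mulVec (co K (Additive.ofMul u)) = co K (Additive.ofMul (ug K a u)) := by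
  obtain ⟨τ, hτ, hu⟩ := co_spec K u
  generalize co K (Additive.ofMul u) = e at *
  rw [hu, map_mul, map_prod, ofMul_mul, map_add, co_torsion K (torsion_ug a hτ), zero_add,
    ofMul_prod, map_sum]
  funext j
  rw [Finset.sum_apply]
  simp only [Matrix.mulVec, dotProduct, umat]
  refine Finset.sum_congr rfl fun i _ => ?_
  rw [map_zpow, ofMul_zpow, map_zsmul, Pi.smul_apply, smul_eq_mul, mul_comm]

lemma umat_pow_mulVec (a : (ZMod p)ˣ) (k : ℕ) (u : (𝓞 K)ˣ) :
    (umat K a ^ k).mulVec (co K (Additive.ofMul u)) = co K (Additive.ofMul (ug K (a ^ k) u)) := by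
  induction k generalizing u with
  | zero => rw [pow_zero, pow_zero, Matrix.one_mulVec, ug_one]
  | succ k ih =>
    rw [pow_succ, ← Matrix.mulVec_mulVec, umat_mulVec, ih, pow_succ, ug_mul]

lemma sum_coeff_log (a : (ZMod p)ˣ) (w : InfinitePlace K) (u : (𝓞 K)ˣ) :
    ∑ k ∈ range (rank K + 1), ((umat K a).charpoly.coeff k : ℝ) *
      Real.log (w (algebraMap (𝓞 K) K (sg K (a ^ k) u))) = 0 := by
  set P := (umat K a).charpoly with hP
  have hdeg : P.natDegree = rank K := by
    rw [hP, Matrix.charpoly_natDegree_eq_dim, Fintype.card_fin]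
  have h1 : aeval (umat K a) P = 0 := Matrix.aeval_self_charpoly _
  rw [aeval_eq_sum_range, hdeg] at h1
  set U : (𝓞 K)ˣ := ∏ k ∈ range (rank K + 1), (ug K (a ^ k) u) ^ (P.coeff k) with hU
  have h2 : co K (Additive.ofMul U) = 0 := by
    rw [hU, ofMul_prod, map_sum]
    have h3 := congrArg (fun M => Matrix.mulVec M (co K (Additive.ofMul u))) h1
    simp only [Matrix.zero_mulVec] at h3
    rw [Matrix.sum_mulVec] at h3
    rw [← h3]
    refine Finset.sum_congr rfl fun k _ => ?_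
    rw [ofMul_zpow, map_zsmul, Matrix.smul_mulVec, umat_pow_mulVec]
  have h3 := log_torsion (mem_torsion_of_co h2) w
  have h4 : lw w (Additive.ofMul U) = 0 := h3
  rw [hU, ofMul_prod, map_sum] at h4
  rw [← h4]
  refine Finset.sum_congr rfl fun k _ => ?_
  rw [ofMul_zpow, map_zsmul, zsmul_eq_mul]
  rfl

lemma place_ext {K : Type*} [Field K] [NumberField K] {w w' : InfinitePlace K}
    (h : ∀ x : 𝓞 K, w (algebraMap (𝓞 K) K x) = w' (algebraMap (𝓞 K) K x)) : w = w' := by
  apply DFunLike.ext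
  intro x
  obtain ⟨a, b, hb, rfl⟩ := IsFractionRing.div_surjective (A := 𝓞 K) x
  rw [map_div₀, map_div₀, h, h]

include hζ hp2 hg in
lemma charpoly_umat (hp5 : 5 ≤ p) :
    rank K + 1 = (p - 1) / 2 ∧ (umat K g).charpoly = ∑ i ∈ range ((p - 1) / 2), X ^ i := by
  classical
  have hNZ : NeZero p := ⟨hp.out.ne_zero⟩
  have hcard : Fintype.card (InfinitePlace K) = (p - 1) / 2 := by
    rw [InfinitePlace.card_eq_nrRealPlaces_add_nrComplexPlaces,
      IsCyclotomicExtension.Rat.nrRealPlaces_eq_zero K (n := p) (by omega),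
      IsCyclotomicExtension.Rat.nrComplexPlaces_eq_totient_div_two p K, zero_add,
      Nat.totient_prime hp.out]
  have hrank : rank K + 1 = (p - 1) / 2 := by
    rw [rank, hcard]
    omega
  refine ⟨hrank, ?_⟩
  have hcomplex : ∀ w : InfinitePlace K, w.IsComplex := by
    intro w
    rw [← InfinitePlace.not_isReal_iff_isComplex]
    intro hw
    have h1 := IsCyclotomicExtension.Rat.nrRealPlaces_eq_zero K (n := p) (by omega)
    rw [InfinitePlace.nrRealPlaces, Fintype.card_eq_zero_iff] at h1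
    exact h1.false ⟨w, hw⟩
  set n := (p - 1) / 2 with hn
  set P := (umat K g).charpoly with hP
  have hdeg : P.natDegree = rank K := by
    rw [hP, Matrix.charpoly_natDegree_eq_dim, Fintype.card_fin]
  have hmonic : P.Monic := Matrix.charpoly_monic _
  choose idx hidx using fun w => exists_idx hζ hp2 g hg w (w₀ : InfinitePlace K)
  have hinj : Function.Injective idx := by
    intro w w' h
    apply place_ext
    intro x
    rw [hidx w, hidx w', h]
  have hbij : Function.Bijective idx := by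
    rw [Fintype.bijective_iff_injective_and_card]
    refine ⟨hinj, ?_⟩
    rw [hcard, Fintype.card_fin]
  have hsum : ∀ u : (𝓞 K)ˣ, ∑ w : InfinitePlace K, (P.coeff (idx w : ℕ) : ℝ) *
      Real.log (w (algebraMap (𝓞 K) K u)) = 0 := by
    intro u
    have h1 := sum_coeff_log g (w₀ : InfinitePlace K) u
    rw [hrank, ← Fin.sum_univ_eq_sum_range (fun k => ((umat K g).charpoly.coeff k : ℝ) *
      Real.log ((w₀ : InfinitePlace K) (algebraMap (𝓞 K) K (sg K (g ^ k) u)))) n] at h1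
    rw [← h1]
    refine Fintype.sum_equiv (Equiv.ofBijective idx hbij) _ _ fun w => ?_
    rw [Equiv.ofBijective_apply, hidx w]
  have hcoef := coeffs_eq hcomplex (fun w => (P.coeff (idx w : ℕ) : ℝ)) hsum
  have hall : ∀ k < n, P.coeff k = 1 := by
    have h1 : ∀ k < n, (P.coeff k : ℝ) = (P.coeff (idx w₀ : ℕ) : ℝ) := by
      intro k hk
      obtain ⟨w, hw⟩ := hbij.2 ⟨k, hk⟩
      have h2 := hcoef w
      simp only [hw] at h2
      exact h2
    have h2 : P.coeff (rank K) = 1 := by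
      rw [← hdeg]
      exact hmonic
    intro k hk
    have h3 := h1 k hk
    have h4 := h1 (rank K) (by omega)
    rw [← h4, h2] at h3
    exact_mod_cast h3
  ext k
  rw [finsetSum_coeff]
  simp only [coeff_X_pow]
  rw [Finset.sum_ite_eq]
  split_ifs with hk
  · exact hall k (Finset.mem_range.1 hk)
  · apply coeff_eq_zero_of_natDegree_lt
    rw [hdeg]
    rw [Finset.mem_range] at hk
    omega

end Cyc

end Fermat.Agent.ExtVan
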